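import Fermat.Agent.Mazur.CuspPlaces
import Fermat.Agent.Modular.API
import Fermat.Agent.ModularPlaces.Genus
import Fermat.Agent.Reduction.GaussUnit
import Fermat.Agent.Torsion.ExtC
import Fermat.Prelude.Def_ModularCurve_ModularUnit

/-!
# The modular unit `Δ(τ)/Δ(pτ)` on `X₀(p)`

`uB p` is `Δ(τ)/Δ(pτ)` as a function on the curve over `ℚ̄`: it lies in the function field over
`ℂ` and has rational coefficients (`mem_bar_of_coeffMap_mem`).  It has no zero or pole at places
where `j` is finite, so its divisor is `(p - 1)((0) - (∞))` (`divisorOf_uB`); hence `p - 1` kills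
the cuspidal class (`sub_one_zsmul_placeDiff`).
-/

set_option autoImplicit false
set_option linter.style.haveILetI false

noncomputable section

open UpperHalfPlane ModularCurve AlgebraicCurve CongruenceSubgroup
open scoped MatrixGroups

namespace FLTAgent.Mazur

local notation "Qb" => AlgebraicClosure ℚ

/-- A series with algebraic coefficients lying in the function field over `ℂ` lies in the
function field over `ℚ̄`. -/
theorem mem_bar_of_coeffMap_mem {N : ℕ} [NeZero N] (ι : Qb →+* ℂ) {y : LaurentSeries Qb}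
    (hy : coeffMap ι y ∈ Modular.FC N) : y ∈ modularFunctionFieldBar N := by
  classical
  let : Algebra Qb ℂ := ι.toAlgebra
  obtain ⟨a, ha, b, hb, hb0, hab⟩ :=
    (Torsion.isConstExt_embFC (N := N) ι).generates ⟨coeffMap ι y, hy⟩
  rw [Finsupp.mem_span_range_iff_exists_finsupp] at ha hb
  obtain ⟨ca, rfl⟩ := ha
  obtain ⟨cb, rfl⟩ := hb
  let B := Module.Basis.ofVectorSpace Qb ℂ
  -- the coordinate functionals, coefficientwise
  let φ : _ → ℂ →ₗ[Qb] Qb := fun j => B.coord j
  let Φ : _ → LaurentSeries ℂ →+ LaurentSeries Qb := fun j =>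
    { toFun := fun x => x.map (φ j).toAddMonoidHom
      map_zero' := HahnSeries.ext (funext fun k => by simp)
      map_add' := fun x x' => HahnSeries.ext (funext fun k => by simp) }
  have hΦ : ∀ j (c : ℂ) (g : LaurentSeries Qb),
      Φ j (algebraMap ℂ (LaurentSeries ℂ) c * coeffMap ι g) =
        algebraMap Qb (LaurentSeries Qb) (φ j c) * g := fun j c g => by
    ext k
    show φ j ((algebraMap ℂ (LaurentSeries ℂ) c * coeffMap ι g).coeff k) =
      (algebraMap Qb (LaurentSeries Qb) (φ j c) * g).coeff k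
    rw [algebraMap_laurentSeries_eq_single, HahnSeries.coeff_single_mul,
      algebraMap_laurentSeries_eq_single, HahnSeries.coeff_single_mul, sub_zero, coeffMap_coeff,
      show c * ι (g.coeff k) = g.coeff k • c by rw [mul_comm]; rfl, map_smul, smul_eq_mul,
      mul_comm]
  have hval : ∀ (c : ℂ) (f : modularFunctionFieldBar N),
      (Modular.FC N).val (c • Torsion.embFC N ι f) =
        algebraMap ℂ (LaurentSeries ℂ) c * coeffMap ι (f : LaurentSeries Qb) := fun c f => by
    rw [Algebra.smul_def, map_mul]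
    rfl
  -- the identity `b y = a` of series
  have hid : (cb.sum fun f c => algebraMap ℂ (LaurentSeries ℂ) c *
      coeffMap ι ((f : LaurentSeries Qb) * y)) =
      ca.sum fun f c => algebraMap ℂ (LaurentSeries ℂ) c * coeffMap ι (f : LaurentSeries Qb) := by
    have h := (eq_div_iff hb0).mp hab
    have h' := congrArg (Modular.FC N).val h
    rw [map_mul, map_finsuppSum, map_finsuppSum] at h'
    simp only [hval] at h'
    rw [Finsupp.mul_sum] at h'
    refine Eq.trans (Finsupp.sum_congr fun f _ => ?_) h'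
    rw [map_mul]
    show _ = coeffMap ι y * ((algebraMap ℂ (LaurentSeries ℂ) (cb f)) *
      coeffMap ι (f : LaurentSeries Qb))
    ring
  obtain ⟨j, hj⟩ : ∃ j, (cb.sum fun f c => algebraMap Qb (LaurentSeries Qb) (φ j c) * (f : LaurentSeries Qb)) ≠ 0 := by
    by_contra hcon
    push Not at hcon
    apply hb0
    refine Subtype.ext ?_
    show (Modular.FC N).val _ = 0
    rw [map_finsuppSum]
    simp only [hval]
    ext k
    refine B.repr.injective (Finsupp.ext fun j => ?_)
    have h := congrArg (fun x : LaurentSeries Qb => x.coeff k) (hcon j)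
    simp only [HahnSeries.coeff_zero, map_zero, Finsupp.zero_apply] at h ⊢
    rw [← h]
    have h2 : Φ j (cb.sum fun f c => algebraMap ℂ (LaurentSeries ℂ) c *
        coeffMap ι (f : LaurentSeries Qb)) =
        cb.sum fun f c => algebraMap Qb (LaurentSeries Qb) (φ j c) * (f : LaurentSeries Qb) := by
      rw [map_finsuppSum]; simp only [hΦ]
    rw [← h2]
    rfl
  have hmem : ∀ (j) (c : modularFunctionFieldBar N →₀ ℂ),
      (c.sum fun f c => algebraMap Qb (LaurentSeries Qb) (φ j c) * (f : LaurentSeries Qb)) ∈ modularFunctionFieldBar N := fun j c =>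
    sum_mem fun f _ => mul_mem (IntermediateField.algebraMap_mem _ _) f.2
  have key : (cb.sum fun f c => algebraMap Qb (LaurentSeries Qb) (φ j c) * (f : LaurentSeries Qb)) * y =
      ca.sum fun f c => algebraMap Qb (LaurentSeries Qb) (φ j c) * (f : LaurentSeries Qb) := by
    have h := congrArg (Φ j) hid
    rw [map_finsuppSum, map_finsuppSum] at h
    simp only [hΦ] at h
    rw [← h, Finsupp.sum_mul]
    exact Finsupp.sum_congr fun f _ => mul_assoc _ _ _
  rw [← mul_div_cancel_left₀ y hj, key]
  exact div_mem (hmem j ca) (hmem j cb)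

local notation "Δ" => ModularForm.discriminant

variable (p : ℕ) [hp : Fact p.Prime]

/-- `Δ(τ)/Δ(pτ)`. -/
def unitFun : ℍ → ℂ := fun z => Δ z / Δ (ModularCosets.triSmul p 0 1 z)

theorem coeffEmb_deltaSeries (L : Type*) [Field L] [Algebra ℚ L] :
    coeffEmb L deltaSeries = Reduction.etaSer L := by
  rw [deltaSeries, dedekindEtaUnitQ, coeffEmb, map_mul, coeffMap_single, map_one,
    coeffMap_ofPowerSeries, Reduction.etaSer, ← RingHom.comp_apply (PowerSeries.map _),
    ← PowerSeries.map_comp,
    RingHom.ext_int ((algebraMap ℚ L).comp (Int.castRingHom ℚ)) (Int.castRingHom L)]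

theorem hasQExp_unitFun :
    Modular.HasQExp 1 (unitFun p) (coeffEmb ℂ (modularUnitSeries p)) := by
  have h1 := Reduction.discriminant_qExp
  have h2 := h1.comp_mul p (φ := ModularCosets.triSmul p 0 1) fun z => by
    simp [ModularCosets.coe_triSmul]
  have h := h1.div one_pos h2
  rwa [modularUnitSeries, deltaSeriesN, map_mul, map_inv₀, coeffEmb_deltaSeries, coeffEmb,
    coeffMap_qExpand, ← coeffEmb, coeffEmb_deltaSeries, ← div_eq_mul_inv]

theorem analyticAt_unitFun (z : ℍ) : AnalyticAt ℂ (unitFun p ∘ ofComplex) (z : ℂ) := by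
  have hd := Reduction.discriminant_diff
  have hz := (isOpen_upperHalfPlaneSet.mem_nhds z.im_pos)
  have h := (Reduction.deltaFn_pair (d := p) (γ := 1) (N := p)
    (ModularCosets.triData p 1) dvd_rfl).inv.1
  have h' := (ModularCosets.mem_holPairs.mp h).1.analyticAt hz
  rw [show unitFun p = (Reduction.deltaFn p 1)⁻¹ from
    funext fun w => by simp [unitFun, Reduction.deltaFn]]
  exact h'

theorem unitFun_ne_zero (z : ℍ) : unitFun p z ≠ 0 :=
  div_ne_zero (ModularForm.discriminant_ne_zero _) (ModularForm.discriminant_ne_zero _)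

theorem unitFun_smul (γ : SL(2, ℤ)) (z : ℍ) :
    unitFun p (γ • z) = (Reduction.deltaFn p γ z)⁻¹ := by
  simp [unitFun, Reduction.deltaFn]

theorem isModFun_unitFun : Modular.IsModFun p (unitFun p) := by
  refine ⟨Modular.isMero_of_analyticAt (analyticAt_unitFun p),
    Modular.isMeroAtCusps_of_exists_hasQExp fun γ => ?_, fun γ z => ?_⟩
  · have h := (Reduction.deltaFn_pair (d := p) (γ := γ) (N := p)
      (ModularCosets.triData p γ) dvd_rfl).inv.1
    refine ⟨_, (ModularCosets.mem_holPairs.mp h).2.congr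
      (Filter.Eventually.of_forall fun z => ?_)⟩
    show (Reduction.deltaFn p γ z)⁻¹ = unitFun p (γ • z)
    exact (unitFun_smul p γ z).symm
  · have h1 := unitFun_smul p (γ : SL(2, ℤ)) z
    have h2 := unitFun_smul p 1 z
    rw [one_smul] at h2
    rw [h1, h2, ← congrFun (Reduction.deltaFn_mul_of_mem γ.2 1) z, mul_one]

theorem coeffEmb_unit_mem : coeffEmb Qb (modularUnitSeries p) ∈ modularFunctionFieldBar p := by
  refine mem_bar_of_coeffMap_mem ModularCosets.iotaBar ?_
  rw [coeffEmb, coeffMap_coeffMap,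
    coeffMap_congr (Subsingleton.elim _ (algebraMap ℚ ℂ)) (modularUnitSeries p)]
  exact (isModFun_unitFun p).mem_FC (hasQExp_unitFun p)

/-- `Δ(τ)/Δ(pτ)` as a function on `X₀(p)` over `ℚ̄`. -/
def uB : modularFunctionFieldBar p :=
  ⟨coeffEmb Qb (modularUnitSeries p), coeffEmb_unit_mem p⟩

theorem coe_uB : (uB p : LaurentSeries Qb) = coeffEmb Qb (modularUnitSeries p) := rfl

theorem order_coe_uB : (uB p : LaurentSeries Qb).order = 1 - (p : ℤ) := by
  have h := order_modularUnitSeries p
  have hne := modularUnitSeries_ne_zero p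
  have hc : (uB p : LaurentSeries Qb).coeff (1 - (p : ℤ)) = 1 := by
    rw [coe_uB, coeffEmb, coeffMap_coeff, coeff_modularUnitSeries_self, map_one]
  refine le_antisymm (HahnSeries.order_le_of_coeff_ne_zero (by rw [hc]; exact one_ne_zero)) ?_
  by_contra hlt
  have h0 : (uB p : LaurentSeries Qb) ≠ 0 :=
    HahnSeries.ne_zero_of_coeff_ne_zero (g := 1 - (p : ℤ)) (by rw [hc]; exact one_ne_zero)
  refine h0 (HahnSeries.coeff_order_eq_zero.mp ?_)
  rw [coe_uB, coeffEmb] at hlt
  rw [coe_uB, coeffEmb, coeffMap_coeff,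
    coeff_modularUnitSeries_of_lt p (not_le.mp hlt), map_zero]

theorem uB_ne_zero : uB p ≠ 0 := fun h => by
  have := order_coe_uB p
  rw [h, ZeroMemClass.coe_zero, HahnSeries.order_zero] at this
  have := hp.out.two_le
  omega

variable {p}

theorem ord_uB_of_nonneg {v : Pl p} (hv : 0 ≤ v.ord (ModularPlaces.jB p)) :
    v.ord (uB p) = 0 := by
  let ι : Qb →+* ℂ := ModularCosets.iotaBar
  set w := Torsion.placeExt ι v
  set y := Torsion.embFC p ι (uB p) with hy
  have hy0 : y ≠ 0 := (map_ne_zero _).mpr (uB_ne_zero p)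
  rw [← Torsion.ord_placeExt ι v (uB p), ← hy]
  have hwj : 0 ≤ w.ord (ModularPlaces.jC p) := by
    rw [← ModularPlaces.embFC_jB p ι, Torsion.ord_placeExt]
    exact hv
  rcases Modular.place_exhaustive w with ⟨z, hz⟩ | ⟨γ, hγ⟩
  · have h := Modular.ord_placeOf z hy0
    have hev : Modular.ev (y : LaurentSeries ℂ) = unitFun p := by
      rw [hy, Torsion.coe_embFC, coe_uB, coeffEmb, coeffMap_coeffMap,
        coeffMap_congr (Subsingleton.elim _ (algebraMap ℚ ℂ)) (modularUnitSeries p)]
      exact Modular.ev_eq_of_hasQExp (isModFun_unitFun p).mero (hasQExp_unitFun p)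
    have h0 : Modular.ordH (unitFun p) z = 0 := by
      have ha := analyticAt_unitFun p z
      have h1 : analyticOrderAt (unitFun p ∘ ofComplex) (z : ℂ) = 0 :=
        ha.analyticOrderAt_eq_zero.mpr (by simpa using unitFun_ne_zero p z)
      rw [Modular.ordH, ha.meromorphicOrderAt_eq, h1]
      rfl
    rw [hev, h0, ← hz] at h
    rcases mul_eq_zero.mp h with h' | h'
    · exact absurd h' (by exact_mod_cast (ModularPlaces.ellOrder_pos p z).ne')
    · exact h'
  · exfalso
    rw [hγ, Modular.cuspPlace_eq_placeCusp] at hwj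
    have := ModularPlaces.placeCusp_ord_jC_neg (N := p) γ
    omega

variable {c0 cInf : Pl p}

theorem ord_uB_cuspInf (h0 : IsCuspZero p c0) (hi : IsCuspInf p cInf) :
    cInf.ord (uB p) = 1 - (p : ℤ) := by
  obtain ⟨v, hv⟩ := exists_seriesPlace (modularFunctionFieldBar p).val (ModularPlaces.jB p)
    (by rw [IntermediateField.coe_val, coe_jB, order_jqModC'])
  have hvi : IsCuspInf p v :=
    ⟨by rw [hv, IntermediateField.coe_val, coe_jB, order_jqModC'],
      by rw [hv, IntermediateField.coe_val, coe_jpB, order_jpSeries]⟩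
  rw [← isCuspInf_unique h0 hi hvi, hv, IntermediateField.coe_val, order_coe_uB]

/-- `div (Δ(τ)/Δ(pτ)) = (p - 1)((0) - (∞))`. -/
theorem divisorOf_uB (h0 : IsCuspZero p c0) (hi : IsCuspInf p cInf) :
    (FF.divisorOf (uB p) : Divisor Qb (modularFunctionFieldBar p)) =
      ((p : ℤ) - 1) • (Finsupp.single c0 (1 : ℤ) - Finsupp.single cInf 1) := by
  classical
  have hne := cusp_ne h0 hi
  have hsupp : (FF.divisorOf (uB p) : Divisor Qb (modularFunctionFieldBar p)) =
      Finsupp.single c0 (c0.ord (uB p)) + Finsupp.single cInf (cInf.ord (uB p)) := by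
    ext v
    rw [FF.divisorOf_apply, Finsupp.add_apply, Finsupp.single_apply, Finsupp.single_apply]
    rcases eq_or_ne c0 v with rfl | hv
    · rw [if_pos rfl, if_neg hne.symm, add_zero]
    rcases eq_or_ne cInf v with rfl | hv'
    · rw [if_neg hv, if_pos rfl, zero_add]
    rw [if_neg hv, if_neg hv', add_zero]
    refine ord_uB_of_nonneg ?_
    by_contra hlt
    rcases eq_cusp_of_ord_neg h0 hi (not_le.mp hlt) with rfl | rfl
    · exact hv rfl
    · exact hv' rfl
  have hdeg := FF.degree_divisorOf (K := Qb) (uB p)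
  rw [hsupp, map_add, Divisor.degree_single, Divisor.degree_single, FF.deg_eq_one,
    FF.deg_eq_one, ord_uB_cuspInf h0 hi] at hdeg
  push_cast at hdeg
  rw [hsupp, ord_uB_cuspInf h0 hi, show c0.ord (uB p) = (p : ℤ) - 1 by omega, smul_sub,
    Finsupp.smul_single, Finsupp.smul_single, smul_eq_mul, mul_one,
    show (1 : ℤ) - p = -((p : ℤ) - 1) by ring, Finsupp.single_neg, ← sub_eq_add_neg]

/-- `p - 1` kills the cuspidal class. -/
theorem sub_one_zsmul_placeDiff (h0 : IsCuspZero p c0) (hi : IsCuspInf p cInf) :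
    ((p : ℤ) - 1) • placeDiff p c0 cInf = 0 := by
  rw [placeDiff]
  show ((p : ℤ) - 1) • QuotientAddGroup.mk _ = 0
  rw [← QuotientAddGroup.mk_zsmul, QuotientAddGroup.eq_zero_iff, AddSubgroup.mem_addSubgroupOf,
    Divisor.mem_principal, AddSubgroupClass.coe_zsmul]
  exact ⟨uB p, uB_ne_zero p, fun v => by
    rw [← divisorOf_uB h0 hi, FF.divisorOf_apply]⟩

end FLTAgent.Mazur
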