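import Fermat.Agent.Mazur.Defs
import Fermat.Agent.Kronecker.Swap
import Fermat.Agent.Kronecker.Specialization
import Fermat.Agent.Reduction.GaussField
import Fermat.Prelude.Def_EllipticCurve_FrobeniusTrace

/-!
# The two cusps of `X₀(p)`

An embedding into Laurent series gives a place by the order of expansions (`exists_seriesPlace`),
which gives the cusp `∞`; the Fricke involution (`exists_fricke`) carries it to the cusp `0`.
They are the only poles of `j` and of `j(pτ)` (`poleDivisor_jB`, `eq_cusp_of_ord_jpB_neg`), each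
is unique, and both are rational (`exists_cusps_rational`).
-/

set_option autoImplicit false
set_option linter.style.haveILetI false

noncomputable section

open ModularCurve AlgebraicCurve HahnSeries IntermediateField

namespace FLTAgent.Mazur

section SeriesPlace

variable {K F : Type*} [Field K] [Field F] [Algebra K F]

theorem order_inv' (x : LaurentSeries K) : (x⁻¹).order = -x.order := by
  rcases eq_or_ne x 0 with rfl | hx
  · simp
  have h := HahnSeries.order_mul hx (inv_ne_zero hx)
  rw [mul_inv_cancel₀ hx, HahnSeries.order_one] at h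
  omega

theorem order_pow' (x : LaurentSeries K) (n : ℕ) : (x ^ n).order = n * x.order := by
  rw [HahnSeries.order_pow, nsmul_eq_mul]

theorem order_zpow' (x : LaurentSeries K) (n : ℤ) : (x ^ n).order = n * x.order := by
  obtain ⟨m, rfl | rfl⟩ := n.eq_nat_or_neg
  · rw [zpow_natCast, order_pow']
  · rw [zpow_neg, zpow_natCast, order_inv', order_pow', neg_mul]

/-- An embedding into Laurent series in whose image some series has order `-1` is a place. -/
theorem exists_seriesPlace [IsAlgClosed K] [FF.IsFF K F] (e : F →ₐ[K] LaurentSeries K) (g : F)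
    (hg : (e g).order = -1) : ∃ v : Place K F, ∀ f : F, v.ord f = (e f).order := by
  let A : ValuationSubring F :=
    { carrier := {f | 0 ≤ (e f).order}
      one_mem' := by simp
      zero_mem' := by simp
      neg_mem' := fun {a} ha => by
        show 0 ≤ (e (-a)).order
        rw [map_neg, HahnSeries.order_neg]
        exact ha
      add_mem' := fun {a b} ha hb => by
        show 0 ≤ (e (a + b)).order
        rw [map_add]
        rcases eq_or_ne (e a + e b) 0 with h | h
        · simp [h]
        · exact (le_min ha hb).trans (HahnSeries.min_order_le_order_add h)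
      mul_mem' := fun {a b} ha hb => by
        show 0 ≤ (e (a * b)).order
        rw [map_mul]
        rcases eq_or_ne (e a) 0 with h | h
        · simp [h]
        rcases eq_or_ne (e b) 0 with h' | h'
        · simp [h']
        rw [HahnSeries.order_mul h h']
        exact add_nonneg ha hb
      mem_or_inv_mem' := fun a => by
        show 0 ≤ (e a).order ∨ 0 ≤ (e a⁻¹).order
        rw [map_inv₀, order_inv']
        omega }
  have hmem : ∀ f : F, f ∈ A ↔ 0 ≤ (e f).order := fun f => Iff.rfl
  have hK : ∀ a : K, algebraMap K F a ∈ A := fun a => by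
    rw [hmem, AlgHom.commutes, algebraMap_laurentSeries_eq_single]
    rcases eq_or_ne a 0 with rfl | ha
    · simp
    · rw [HahnSeries.order_single ha]
  have hA : A ≠ ⊤ := fun h => by
    have hgA : 0 ≤ (e g).order := (hmem g).mp (h ▸ ValuationSubring.mem_top g)
    omega
  obtain ⟨v, hv⟩ := FF.exists_place_eq A hK hA
  refine ⟨v, ?_⟩
  have hg0 : g ≠ 0 := fun h => by simp [h] at hg
  have hzero : ∀ f : F, f ≠ 0 → (e f).order = 0 → v.ord f = 0 := fun f hf h0 => by
    have h1 : f ∈ v.toValuationSubring := by rw [hv, hmem]; omega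
    have h2 : f⁻¹ ∈ v.toValuationSubring := by
      rw [hv, hmem, map_inv₀, order_inv']; omega
    have h1' := FF.ord_nonneg_of_mem_placeRing v h1
    have h2' := FF.ord_nonneg_of_mem_placeRing v h2
    rw [v.ord_inv] at h2'
    omega
  have hlin : ∀ f : F, f ≠ 0 → v.ord f = -v.ord g * (e f).order := fun f hf => by
    have hne : f * g ^ (e f).order ≠ 0 := mul_ne_zero hf (zpow_ne_zero _ hg0)
    have h := hzero _ hne (by
      rw [map_mul, map_zpow₀, HahnSeries.order_mul ((map_ne_zero e).mpr hf)
        (zpow_ne_zero _ ((map_ne_zero e).mpr hg0)), order_zpow', hg]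
      ring)
    rw [v.ord_mul hf (zpow_ne_zero _ hg0), v.ord_zpow] at h
    linarith
  have hneg : v.ord g < 0 := by
    by_contra h
    have hmem' : g ∈ v.toValuationSubring :=
      (FF.mem_iff_ord_nonneg v hg0).mpr (not_lt.mp h)
    rw [hv, hmem] at hmem'
    omega
  have hunit : v.ord g = -1 := by
    obtain ⟨f, hf, hf1⟩ := FF.exists_ord_eq v 1
    have h : (-v.ord g) * (e f).order = 1 := by rw [← hlin f hf, hf1]
    rcases Int.eq_one_or_neg_one_of_mul_eq_one h with h' | h' <;> omega
  intro f
  rcases eq_or_ne f 0 with rfl | hf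
  · simp
  · rw [hlin f hf, hunit]; ring

end SeriesPlace

local notation "Qb" => AlgebraicClosure ℚ

variable (p : ℕ) [Fact p.Prime]

theorem coe_jB : (ModularPlaces.jB p : LaurentSeries Qb) = jqModC Qb :=
  ModularCosets.coeffEmb_jq_eq Qb

theorem coe_jpB : (jpB p : LaurentSeries Qb) = qExpand Qb p (jqModC Qb) := by
  show coeffEmb Qb (qExpand ℚ p jq) = _
  rw [coeffEmb, coeffMap_qExpand, ← coeffEmb, ModularCosets.coeffEmb_jq_eq]

theorem jSeries_eq (K : Type*) [Field K] (d : ℕ) [NeZero d] :
    Kronecker.jSeries K d = qExpand K d (jqModC K) := by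
  rw [Kronecker.jSeries, ModularCosets.qScale_eq]

theorem order_jqModC' (K : Type*) [Field K] : (jqModC K).order = -1 :=
  Reduction.order_jqModC (k := K)

theorem order_qExpand (K : Type*) [Field K] (d : ℕ) [NeZero d] (x : LaurentSeries K) :
    (qExpand K d x).order = d * x.order := by
  rcases eq_or_ne x 0 with rfl | hx
  · simp
  refine le_antisymm (HahnSeries.order_le_of_coeff_ne_zero ?_) ?_
  · rw [qExpand_coeff_mul]
    exact fun h => hx (HahnSeries.coeff_order_eq_zero.mp h)
  · have hne : qExpand K d x ≠ 0 := (map_ne_zero_iff _ (qExpand_injective d)).mpr hx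
    obtain ⟨k, hk⟩ : (d : ℤ) ∣ (qExpand K d x).order := by
      by_contra h
      exact hne (HahnSeries.coeff_order_eq_zero.mp (qExpand_coeff_of_not_dvd d x h))
    rw [hk]
    refine mul_le_mul_of_nonneg_left (HahnSeries.order_le_of_coeff_ne_zero ?_) (Int.natCast_nonneg d)
    rw [← qExpand_coeff_mul d x k, ← hk]
    exact fun h => hne (HahnSeries.coeff_order_eq_zero.mp h)

theorem order_jpSeries (K : Type*) [Field K] :
    (qExpand K p (jqModC K)).order = -(p : ℤ) := by
  rw [order_qExpand, order_jqModC']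
  ring

/-- The Fricke involution: exchanges `j` and `j(pτ)`. -/
theorem exists_fricke : ∃ w : modularFunctionFieldBar p ≃ₐ[Qb] modularFunctionFieldBar p,
    w (ModularPlaces.jB p) = jpB p ∧ w (jpB p) = ModularPlaces.jB p := by
  have hp : p.Prime := Fact.out
  have hp1 : ¬ p ∣ 1 := fun h => hp.one_lt.ne' (Nat.dvd_one.mp h)
  obtain ⟨e, he⟩ := Kronecker.exists_ringHom_of_relations (K := Qb)
    (fun d : ModularCosets.DivIdx (1 * p) => Kronecker.jSeries Qb (d : ℕ))
    (fun d : ModularCosets.DivIdx (1 * p) => Kronecker.jSeries Qb (Kronecker.swapIdx p d))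
    (Kronecker.aeval_swap_eq_zero_iff Qb hp hp1 Kronecker.embComplex)
  have hF : modularFunctionFieldBar p = adjoin Qb (Set.range fun d : ModularCosets.DivIdx (1 * p) => Kronecker.jSeries Qb (d : ℕ)) := by
    rw [← Kronecker.laurentBaseChange_full_eq_adjoin, one_mul]
  have hswap : ∀ d : ModularCosets.DivIdx (1 * p),
      Kronecker.swapIdx p d ∈ (1 * p).divisors := by
    rintro ⟨d, hd⟩
    have hd' : d ∣ p := by simpa using Nat.dvd_of_mem_divisors hd
    rcases (Nat.dvd_prime hp).mp hd' with rfl | rfl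
    · simp [Kronecker.swapIdx, hp.ne_one, hp.ne_zero]
    · simp [Kronecker.swapIdx, hp.pos, hp.ne_zero]
  have hinv : ∀ d : ModularCosets.DivIdx (1 * p),
      Kronecker.swapIdx p (Kronecker.swapIdx p d) = d := by
    rintro ⟨d, hd⟩
    have hd' : d ∣ p := by simpa using Nat.dvd_of_mem_divisors hd
    rcases (Nat.dvd_prime hp).mp hd' with rfl | rfl
    · simp [Kronecker.swapIdx, hp.ne_one, hp.pos]
    · simp [Kronecker.swapIdx, hp.ne_one, hp.pos]
  have hrange : ∀ x : adjoin Qb (Set.range fun d : ModularCosets.DivIdx (1 * p) => Kronecker.jSeries Qb (d : ℕ)), e x ∈ adjoin Qb (Set.range fun d : ModularCosets.DivIdx (1 * p) => Kronecker.jSeries Qb (d : ℕ)) := by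
    rintro ⟨x, hx⟩
    induction hx using IntermediateField.adjoin_induction with
    | mem y hy =>
      obtain ⟨d, rfl⟩ := hy
      show e _ ∈ _
      erw [he d]
      exact subset_adjoin Qb (Set.range fun d : ModularCosets.DivIdx (1 * p) => Kronecker.jSeries Qb (d : ℕ)) ⟨⟨_, hswap d⟩, rfl⟩
    | algebraMap c =>
      rw [show (⟨algebraMap Qb _ c, _⟩ : adjoin Qb (Set.range fun d : ModularCosets.DivIdx (1 * p) => Kronecker.jSeries Qb (d : ℕ))) = algebraMap Qb (adjoin Qb (Set.range fun d : ModularCosets.DivIdx (1 * p) => Kronecker.jSeries Qb (d : ℕ))) c from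
        Subtype.ext rfl, AlgHom.commutes]
      exact IntermediateField.algebraMap_mem _ c
    | add x y hx hy ihx ihy =>
      rw [show (⟨x + y, _⟩ : adjoin Qb (Set.range fun d : ModularCosets.DivIdx (1 * p) => Kronecker.jSeries Qb (d : ℕ))) = ⟨x, hx⟩ + ⟨y, hy⟩ from Subtype.ext rfl, map_add]
      exact add_mem ihx ihy
    | inv x hx ihx =>
      rw [show (⟨x⁻¹, _⟩ : adjoin Qb (Set.range fun d : ModularCosets.DivIdx (1 * p) => Kronecker.jSeries Qb (d : ℕ))) = (⟨x, hx⟩ : adjoin Qb (Set.range fun d : ModularCosets.DivIdx (1 * p) => Kronecker.jSeries Qb (d : ℕ)))⁻¹ from Subtype.ext rfl,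
        map_inv₀]
      exact inv_mem ihx
    | mul x y hx hy ihx ihy =>
      rw [show (⟨x * y, _⟩ : adjoin Qb (Set.range fun d : ModularCosets.DivIdx (1 * p) => Kronecker.jSeries Qb (d : ℕ))) = ⟨x, hx⟩ * ⟨y, hy⟩ from Subtype.ext rfl, map_mul]
      exact mul_mem ihx ihy
  let e' : adjoin Qb (Set.range fun d : ModularCosets.DivIdx (1 * p) => Kronecker.jSeries Qb (d : ℕ)) →ₐ[Qb] adjoin Qb (Set.range fun d : ModularCosets.DivIdx (1 * p) => Kronecker.jSeries Qb (d : ℕ)) := e.codRestrict (adjoin Qb (Set.range fun d : ModularCosets.DivIdx (1 * p) => Kronecker.jSeries Qb (d : ℕ))).toSubalgebra hrange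
  have he' : ∀ d : ModularCosets.DivIdx (1 * p),
      e' ⟨_, subset_adjoin Qb (Set.range fun d : ModularCosets.DivIdx (1 * p) => Kronecker.jSeries Qb (d : ℕ)) ⟨d, rfl⟩⟩ = ⟨_, subset_adjoin Qb (Set.range fun d : ModularCosets.DivIdx (1 * p) => Kronecker.jSeries Qb (d : ℕ)) ⟨⟨_, hswap d⟩, rfl⟩⟩ :=
    fun d => Subtype.ext (by exact he d)
  have hcomp : e'.comp e' = AlgHom.id Qb _ := by
    refine IntermediateField.algHom_ext_of_eq_adjoin Qb rfl fun z hz => ?_
    obtain ⟨d, rfl⟩ := hz
    show e' (e' _) = _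
    rw [he' d, he' ⟨_, hswap d⟩]
    exact Subtype.ext (congrArg (Kronecker.jSeries Qb) (hinv d))
  let we : adjoin Qb (Set.range fun d : ModularCosets.DivIdx (1 * p) => Kronecker.jSeries Qb (d : ℕ)) ≃ₐ[Qb] adjoin Qb (Set.range fun d : ModularCosets.DivIdx (1 * p) => Kronecker.jSeries Qb (d : ℕ)) := AlgEquiv.ofAlgHom e' e' hcomp hcomp
  let c := IntermediateField.equivOfEq hF
  refine ⟨c.trans (we.trans c.symm), ?_⟩
  have h1 : (1 : ℕ) ∈ (1 * p).divisors := by simp [hp.ne_zero]
  have hpd : p ∈ (1 * p).divisors := by simp [hp.ne_zero]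
  have key : ∀ (z : modularFunctionFieldBar p) (d : ℕ) (hd : d ∈ (1 * p).divisors),
      (z : LaurentSeries Qb) = Kronecker.jSeries Qb d →
      (((c.trans (we.trans c.symm)) z : modularFunctionFieldBar p) : LaurentSeries Qb)
        = Kronecker.jSeries Qb (Kronecker.swapIdx p d) := by
    intro z d hd hz
    show ((e' (c z) : adjoin Qb (Set.range fun d : ModularCosets.DivIdx (1 * p) => Kronecker.jSeries Qb (d : ℕ))) : LaurentSeries Qb) = _
    rw [show c z = ⟨_, subset_adjoin Qb (Set.range fun d : ModularCosets.DivIdx (1 * p) => Kronecker.jSeries Qb (d : ℕ)) ⟨⟨d, hd⟩, rfl⟩⟩ from Subtype.ext hz, he' ⟨d, hd⟩]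
  constructor
  · refine Subtype.ext ((key _ 1 h1 ?_).trans ?_)
    · rw [coe_jB, jSeries_eq, qExpand_one_apply]
    · rw [coe_jpB, ← jSeries_eq, Kronecker.swapIdx, if_neg hp1, one_mul]
  · refine Subtype.ext ((key _ p hpd ?_).trans ?_)
    · rw [coe_jpB, jSeries_eq]
    · rw [coe_jB, Kronecker.swapIdx, if_pos dvd_rfl, Nat.div_self hp.pos, jSeries_eq,
        qExpand_one_apply]

theorem transcendental_jB' : Transcendental Qb (ModularPlaces.jB p) :=
  ModularPlaces.transcendental_jB p

/-- The cusp `∞` exists. -/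
theorem exists_isCuspInf : ∃ v : Pl p, IsCuspInf p v := by
  obtain ⟨v, hv⟩ := exists_seriesPlace (modularFunctionFieldBar p).val (ModularPlaces.jB p)
    (by rw [IntermediateField.coe_val, coe_jB, order_jqModC'])
  exact ⟨v, by rw [hv, IntermediateField.coe_val, coe_jB, order_jqModC'],
    by rw [hv, IntermediateField.coe_val, coe_jpB, order_jpSeries]⟩

variable {p}

/-- The Fricke involution exchanges the cusps. -/
theorem isCuspZero_smul {w : modularFunctionFieldBar p ≃ₐ[Qb] modularFunctionFieldBar p}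
    (hw : w (ModularPlaces.jB p) = jpB p ∧ w (jpB p) = ModularPlaces.jB p) {v : Pl p}
    (hv : IsCuspInf p v) : IsCuspZero p (w • v) := by
  constructor
  · rw [← hw.2, Place.ord_smul, hv.2]
  · rw [← hw.1, Place.ord_smul, hv.1]

theorem dedekindPsi_prime : dedekindPsi p = p + 1 := by
  have hp : p.Prime := Fact.out
  rw [dedekindPsi, hp.divisors, Finset.filter_true_of_mem, Finset.sum_pair hp.one_lt.ne,
    Nat.div_one, Nat.div_self hp.pos]
  intro d hd
  rcases Finset.mem_insert.mp hd with rfl | hd
  · exact squarefree_one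
  · rw [Finset.mem_singleton.mp hd]
    exact hp.squarefree

theorem cusp_ne {c0 cInf : Pl p} (h0 : IsCuspZero p c0) (hi : IsCuspInf p cInf) : c0 ≠ cInf := by
  rintro rfl
  have h : (1 : ℤ) < p := by exact_mod_cast (Fact.out : p.Prime).one_lt
  have := h0.1.symm.trans hi.1
  omega

/-- The only poles of `j` are the two cusps. -/
theorem poleDivisor_jB {c0 cInf : Pl p} (h0 : IsCuspZero p c0) (hi : IsCuspInf p cInf) :
    (FF.poleDivisor (ModularPlaces.jB p) : Divisor Qb (modularFunctionFieldBar p))
      = Finsupp.single c0 (p : ℤ) + Finsupp.single cInf 1 := by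
  classical
  haveI := FF.isSeparable_adjoin_of_charZero (K := Qb) (transcendental_jB' p)
  set E : Divisor Qb (modularFunctionFieldBar p) := FF.poleDivisor (ModularPlaces.jB p)
  set D : Divisor Qb (modularFunctionFieldBar p) :=
    E - (Finsupp.single c0 (p : ℤ) + Finsupp.single cInf 1) with hD
  have hne := cusp_ne h0 hi
  have hnonneg : ∀ v, 0 ≤ D v := fun v => by
    simp only [hD, E, Finsupp.sub_apply, Finsupp.add_apply, FF.poleDivisor_apply,
      Finsupp.single_apply]
    rcases eq_or_ne c0 v with rfl | hv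
    · rw [if_pos rfl, if_neg hne.symm, h0.1]; omega
    rcases eq_or_ne cInf v with rfl | hv'
    · rw [if_neg hv, if_pos rfl, hi.1]; omega
    rw [if_neg hv, if_neg hv']; omega
  have hdeg : Divisor.degree D = 0 := by
    rw [hD, map_sub, map_add, Divisor.degree_single, Divisor.degree_single, FF.deg_eq_one,
      FF.deg_eq_one, FF.degree_poleDivisor (transcendental_jB' p), ModularPlaces.finrank_jB,
      dedekindPsi_prime]
    push_cast
    ring
  have hz : D = 0 := by
    rw [FF.degree_eq_sum, Finsupp.sum] at hdeg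
    have hz := (Finset.sum_eq_zero_iff_of_nonneg fun v _ => hnonneg v).mp hdeg
    ext v
    by_cases hv : v ∈ D.support
    · exact hz v hv
    · exact Finsupp.notMem_support_iff.mp hv
  exact sub_eq_zero.mp hz

theorem eq_cusp_of_ord_neg {c0 cInf : Pl p} (h0 : IsCuspZero p c0) (hi : IsCuspInf p cInf)
    {v : Pl p} (hv : v.ord (ModularPlaces.jB p) < 0) : v = c0 ∨ v = cInf := by
  classical
  by_contra hne
  rw [not_or] at hne
  have h := congrArg (fun D : Divisor Qb (modularFunctionFieldBar p) => D v)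
    (poleDivisor_jB h0 hi)
  simp only [FF.poleDivisor_apply, Finsupp.add_apply, Finsupp.single_apply,
    if_neg (Ne.symm hne.1), if_neg (Ne.symm hne.2)] at h
  omega

theorem isCuspZero_unique {c0 c0' cInf : Pl p} (h0 : IsCuspZero p c0) (h0' : IsCuspZero p c0')
    (hi : IsCuspInf p cInf) : c0' = c0 := by
  have hp : 0 < p := (Fact.out : p.Prime).pos
  rcases eq_cusp_of_ord_neg h0 hi (v := c0') (by rw [h0'.1]; omega) with h | h
  · exact h
  · exact absurd h (cusp_ne h0' hi)

theorem isCuspInf_unique {c0 cInf cInf' : Pl p} (h0 : IsCuspZero p c0) (hi : IsCuspInf p cInf)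
    (hi' : IsCuspInf p cInf') : cInf' = cInf := by
  rcases eq_cusp_of_ord_neg h0 hi (v := cInf') (by rw [hi'.1]; omega) with h | h
  · exact absurd h (cusp_ne h0 hi').symm
  · exact h

/-- `j(pτ)` has no poles outside the two cusps. -/
theorem eq_cusp_of_ord_jpB_neg {c0 cInf : Pl p} (h0 : IsCuspZero p c0) (hi : IsCuspInf p cInf)
    {v : Pl p} (hv : v.ord (jpB p) < 0) : v = c0 ∨ v = cInf := by
  obtain ⟨w, hw⟩ := exists_fricke p
  have hwv : (w • v).ord (ModularPlaces.jB p) < 0 := by rwa [← hw.2, Place.ord_smul]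
  have hwi : w • cInf = c0 := isCuspZero_unique h0 (isCuspZero_smul hw hi) hi
  have hw0 : IsCuspInf p (w • c0) := by
    constructor
    · rw [← hw.2, Place.ord_smul, h0.2]
    · rw [← hw.1, Place.ord_smul, h0.1]
  rcases eq_cusp_of_ord_neg h0 hi hwv with h | h
  · exact Or.inr (MulAction.injective w (h.trans hwi.symm))
  · exact Or.inl (MulAction.injective w (h.trans (isCuspInf_unique h0 hi hw0).symm))

variable (p)

theorem arithmeticGalois_smul_jB (σ : Qb ≃ₐ[ℚ] Qb) :
    arithmeticGalois (modularFunctionFieldFull p) σ • ModularPlaces.jB p = ModularPlaces.jB p :=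
  Subtype.ext (by
    rw [coe_arithmeticGalois_smul, coe_jB, coeffMap_jqModC])

theorem arithmeticGalois_smul_jpB (σ : Qb ≃ₐ[ℚ] Qb) :
    arithmeticGalois (modularFunctionFieldFull p) σ • jpB p = jpB p :=
  Subtype.ext (by
    rw [coe_arithmeticGalois_smul, coe_jpB, coeffMap_qExpand, coeffMap_jqModC])

/-- The two cusps exist and are rational. -/
theorem exists_cusps_rational :
    ∃ c0 cInf : Pl p, IsCuspZero p c0 ∧ IsCuspInf p cInf ∧
      ∀ σ : Qb ≃ₐ[ℚ] Qb,
        arithmeticGalois (modularFunctionFieldFull p) σ • c0 = c0 ∧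
        arithmeticGalois (modularFunctionFieldFull p) σ • cInf = cInf := by
  obtain ⟨cInf, hi⟩ := exists_isCuspInf p
  obtain ⟨w, hw⟩ := exists_fricke p
  refine ⟨w • cInf, cInf, isCuspZero_smul hw hi, hi, fun σ => ?_⟩
  set g := arithmeticGalois (modularFunctionFieldFull p) σ
  have hord : ∀ v : Pl p, (g • v).ord (ModularPlaces.jB p) = v.ord (ModularPlaces.jB p) ∧
      (g • v).ord (jpB p) = v.ord (jpB p) := fun v => by
    constructor
    · conv_lhs => rw [← arithmeticGalois_smul_jB p σ]
      exact SemilinearAut.ord_smul g v _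
    · conv_lhs => rw [← arithmeticGalois_smul_jpB p σ]
      exact SemilinearAut.ord_smul g v _
  have h0 := isCuspZero_smul hw hi
  constructor
  · refine isCuspZero_unique h0 ⟨?_, ?_⟩ hi
    · rw [(hord _).1, h0.1]
    · rw [(hord _).2, h0.2]
  · refine isCuspInf_unique h0 hi ⟨?_, ?_⟩
    · rw [(hord _).1, hi.1]
    · rw [(hord _).2, hi.2]

end FLTAgent.Mazur
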