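import Fermat.Agent.Mazur.ModuliSums
import Fermat.Agent.ModularPlaces.LevelOneRat
import Fermat.Agent.ModularCosets.Degree
import Fermat.Agent.EllTorsion.Card
import Fermat.Agent.EllTorsion.Galois
import Fermat.Agent.EllLocal.Semistable

/-!
The `p + 1` values `j (p γ τ)` are the `j`-invariants of the quotients of a curve with invariant
`j τ` by its subgroups of order `p`.
-/

set_option autoImplicit false

noncomputable section

open UpperHalfPlane WeierstrassCurve WeierstrassCurve.Affine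
open scoped MatrixGroups PeriodPair

namespace FLTAgent.Mazur

open ModularCosets FLTAgent.Modular

local notation "Qb" => AlgebraicClosure ℚ

variable {p : ℕ}

/-- `j (p γ τ)` for the representative `γ` of the coset `c`. -/
def modVal (p : ℕ) [NeZero p] (c : CosetIdx p) (τ : ℍ) : ℂ :=
  jH (triSmul p 0 1 (c.rep • τ))

theorem modVal_eq [NeZero p] (c : CosetIdx p) (τ : ℍ) [NeZero c.a] [NeZero c.D] :
    modVal p c τ = jFun (triSmul c.a c.b c.D τ) :=
  jH_diag_smul ⟨c.repLeft, c.a, c.b, c.D, c.a_mul_D, c.b_lt, c.diag_mul_rep⟩ τ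

theorem coset_cases (hp : p.Prime) [NeZero p] (c : CosetIdx p) :
    (c.a = 1 ∧ c.D = p ∧ c.b < p) ∨ (c.a = p ∧ c.D = 1 ∧ c.b = 0) := by
  rcases hp.eq_one_or_self_of_dvd _ c.a_dvd with h | h
  · refine Or.inl ⟨h, ?_, ?_⟩
    · rw [c.D_def, h, Nat.div_one]
    · have := c.b_lt; rwa [c.D_def, h, Nat.div_one] at this
  · have hD : c.D = 1 := by rw [c.D_def, h, Nat.div_self hp.pos]
    refine Or.inr ⟨h, hD, ?_⟩
    have := c.b_lt
    omega

theorem riemannZeta_six : riemannZeta 6 = (Real.pi : ℂ) ^ 6 / 945 := by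
  have h := riemannZeta_two_mul_nat (k := 3) (by norm_num)
  rw [show bernoulli (2 * 3) = 1 / 42 by decide +kernel] at h
  norm_num [Nat.factorial] at h
  rw [h]; ring

theorem g₂_scaledPair (z : ℍ) (a : ℂ) (ha : a ≠ 0) :
    (ModularPlaces.scaledPair z a ha).g₂ =
      (a ^ 4)⁻¹ * (4 / 3 * (Real.pi : ℂ) ^ 4 * ModularForm.E₄ z) := by
  rw [PeriodPair.g₂, ModularPlaces.G_scaledPair z ha (show 3 ≤ 4 by norm_num)]
  push_cast
  rw [riemannZeta_four]
  ring

theorem g₃_scaledPair (z : ℍ) (a : ℂ) (ha : a ≠ 0) :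
    (ModularPlaces.scaledPair z a ha).g₃ =
      (a ^ 6)⁻¹ * (8 / 27 * (Real.pi : ℂ) ^ 6 * ModularForm.E₆ z) := by
  rw [PeriodPair.g₃, ModularPlaces.G_scaledPair z ha (show 3 ≤ 6 by norm_num)]
  push_cast
  rw [riemannZeta_six]
  ring

theorem latDisc_scaledPair (z : ℍ) (a : ℂ) (ha : a ≠ 0) :
    (ModularPlaces.scaledPair z a ha).g₂ ^ 3 - 27 * (ModularPlaces.scaledPair z a ha).g₃ ^ 2 =
      (a ^ 12)⁻¹ * (4096 * (Real.pi : ℂ) ^ 12 * ModularForm.discriminant z) := by
  rw [g₂_scaledPair, g₃_scaledPair, ModularForm.discriminant_eq_E₄_cube_sub_E₆_sq]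
  field_simp
  ring

theorem latDisc_ne_zero (z : ℍ) (a : ℂ) (ha : a ≠ 0) :
    (ModularPlaces.scaledPair z a ha).g₂ ^ 3 - 27 * (ModularPlaces.scaledPair z a ha).g₃ ^ 2 ≠ 0 := by
  rw [latDisc_scaledPair]
  have := ModularForm.discriminant_ne_zero z
  have : (Real.pi : ℂ) ≠ 0 := Complex.ofReal_ne_zero.mpr Real.pi_ne_zero
  exact mul_ne_zero (inv_ne_zero (pow_ne_zero _ ha))
    (mul_ne_zero (mul_ne_zero (by norm_num) (pow_ne_zero _ this)) (ModularForm.discriminant_ne_zero z))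

theorem jFun_eq_scaledPair (z : ℍ) (a : ℂ) (ha : a ≠ 0) :
    jFun z = 1728 * (ModularPlaces.scaledPair z a ha).g₂ ^ 3 /
      ((ModularPlaces.scaledPair z a ha).g₂ ^ 3 -
        27 * (ModularPlaces.scaledPair z a ha).g₃ ^ 2) := by
  rw [eq_div_iff (latDisc_ne_zero z a ha), latDisc_scaledPair, g₂_scaledPair, jFun]
  have := ModularForm.discriminant_ne_zero z
  field_simp
  ring

theorem latticeCurve_Δ (L : PeriodPair) : (latticeCurve L).Δ = L.g₂ ^ 3 - 27 * L.g₃ ^ 2 := by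
  simp only [WeierstrassCurve.Δ, WeierstrassCurve.b₂, WeierstrassCurve.b₄, WeierstrassCurve.b₆,
    WeierstrassCurve.b₈, latticeCurve]
  ring

theorem xc_castPoint {K : Type*} [Field K] [DecidableEq K] {W W' : Affine K} (h : W = W')
    (P : W.Point) : xc (EllLocal.castPoint h P) = xc P := by subst h; rfl

/-- Points along a field embedding. -/
theorem exists_mapPoint {K L : Type*} [Field K] [Field L] [DecidableEq K] [DecidableEq L]
    (f : K →+* L) (W : Affine K) :
    ∃ φ : W.Point →+ (W.map f).toAffine.Point, Function.Injective φ ∧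
      ∀ P, xc (φ P) = f (xc P) := by
  let := f.toAlgebra
  have e : W = (W⁄K).toAffine := (W.map_id).symm
  refine ⟨(Point.map (W' := W) (Algebra.ofId K L)).comp (EllLocal.castPoint e),
    fun a b h => EllLocal.castPoint_injective e (Point.map_injective (Algebra.ofId K L) h), fun P => ?_⟩
  cases P with
  | zero => exact (map_zero f).symm
  | some x y h =>
    show xc (Point.map (W' := W) (Algebra.ofId K L) (EllLocal.castPoint e (.some x y h))) = _
    rw [EllLocal.castPoint_some]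
    rfl

/-- Transport of the points of a curve to those of a lattice curve with the same invariants. -/
theorem exists_pointHom (ι : Qb →+* ℂ) (E : Affine Qb) (L : PeriodPair)
    (h₂ : L.g₂ = ι E.c₄ / 12) (h₃ : L.g₃ = ι E.c₆ / 216) :
    ∃ ψ : E.Point →+ (latticeCurve L).Point, Function.Injective ψ ∧
      ∀ P, P ≠ 0 → xc (ψ P) = ι (velWp E P) := by
  obtain ⟨φ₀, hφ₀, hφx₀⟩ := exists_mapPoint ι E
  let V : Affine ℂ := (E.map ι).toAffine
  obtain ⟨φ, hφ, hφx⟩ : ∃ φ : E.Point →+ V.Point, Function.Injective φ ∧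
      ∀ P, xc (φ P) = ι (xc P) := ⟨φ₀, hφ₀, hφx₀⟩
  let C : VariableChange ℂ :=
    ⟨1, -V.b₂ / 12, -V.a₁ / 2, -(V.a₃ + (-V.b₂ / 12) * V.a₁) / 2⟩
  have hC : (C • V).toAffine = latticeCurve L := by
    rw [latticeCurve, h₂, h₃, ← map_c₄, ← map_c₆]
    ext <;>
    simp only [variableChange_a₁, variableChange_a₂, variableChange_a₃, variableChange_a₄,
      variableChange_a₆, C, inv_one, Units.val_one, WeierstrassCurve.c₄, WeierstrassCurve.c₆,
      WeierstrassCurve.b₂, WeierstrassCurve.b₄, WeierstrassCurve.b₆, V] <;>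
    ring
  refine ⟨((EllLocal.castPoint hC).comp (EllLocal.vcPoint V C)).comp φ,
    fun a b h => hφ (EllLocal.vcPoint_injective C (EllLocal.castPoint_injective hC h)),
    fun P hP => ?_⟩
  rw [AddMonoidHom.comp_apply, AddMonoidHom.comp_apply, xc_castPoint]
  cases hQ : φ P with
  | zero => exact absurd (hφ (hQ.trans (map_zero φ).symm)) hP
  | some x y h =>
    rw [EllLocal.vcPoint_some, velWp, map_add, map_div₀, map_ofNat, ← hφx, hQ]
    simp only [xc_some, EllLocal.vcX, C, inv_one, Units.val_one, V, map_b₂]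
    ring

theorem isCyclicExt_of (hp : p.Prime) (L L' : PeriodPair) (z : ℂ)
    (hz : (p : ℂ) * z ∈ L.lattice) (hz' : z ∉ L.lattice) (h₁ : L.ω₁ ∈ L'.lattice)
    (h₂ : L.ω₂ ∈ L'.lattice) (hzL : z ∈ L'.lattice)
    (g₁ : ∃ k : ℤ, L'.ω₁ - k * z ∈ L.lattice) (g₂ : ∃ k : ℤ, L'.ω₂ - k * z ∈ L.lattice) :
    IsCyclicExt p L L' z := by
  have hle : L.lattice ≤ L'.lattice :=
    Submodule.span_le.mpr (Set.insert_subset h₁ (Set.singleton_subset_iff.mpr h₂))
  have hzmul : ∀ (k : ℤ) {M : PeriodPair} {w : ℂ}, w ∈ M.lattice → (k : ℂ) * w ∈ M.lattice :=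
    fun k M w hw => by rw [← zsmul_eq_mul]; exact M.lattice.smul_mem k hw
  refine ⟨fun x => ⟨fun hx => ?_, ?_⟩, ?_⟩
  · have hk : ∃ k : ℤ, x - k * z ∈ L.lattice := by
      obtain ⟨a, b, rfl⟩ := PeriodPair.mem_lattice.mp hx
      obtain ⟨k₁, e₁⟩ := g₁
      obtain ⟨k₂, e₂⟩ := g₂
      refine ⟨a * k₁ + b * k₂, ?_⟩
      have := add_mem (hzmul a e₁) (hzmul b e₂)
      convert this using 1
      push_cast
      ring
    obtain ⟨k, hk⟩ := hk
    have hp0 : (p : ℤ) ≠ 0 := by exact_mod_cast hp.ne_zero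
    refine ⟨(k % p).toNat, ?_, ?_⟩
    · have := Int.emod_lt_of_pos k (show (0 : ℤ) < p by exact_mod_cast hp.pos)
      have := Int.emod_nonneg k hp0
      omega
    · have hc : (((k % p).toNat : ℕ) : ℂ) = ((k % p : ℤ) : ℂ) := by
        exact_mod_cast congrArg (Int.cast (R := ℂ)) (Int.toNat_of_nonneg (Int.emod_nonneg k hp0))
      have := add_mem hk (hzmul (k / p) hz)
      convert this using 1
      rw [hc]
      have := congrArg (Int.cast (R := ℂ)) (Int.emod_add_mul_ediv k p)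
      push_cast at this
      linear_combination (-z) * this
  · rintro ⟨k, -, hk⟩
    have := add_mem (hle hk) (hzmul k hzL)
    simpa using this
  · intro k k' hk hk' h
    by_contra hne
    have hcop : IsCoprime (p : ℤ) ((k : ℤ) - k') := by
      rw [(Nat.prime_iff_prime_int.mp hp).coprime_iff_not_dvd]
      intro hd
      have := Int.eq_zero_of_dvd_of_natAbs_lt_natAbs hd (by omega)
      omega
    obtain ⟨u, w, huw⟩ := hcop
    have hu := congrArg (Int.cast (R := ℂ)) huw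
    push_cast at hu
    refine hz' ?_
    have := add_mem (hzmul u hz) (hzmul w h)
    convert this using 1
    linear_combination (-z) * hu

theorem int_eq_zero_of_lattice (L : PeriodPair) {m n : ℤ}
    (h : (m : ℂ) * L.ω₁ + n * L.ω₂ = 0) : m = 0 ∧ n = 0 := by
  have h' := LinearIndependent.pair_iff.mp L.indep (m : ℝ) (n : ℝ) (by simpa using h)
  exact ⟨by exact_mod_cast h'.1, by exact_mod_cast h'.2⟩

theorem div_mem_lattice_iff (L : PeriodPair) (hp : 0 < p) (m n : ℤ) :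
    ((m : ℂ) * L.ω₁ + n * L.ω₂) / p ∈ L.lattice ↔ (p : ℤ) ∣ m ∧ (p : ℤ) ∣ n := by
  have hp0 : (p : ℂ) ≠ 0 := by exact_mod_cast hp.ne'
  rw [PeriodPair.mem_lattice]
  constructor
  · rintro ⟨a, b, h⟩
    rw [eq_div_iff hp0] at h
    have h0 := int_eq_zero_of_lattice L (m := m - a * p) (n := n - b * p)
      (by push_cast; linear_combination -h)
    exact ⟨⟨a, by linarith [h0.1]⟩, ⟨b, by linarith [h0.2]⟩⟩
  · rintro ⟨⟨a, rfl⟩, ⟨b, rfl⟩⟩
    exact ⟨a, b, by push_cast; field_simp⟩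

/-- All `p`-torsion points of `E` in terms of the lattice. -/
theorem exists_torsion_param [Fact p.Prime] (ι : Qb →+* ℂ) (E : Affine Qb) (hΔ : E.Δ ≠ 0)
    (L : PeriodPair) (h₂ : L.g₂ = ι E.c₄ / 12) (h₃ : L.g₃ = ι E.c₆ / 216)
    (hL : (latticeCurve L).Δ ≠ 0) :
    ∃ F : ℤ → ℤ → E.Point,
      (∀ m n m' n', F (m + m') (n + n') = F m n + F m' n') ∧ (∀ m n, p • F m n = 0) ∧
      (∀ m n, F m n = 0 ↔ (p : ℤ) ∣ m ∧ (p : ℤ) ∣ n) ∧
      (∀ Q : E.Point, p • Q = 0 → ∃ m n, Q = F m n) ∧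
      (∀ m n, F m n ≠ 0 →
        ℘[L] (((m : ℂ) * L.ω₁ + n * L.ω₂) / p) = ι (velWp E (F m n))) := by
  classical
  have hp : p.Prime := Fact.out
  obtain ⟨ψ, hψ, hψx⟩ := exists_pointHom ι E L h₂ h₃
  have := EllTorsion.isElliptic_of_Δ_ne_zero hΔ
  have := EllTorsion.isElliptic_of_Δ_ne_zero hL
  let g : ℤ → ℤ → (latticeCurve L).Point :=
    fun m n => latHom L hL (((m : ℂ) * L.ω₁ + n * L.ω₂) / p)
  have hpC : (p : ℂ) ≠ 0 := by exact_mod_cast hp.ne_zero
  have hgp : ∀ m n, p • g m n = 0 := fun m n => by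
    rw [← map_nsmul, latHom_eq_zero_iff, nsmul_eq_mul, mul_div_cancel₀ _ hpC,
      PeriodPair.mem_lattice]
    exact ⟨m, n, rfl⟩
  have hgadd : ∀ m n m' n', g (m + m') (n + n') = g m n + g m' n' := fun m n m' n' => by
    show latHom L hL _ = latHom L hL _ + latHom L hL _
    rw [← map_add]; congr 1; push_cast; ring
  -- the two torsion groups are finite of the same size
  let T : Type := {Q : E.Point // p • Q = 0}
  let T' : Type := {R : (latticeCurve L).Point // p • R = 0}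
  have hT : Nat.card T = p ^ 2 := by
    rw [← EllTorsion.natCard_torsionBy (W := E) p (by exact_mod_cast hp.ne_zero)]
    exact Nat.card_congr (Equiv.subtypeEquivRight fun Q => by
      rw [Submodule.mem_torsionBy_iff, natCast_zsmul])
  have hT' : Nat.card T' = p ^ 2 := by
    rw [← EllTorsion.natCard_torsionBy (W := latticeCurve L) p (by exact_mod_cast hp.ne_zero)]
    exact Nat.card_congr (Equiv.subtypeEquivRight fun Q => by
      rw [Submodule.mem_torsionBy_iff, natCast_zsmul])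
  have : Finite T' := Nat.finite_of_card_ne_zero (by rw [hT']; exact pow_ne_zero _ hp.ne_zero)
  let Ψ : T → T' := fun Q => ⟨ψ Q.1, by rw [← map_nsmul, Q.2, map_zero]⟩
  have hΨi : Function.Injective Ψ := fun a b h => Subtype.ext (hψ (congrArg Subtype.val h))
  have hΨ : Function.Bijective Ψ :=
    hΨi.bijective_of_nat_card_le (le_of_eq (hT'.trans hT.symm))
  let Φ : Fin p × Fin p → T' := fun mn => ⟨g (mn.1 : ℕ) (mn.2 : ℕ), hgp _ _⟩
  have hΦi : Function.Injective Φ := by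
    intro a b h
    have h' : g (a.1 : ℕ) (a.2 : ℕ) = g (b.1 : ℕ) (b.2 : ℕ) := congrArg Subtype.val h
    have h0 : g ((a.1 : ℕ) - (b.1 : ℕ)) ((a.2 : ℕ) - (b.2 : ℕ)) = 0 := by
      have := hgadd ((a.1 : ℕ) - (b.1 : ℕ)) ((a.2 : ℕ) - (b.2 : ℕ)) (b.1 : ℕ) (b.2 : ℕ)
      simp only [sub_add_cancel] at this
      rw [h'] at this
      exact right_eq_add.mp this
    obtain ⟨d1, d2⟩ := (div_mem_lattice_iff L hp.pos _ _).mp
      ((latHom_eq_zero_iff L hL).mp h0)
    have := a.1.2; have := a.2.2; have := b.1.2; have := b.2.2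
    have e1 := Int.eq_zero_of_dvd_of_natAbs_lt_natAbs d1 (by omega)
    have e2 := Int.eq_zero_of_dvd_of_natAbs_lt_natAbs d2 (by omega)
    exact Prod.ext (Fin.ext (by omega)) (Fin.ext (by omega))
  have hΦ : Function.Bijective Φ :=
    hΦi.bijective_of_nat_card_le (by
      rw [hT', Nat.card_prod, Nat.card_fin, sq])
  choose F₀ hF₀ using fun m n => hΨ.2 (⟨g m n, hgp m n⟩ : T')
  have hF : ∀ m n, ψ (F₀ m n).1 = g m n := fun m n => congrArg Subtype.val (hF₀ m n)
  refine ⟨fun m n => (F₀ m n).1, fun m n m' n' => hψ ?_, fun m n => (F₀ m n).2, fun m n => ?_,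
    fun Q hQ => ?_, fun m n hne => ?_⟩
  · rw [map_add, hF, hF, hF, hgadd]
  · rw [← map_eq_zero_iff ψ hψ, hF, latHom_eq_zero_iff, div_mem_lattice_iff L hp.pos]
  · obtain ⟨⟨a, b⟩, hab⟩ := hΦ.2 (Ψ ⟨Q, hQ⟩)
    exact ⟨(a : ℕ), (b : ℕ), hψ (by rw [hF]; exact (congrArg Subtype.val hab).symm)⟩
  · rw [← hψx _ hne, hF]
    have hn : ((m : ℂ) * L.ω₁ + n * L.ω₂) / p ∉ L.lattice := fun hm =>
      hne (hψ (by rw [hF, map_zero]; exact (latHom_eq_zero_iff L hL).mpr hm))
    show _ = xc (latPoint L hL _)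
    rw [latPoint_of_notMem L hL hn, xc_some]

theorem nsmul_param {E : Affine Qb} (F : ℤ → ℤ → E.Point)
    (hadd : ∀ m n m' n', F (m + m') (n + n') = F m n + F m' n') (k : ℕ) (m n : ℤ) :
    k • F m n = F (k * m) (k * n) := by
  induction k with
  | zero =>
    have := hadd 0 0 0 0
    simp only [add_zero] at this
    simp [left_eq_add.mp this]
  | succ k ih =>
    rw [succ_nsmul, ih, ← hadd]
    congr 1 <;> push_cast <;> ring

/-- The values `j (p γ τ)` are the `j (E / C)`. -/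
theorem exists_level_points [Fact p.Prime] (hp2 : p ≠ 2) (ι : Qb →+* ℂ) (E : Affine Qb)
    (hΔ : E.Δ ≠ 0) (τ : ℍ) (hτ : jFun τ = ι (E.c₄ ^ 3 / E.Δ)) :
    ∃ P : CosetIdx p → E.Point, (∀ c, P c ≠ 0 ∧ p • P c = 0) ∧
      (∀ Q : E.Point, p • Q = 0 → Q ≠ 0 → ∃ c, ∃ k : ℕ, ¬ p ∣ k ∧ Q = k • P c) ∧
      (∀ (c c' : CosetIdx p) (k : ℕ), P c' = k • P c → c = c') ∧
      (∀ c, ι (velJ E p (P c)) = modVal p c τ) := by
  classical
  have hp : p.Prime := Fact.out
  -- the lattice
  set L₁ := ModularPlaces.scaledPair τ 1 one_ne_zero with hL₁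
  have hD₁ : L₁.g₂ ^ 3 - 27 * L₁.g₃ ^ 2 ≠ 0 := latDisc_ne_zero τ 1 one_ne_zero
  have hιΔ : ι E.Δ ≠ 0 := by simpa using hΔ
  have hrel : (ι E.c₄ / 12) ^ 3 - 27 * (ι E.c₆ / 216) ^ 2 = ι E.Δ := by
    have := congrArg ι E.c_relation
    simp only [map_mul, map_sub, map_pow, map_ofNat] at this
    linear_combination (-1 / 1728 : ℂ) * this
  have hj : (ι E.c₄ / 12) ^ 3 / ι E.Δ = L₁.g₂ ^ 3 / (L₁.g₂ ^ 3 - 27 * L₁.g₃ ^ 2) := by
    have h1 := jFun_eq_scaledPair τ 1 one_ne_zero
    rw [hτ, map_div₀, map_pow, ← hL₁, eq_div_iff hD₁, div_mul_eq_mul_div, div_eq_iff hιΔ] at h1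
    rw [div_eq_div_iff hιΔ hD₁]
    linear_combination (1 / 1728 : ℂ) * h1
  have hy : (ι E.c₆ / 216) ^ 2 / ι E.Δ = L₁.g₃ ^ 2 / (L₁.g₂ ^ 3 - 27 * L₁.g₃ ^ 2) := by
    rw [div_eq_div_iff hιΔ hD₁] at hj ⊢
    linear_combination (1 / 27 : ℂ) * hj - (L₁.g₂ ^ 3 - 27 * L₁.g₃ ^ 2) / 27 * hrel
  obtain ⟨s, hs, hx', hy'⟩ := ModularPlaces.exists_scaling hD₁ hιΔ hj hy
  set α : ℂ := s⁻¹ with hα
  have hα0 : α ≠ 0 := inv_ne_zero hs
  set L := ModularPlaces.scaledPair τ α hα0 with hLdef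
  have h₂ : L.g₂ = ι E.c₄ / 12 := by
    rw [hx', hLdef, hL₁, g₂_scaledPair, g₂_scaledPair, hα, inv_pow, inv_inv, one_pow, inv_one]
    ring
  have h₃ : L.g₃ = ι E.c₆ / 216 := by
    rw [hy', hLdef, hL₁, g₃_scaledPair, g₃_scaledPair, hα, inv_pow, inv_inv, one_pow, inv_one]
    ring
  have hL : (latticeCurve L).Δ ≠ 0 := by rw [latticeCurve_Δ]; exact latDisc_ne_zero τ α hα0
  obtain ⟨F, hadd, hFp, hF0, hFsurj, hFx⟩ := exists_torsion_param (p := p) ι E hΔ L h₂ h₃ hL
  let mm : CosetIdx p → ℤ := fun c => if c.a = 1 then 1 else 0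
  let nn : CosetIdx p → ℤ := fun c => if c.a = 1 then c.b else 1
  have h1p : ¬(p : ℤ) ∣ 1 := fun h => by
    have := Int.le_of_dvd one_pos h
    have := hp.one_lt
    omega
  refine ⟨fun c => F (mm c) (nn c), fun c => ⟨fun h => ?_, hFp _ _⟩, fun Q hQ hQ0 => ?_,
    fun c c' k h => ?_, fun c => ?_⟩
  · obtain ⟨d1, d2⟩ := (hF0 _ _).mp h
    by_cases ha : c.a = 1
    · simp only [mm, ha, if_true] at d1; exact h1p d1
    · simp only [nn, ha, if_false] at d2; exact h1p d2
  · obtain ⟨m, n, rfl⟩ := hFsurj Q hQ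
    have hmodd : ∀ x : ℤ, (p : ℤ) ∣ x - x % p := fun x => ⟨x / p, by rw [Int.emod_def]; ring⟩
    have hcong : ∀ m n m' n' : ℤ, (p : ℤ) ∣ m - m' → (p : ℤ) ∣ n - n' → F m n = F m' n' := by
      intro m n m' n' d1 d2
      have := hadd (m - m') (n - n') m' n'
      rw [sub_add_cancel, sub_add_cancel, (hF0 _ _).mpr ⟨d1, d2⟩, zero_add] at this
      exact this
    by_cases hm : (p : ℤ) ∣ m
    · have hn : ¬(p : ℤ) ∣ n := fun hn => hQ0 ((hF0 _ _).mpr ⟨hm, hn⟩)
      have hmem : (p, 0) ∈ cosetReps p := mem_cosetReps.mpr ⟨dvd_rfl, by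
        rw [Nat.div_self hp.pos]; exact one_pos, by simp [Nat.div_self hp.pos]⟩
      refine ⟨⟨(p, 0), hmem⟩, (n % p).toNat, ?_, ?_⟩
      · intro hd
        have := Int.natCast_dvd_natCast.mpr hd
        rw [Int.toNat_of_nonneg (Int.emod_nonneg _ (by exact_mod_cast hp.ne_zero))] at this
        exact hn ((Int.dvd_iff_dvd_of_dvd_sub (hmodd n)).mpr this)
      · have ha : (CosetIdx.a ⟨(p, 0), hmem⟩ : ℕ) ≠ 1 := hp.ne_one
        simp only [mm, nn, ha, if_false]
        rw [nsmul_param F hadd, mul_zero, mul_one]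
        refine hcong _ _ _ _ (by simpa using hm) ?_
        rw [Int.toNat_of_nonneg (Int.emod_nonneg _ (by exact_mod_cast hp.ne_zero))]
        exact hmodd _
    · obtain ⟨u, w, huw⟩ := ((Nat.prime_iff_prime_int.mp hp).coprime_iff_not_dvd).mpr hm
      set b : ℕ := ((n * w) % p).toNat with hb
      have hbz : (b : ℤ) = (n * w) % p :=
        Int.toNat_of_nonneg (Int.emod_nonneg _ (by exact_mod_cast hp.ne_zero))
      have hbp : b < p := by
        have := Int.emod_lt_of_pos (n * w) (show (0 : ℤ) < p by exact_mod_cast hp.pos)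
        omega
      set k : ℕ := (m % p).toNat with hk
      have hkz : (k : ℤ) = m % p :=
        Int.toNat_of_nonneg (Int.emod_nonneg _ (by exact_mod_cast hp.ne_zero))
      have hmem : (1, b) ∈ cosetReps p := mem_cosetReps.mpr ⟨one_dvd _, by simpa using hbp, by simp⟩
      refine ⟨⟨(1, b), hmem⟩, k, ?_, ?_⟩
      · intro hd
        have := Int.natCast_dvd_natCast.mpr hd
        rw [hkz] at this
        exact hm ((Int.dvd_iff_dvd_of_dvd_sub (hmodd m)).mpr this)
      · have ha : (CosetIdx.a ⟨(1, b), hmem⟩ : ℕ) = 1 := rfl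
        have hcb : (CosetIdx.b ⟨(1, b), hmem⟩ : ℕ) = b := rfl
        simp only [mm, nn, ha, if_true, hcb]
        rw [nsmul_param F hadd, mul_one]
        refine hcong _ _ _ _ ?_ ?_
        · rw [hkz]; exact hmodd _
        · rw [hkz, hbz, Int.emod_def, Int.emod_def]
          exact ⟨n * u + (m / p) * (n * w) + m * (n * w / p) - p * (m / p) * (n * w / p),
            by linear_combination (-n) * huw⟩
  · simp only [nsmul_param F hadd] at h
    have h0 := hadd (mm c' - k * mm c) (nn c' - k * nn c) (k * mm c) (k * nn c)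
    rw [sub_add_cancel, sub_add_cancel, h, right_eq_add] at h0
    obtain ⟨d1, d2⟩ := (hF0 _ _).mp h0
    rcases coset_cases hp c with ⟨hc, -, hcb⟩ | ⟨hc, -, hcb⟩ <;>
      rcases coset_cases hp c' with ⟨hc', -, hcb'⟩ | ⟨hc', -, hcb'⟩
    · simp only [mm, nn, hc, hc', if_true] at d1 d2
      refine CosetIdx.ext' (hc.trans hc'.symm) ?_
      have h3 : (p : ℤ) ∣ (c'.b : ℤ) - c.b := by
        obtain ⟨r, hr⟩ := d1
        obtain ⟨t, ht⟩ := d2
        exact ⟨t - c.b * r, by linear_combination ht - (c.b : ℤ) * hr⟩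
      have := Int.eq_zero_of_dvd_of_natAbs_lt_natAbs h3 (by omega)
      omega
    · simp only [mm, nn, hc, hc', hp.ne_one, if_true, if_false] at d1 d2
      rw [zero_sub, mul_one, dvd_neg] at d1
      exact absurd (by simpa using dvd_add d2 (dvd_mul_of_dvd_left d1 (c.b : ℤ))) h1p
    · simp only [mm, hc, hc', hp.ne_one, if_true, if_false, mul_zero, sub_zero] at d1
      exact absurd d1 h1p
    · exact CosetIdx.ext' (hc.trans hc'.symm) (hcb.trans hcb'.symm)
  · have : NeZero c.a := ⟨c.a_ne_zero⟩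
    have : NeZero c.D := ⟨c.D_ne_zero⟩
    have hpC : (p : ℂ) ≠ 0 := by exact_mod_cast hp.ne_zero
    have haC : (c.a : ℂ) ≠ 0 := by exact_mod_cast c.a_ne_zero
    have hDC : (c.D : ℂ) ≠ 0 := by exact_mod_cast c.D_ne_zero
    set z : ℂ := ((mm c : ℂ) * L.ω₁ + (nn c : ℂ) * L.ω₂) / p with hz
    have hzL : z ∉ L.lattice := by
      rw [hz, div_mem_lattice_iff L hp.pos]
      rintro ⟨d1, d2⟩
      by_cases ha : c.a = 1
      · simp only [mm, ha, if_true] at d1; exact h1p d1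
      · simp only [nn, ha, if_false] at d2; exact h1p d2
    set τ' := triSmul c.a c.b c.D τ with hτ'
    set L' := ModularPlaces.scaledPair τ' (α / c.a) (div_ne_zero hα0 haC) with hL'
    have hext : IsCyclicExt p L L' z := by
      rcases coset_cases hp c with ⟨ha, hD, -⟩ | ⟨ha, hD, hb⟩
      · have hzz : z = L'.ω₁ := by
          simp only [hz, mm, nn, ha, if_true, hL', hLdef, ModularPlaces.scaledPair, hτ',
            coe_triSmul, hD]
          push_cast; ring
        have hω₂ : L'.ω₂ = L.ω₂ := by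
          simp only [hL', hLdef, ModularPlaces.scaledPair, ha]; simp
        refine isCyclicExt_of hp L L' z ?_ hzL ?_ (hω₂ ▸ L'.ω₂_mem_lattice)
          (hzz ▸ L'.ω₁_mem_lattice) ⟨1, by simp [hzz]⟩
          ⟨0, by simp [hω₂, L.ω₂_mem_lattice]⟩
        · rw [hz, mul_div_cancel₀ _ hpC]
          exact PeriodPair.mem_lattice.mpr ⟨mm c, nn c, rfl⟩
        · refine PeriodPair.mem_lattice.mpr ⟨p, -c.b, ?_⟩
          rw [← hzz, hω₂]
          simp only [hz, mm, nn, ha, if_true]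
          push_cast; field_simp; ring
      · have hzz : z = L'.ω₂ := by
          simp only [hz, mm, nn, ha, hp.ne_one, if_false, hL', hLdef, ModularPlaces.scaledPair]
          push_cast; ring
        have hω₁ : L'.ω₁ = L.ω₁ := by
          simp only [hL', hLdef, ModularPlaces.scaledPair, hτ', coe_triSmul, hD, ha, hb]
          push_cast; field_simp; ring
        refine isCyclicExt_of hp L L' z ?_ hzL (hω₁ ▸ L'.ω₁_mem_lattice) ?_
          (hzz ▸ L'.ω₂_mem_lattice) ⟨0, by simp [hω₁, L.ω₁_mem_lattice]⟩ ⟨1, by simp [hzz]⟩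
        · rw [hz, mul_div_cancel₀ _ hpC]
          exact PeriodPair.mem_lattice.mpr ⟨mm c, nn c, rfl⟩
        · refine PeriodPair.mem_lattice.mpr ⟨0, p, ?_⟩
          rw [← hzz]
          simp only [hz, mm, nn, ha, hp.ne_one, if_false]
          push_cast; field_simp; ring
    have hwp : ∀ k ∈ Finset.Icc 1 (p - 1),
        ℘[L] ((k : ℕ) * z) = ι (velWp E (k • F (mm c) (nn c))) := by
      intro k hk
      have hne : k • F (mm c) (nn c) ≠ 0 := by
        rw [nsmul_param F hadd]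
        intro h
        have := hext.notMem hk
        apply this
        have := (div_mem_lattice_iff L hp.pos _ _).mpr ((hF0 _ _).mp h)
        convert this using 1
        simp only [hz]; push_cast; ring
      rw [nsmul_param F hadd] at hne ⊢
      rw [← hFx _ _ hne]
      congr 1
      simp only [hz]; push_cast; ring
    have hG₂ : L'.g₂ = ι (velG₂ E p (F (mm c) (nn c))) := by
      rw [hext.g₂_eq hp.pos, h₂, velG₂, map_add, map_mul, map_sum, map_div₀, map_ofNat, map_ofNat]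
      congr 1
      refine congrArg _ (Finset.sum_congr rfl fun k hk => ?_)
      rw [hwp k hk]
      simp only [map_sub, map_mul, map_pow, map_div₀, map_ofNat]
      ring
    have hG₃ : L'.g₃ = ι (velG₃ E p (F (mm c) (nn c))) := by
      rw [hext.g₃_eq hp.pos, h₂, h₃, velG₃, map_add, map_mul, map_sum, map_div₀, map_div₀,
        map_ofNat, map_ofNat, map_ofNat]
      congr 1
      refine congrArg _ (Finset.sum_congr rfl fun k hk => ?_)
      rw [hwp k hk]
      simp only [map_sub, map_mul, map_pow, map_div₀, map_ofNat]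
      ring
    rw [modVal_eq, jFun_eq_scaledPair τ' (α / c.a) (div_ne_zero hα0 haC), ← hL', hG₂, hG₃]
    simp only [velJ, map_div₀, map_mul, map_sub, map_pow, map_ofNat]

end FLTAgent.Mazur
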