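import Fermat.Agent.Mazur.CuspPlaces
import Fermat.Agent.Reduction.InputsMain
import Fermat.Agent.Reduction.GaussField
import Fermat.Agent.GalCommon.Basic

/-!
# Reduction of points of `X₀(p)` to the cusps

A point with non-integral rational `j = a`, `j(pτ) = b` reduces modulo `ℓ ≠ p` to one of the two
cusps (`reduction_eq_cusp_or`): to `∞` if `v(b) = p v(a)` (`reduction_eq_cuspInf`), to `0` if
`v(a) = p v(b) < 0` (`reduction_eq_cuspZero`).  The divisor of a function reduces to the divisor
of its reduction (`mapDomain_divisorOf`), and an auxiliary function `f ^ p - u g` excludes the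
wrong cusp (`reduction_ne_of_values`).
-/

set_option autoImplicit false
set_option linter.style.haveILetI false

noncomputable section

open ModularCurve AlgebraicCurve IntermediateField

namespace FLTAgent.Mazur

section Values

variable {K F : Type*} [Field K] [Field F] [Algebra K F] (v : Place K F)

theorem val_lt_one_of_ord_pos {f : F} (h : 0 < v.ord f) : v.adicValuation f < 1 := by
  have hf : f ≠ 0 := fun h0 => by simp [h0] at h
  rw [FF.val_eq_exp v hf, ← WithZero.exp_zero, WithZero.exp_lt_exp]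
  omega

theorem ord_pos_of_val_lt_one {f : F} (hf : f ≠ 0) (h : v.adicValuation f < 1) : 0 < v.ord f := by
  rw [FF.val_eq_exp v hf, ← WithZero.exp_zero, WithZero.exp_lt_exp] at h
  omega

theorem val_algebraMap_le_one (a : K) : v.adicValuation (algebraMap K F a) ≤ 1 :=
  (FF.mem_iff_val_le_one v _).mp (v.algebraMap_mem' a)

theorem val_le_one_of_sub_lt_one {f : F} {a : K}
    (h : v.adicValuation (f - algebraMap K F a) < 1) : v.adicValuation f ≤ 1 := by
  have := Valuation.map_add v.adicValuation (f - algebraMap K F a) (algebraMap K F a)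
  rw [sub_add_cancel] at this
  exact this.trans (max_le h.le (val_algebraMap_le_one v a))

theorem val_pow_sub_pow_lt_one {f : F} {a : K} (h : v.adicValuation (f - algebraMap K F a) < 1)
    (n : ℕ) : v.adicValuation (f ^ n - algebraMap K F a ^ n) < 1 := by
  induction n with
  | zero => simp
  | succ n ih =>
    rw [show f ^ (n + 1) - algebraMap K F a ^ (n + 1)
      = (f ^ n - algebraMap K F a ^ n) * f + algebraMap K F a ^ n * (f - algebraMap K F a) by ring]
    refine (Valuation.map_add _ _ _).trans_lt (max_lt ?_ ?_)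
    · rw [map_mul]
      exact (mul_le_mul_of_nonneg_left (val_le_one_of_sub_lt_one v h) zero_le).trans_lt
        (by rwa [mul_one])
    · rw [map_mul, map_pow]
      exact (mul_le_mul_of_nonneg_right (pow_le_one' (val_algebraMap_le_one v a) n) zero_le).trans_lt
        (by rwa [one_mul])

end Values

local notation "Qb" => AlgebraicClosure ℚ

section Valuation

variable {A : ValuationSubring Qb} {ℓ : ℕ}

theorem valuation_natCast_eq_one (hℓ : ℓ.Prime) (hA : A.LiesOverPrime ℓ) {n : ℕ} (hn : ¬ ℓ ∣ n) :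
    A.valuation (n : Qb) = 1 := by
  haveI : Fact ℓ.Prime := ⟨hℓ⟩
  have h := (ValuationSubring.valuation_eq_one_iff A (n : A)).mp
    (Reduction.natCast_isUnit_of_liesOverPrime hA hn)
  simpa using h

theorem valuation_natCast (hℓ : ℓ.Prime) (hA : A.LiesOverPrime ℓ) {n : ℕ} (hn : n ≠ 0) :
    A.valuation (n : Qb) = A.valuation (ℓ : Qb) ^ (padicValNat ℓ n : ℤ) := by
  haveI : Fact ℓ.Prime := ⟨hℓ⟩
  obtain ⟨e, m, hm, rfl⟩ := Nat.exists_eq_pow_mul_and_not_dvd hn ℓ hℓ.ne_one
  have hm0 : m ≠ 0 := fun h => hm (h ▸ dvd_zero ℓ)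
  rw [padicValNat.mul (pow_ne_zero _ hℓ.ne_zero) hm0, padicValNat.prime_pow,
    padicValNat.eq_zero_of_not_dvd hm, add_zero, zpow_natCast, Nat.cast_mul, Nat.cast_pow,
    map_mul, map_pow, valuation_natCast_eq_one hℓ hA hm, mul_one]

theorem valuation_ratCast (hℓ : ℓ.Prime) (hA : A.LiesOverPrime ℓ) {q : ℚ} (hq : q ≠ 0) :
    A.valuation (algebraMap ℚ Qb q) = A.valuation (ℓ : Qb) ^ padicValRat ℓ q := by
  haveI : Fact ℓ.Prime := ⟨hℓ⟩
  have hℓ0 : A.valuation (ℓ : Qb) ≠ 0 :=
    (Valuation.ne_zero_iff _).mpr (Nat.cast_ne_zero.mpr hℓ.ne_zero)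
  have hnum : A.valuation ((q.num : ℤ) : Qb) = A.valuation ((q.num.natAbs : ℕ) : Qb) := by
    rcases Int.natAbs_eq q.num with h | h <;> conv_lhs => rw [h]
    · simp
    · simp [Valuation.map_neg]
  conv_lhs => rw [← Rat.num_div_den q]
  rw [map_div₀, map_intCast, map_natCast, map_div₀, hnum,
    valuation_natCast hℓ hA (Int.natAbs_ne_zero.mpr (Rat.num_ne_zero.mpr hq)),
    valuation_natCast hℓ hA q.den_ne_zero, padicValRat, zpow_sub₀ hℓ0]
  rfl

theorem valuation_prime_lt_one (hA : A.LiesOverPrime ℓ) : A.valuation (ℓ : Qb) < 1 :=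
  hA

theorem valuation_ratCast_lt_one (hℓ : ℓ.Prime) (hA : A.LiesOverPrime ℓ) {q : ℚ}
    (h : 0 < padicValRat ℓ q) : A.valuation (algebraMap ℚ Qb q) < 1 := by
  have hq : q ≠ 0 := fun h0 => by simp [h0] at h
  rw [valuation_ratCast hℓ hA hq]
  obtain ⟨n, hn⟩ := Int.eq_ofNat_of_zero_le h.le
  rw [hn, zpow_natCast]
  exact pow_lt_one₀ zero_le (valuation_prime_lt_one hA) (by omega)

theorem valuation_ratCast_eq_one (hℓ : ℓ.Prime) (hA : A.LiesOverPrime ℓ) {q : ℚ} (hq : q ≠ 0)
    (h : padicValRat ℓ q = 0) : A.valuation (algebraMap ℚ Qb q) = 1 := by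
  rw [valuation_ratCast hℓ hA hq, h, zpow_zero]

end Valuation

variable {p : ℕ} [Fact p.Prime] {A : ValuationSubring Qb}

local notation "kA" => IsLocalRing.ResidueField A

/-- The divisor of a function reduces to the divisor of its reduction. -/
theorem mapDomain_divisorOf (h : ReductionInputsModL A p) (y : LaurentSeries A)
    {g : modularFunctionFieldBar p} {gb : modularFunctionFieldFullC kA p}
    (hy : coeffMap A.subtype y = g) (hyb : coeffMap (IsLocalRing.residue A) y = gb) (hgb : gb ≠ 0)
    (Q : Place kA (modularFunctionFieldFullC kA p)) :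
    Finsupp.mapDomain (placeReductionModL h) (FF.divisorOf g) Q = Q.ord gb := by
  have hm : coeffMap A.subtype y ∈ modularFunctionFieldBar p := hy ▸ g.2
  have hmk : coeffMap (IsLocalRing.residue A) y ∈ modularFunctionFieldFullC kA p := hyb ▸ gb.2
  have he : (⟨_, hm⟩ : modularFunctionFieldBar p) = g := Subtype.ext hy
  have heb : (⟨_, hmk⟩ : modularFunctionFieldFullC kA p) = gb := Subtype.ext hyb
  rw [← heb]
  refine (isPlaceReductionModL_placeReductionModL h).2 y hm hmk ?_ _ (fun P => ?_) Q
  · rw [hyb]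
    exact fun h0 => hgb (Subtype.ext h0)
  · show P.ord g = P.ord ⟨_, hm⟩
    rw [he]

section Effective

variable {α β : Type*} (r : α → β)

theorem mapDomain_nonneg {Z : α →₀ ℤ} (hZ : ∀ a, 0 ≤ Z a) (b : β) :
    0 ≤ Finsupp.mapDomain r Z b := by
  classical
  rw [Finsupp.mapDomain, Finsupp.sum, Finsupp.finsetSum_apply]
  exact Finset.sum_nonneg fun a _ => by
    rw [Finsupp.single_apply]; split <;> [exact hZ a; exact le_rfl]

theorem mapDomain_mono {Z Z' : α →₀ ℤ} (hZ : ∀ a, Z a ≤ Z' a) (b : β) :
    Finsupp.mapDomain r Z b ≤ Finsupp.mapDomain r Z' b := by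
  have h := mapDomain_nonneg r (Z := Z' - Z) (fun a => by simpa using hZ a) b
  rw [Finsupp.mapDomain_sub, Finsupp.sub_apply] at h
  omega

theorem le_mapDomain_apply {Z : α →₀ ℤ} (hZ : ∀ a, 0 ≤ Z a) (a : α) :
    Z a ≤ Finsupp.mapDomain r Z (r a) := by
  classical
  have h := mapDomain_mono r (Z := Finsupp.single a (Z a)) (Z' := Z) (fun b => by
    rw [Finsupp.single_apply]; split <;> [(subst_vars; exact le_rfl); exact hZ b]) (r a)
  rwa [Finsupp.mapDomain_single, Finsupp.single_eq_same] at h

end Effective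

theorem divisorOf_eq_sub (g : modularFunctionFieldBar p) :
    (FF.divisorOf g : Divisor Qb (modularFunctionFieldBar p))
      = FF.zeroDivisor g - FF.poleDivisor g := by
  ext v
  simp only [FF.divisorOf_apply, Finsupp.sub_apply, FF.zeroDivisor_apply, FF.poleDivisor_apply]
  omega

theorem zeroDivisor_nonneg (g : modularFunctionFieldBar p) (v : Pl p) :
    0 ≤ (FF.zeroDivisor g : Divisor Qb (modularFunctionFieldBar p)) v := by
  rw [FF.zeroDivisor_apply]; exact le_max_left _ _

theorem poleDivisor_nonneg (g : modularFunctionFieldBar p) (v : Pl p) :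
    0 ≤ (FF.poleDivisor g : Divisor Qb (modularFunctionFieldBar p)) v := by
  rw [FF.poleDivisor_apply]; exact le_max_left _ _

theorem coeffMap_C' {R S : Type*} [CommRing R] [CommRing S] (f : R →+* S) (a : R) :
    coeffMap f (HahnSeries.C a) = HahnSeries.C (f a) := by
  ext i
  rw [coeffMap_coeff]
  rcases eq_or_ne i 0 with rfl | hi
  · simp [HahnSeries.C_apply]
  · simp [HahnSeries.C_apply, hi]

/-- `j` and `j(pτ)` on the reduced curve. -/
abbrev jbar : modularFunctionFieldFullC kA p := Reduction.jF p kA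

/-- `j(pτ)` on the reduced curve. -/
abbrev jpbar : modularFunctionFieldFullC kA p := Reduction.jTopF p kA

section Cusps

variable {ℓ : ℕ} [Fact ℓ.Prime] (hℓp : ℓ ≠ p) (hA : A.LiesOverPrime ℓ)
  (h : ReductionInputsModL A p) {c0 cInf : Pl p} (h0 : IsCuspZero p c0) (hi : IsCuspInf p cInf)

include hℓp hA h0 hi in
/-- If the two cusps have distinct reductions, their orders are preserved. -/
theorem ord_cusp_reduction (hne : placeReductionModL h c0 ≠ placeReductionModL h cInf) :
    (placeReductionModL h c0).ord jbar = -(p : ℤ) ∧ -1 ≤ (placeReductionModL h c0).ord jpbar ∧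
      (placeReductionModL h cInf).ord jbar = -1 ∧
      (placeReductionModL h cInf).ord jpbar = -(p : ℤ) := by
  classical
  have hp : p.Prime := Fact.out
  have hℓ : ℓ.Prime := Fact.out
  have hdvd : ¬ ℓ ∣ p := fun h' => hℓp ((Nat.prime_dvd_prime_iff_eq hℓ hp).mp h')
  haveI := GalCommon.isAlgClosed_residueField A hℓ hA
  haveI := Reduction.isFF_fullC_residue p A hA hdvd
  haveI := Reduction.isSeparable_fullC_residue p A hA hdvd
  set r := placeReductionModL h
  have hjy : coeffMap A.subtype (jqModC A) = ModularPlaces.jB p := by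
    rw [coeffMap_jqModC, coe_jB]
  have hjb : coeffMap (IsLocalRing.residue A) (jqModC A) = (jbar : modularFunctionFieldFullC kA p) :=
    coeffMap_jqModC _
  have hjb0 : (jbar : modularFunctionFieldFullC kA p) ≠ 0 := fun h' =>
    jqModC_ne_zero_of_nontrivial kA (congrArg Subtype.val h')
  have hjord := mapDomain_divisorOf h (jqModC A) hjy hjb hjb0
  set E : Divisor kA (modularFunctionFieldFullC kA p) :=
    Finsupp.single (r c0) (p : ℤ) + Finsupp.single (r cInf) 1 with hE
  have hE' : Finsupp.mapDomain r (FF.poleDivisor (ModularPlaces.jB p)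
      : Divisor Qb (modularFunctionFieldBar p)) = E := by
    rw [poleDivisor_jB h0 hi, Finsupp.mapDomain_add, Finsupp.mapDomain_single,
      Finsupp.mapDomain_single]
  set Z := Finsupp.mapDomain r (FF.zeroDivisor (ModularPlaces.jB p)
      : Divisor Qb (modularFunctionFieldBar p)) with hZ
  have hord : ∀ Q, Q.ord jbar = Z Q - E Q := fun Q => by
    rw [← hjord Q, divisorOf_eq_sub, Finsupp.mapDomain_sub, Finsupp.sub_apply, hE']
  have hZ0 : ∀ Q, 0 ≤ Z Q := mapDomain_nonneg r (zeroDivisor_nonneg _)
  set D : Divisor kA (modularFunctionFieldFullC kA p) := E - FF.poleDivisor jbar with hD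
  have hE0 : ∀ Q, 0 ≤ E Q := fun Q => by
    rw [← hE']; exact mapDomain_nonneg r (poleDivisor_nonneg _) Q
  have hD0 : ∀ Q, 0 ≤ D Q := fun Q => by
    rw [hD, Finsupp.sub_apply, FF.poleDivisor_apply, hord]
    have := hZ0 Q
    have := hE0 Q
    omega
  have hDdeg : Divisor.degree D = 0 := by
    rw [hD, hE, map_sub, map_add, Divisor.degree_single, Divisor.degree_single, FF.deg_eq_one,
      FF.deg_eq_one, FF.degree_poleDivisor (Reduction.transcendental_jF p kA),
      Reduction.finrank_fullC_residue p A hA hdvd, dedekindPsi_prime]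
    push_cast
    ring
  have hDz : D = 0 := by
    rw [FF.degree_eq_sum, Finsupp.sum] at hDdeg
    have hz := (Finset.sum_eq_zero_iff_of_nonneg fun v _ => hD0 v).mp hDdeg
    ext v
    by_cases hv : v ∈ D.support
    · exact hz v hv
    · exact Finsupp.notMem_support_iff.mp hv
  have hpole : ∀ Q, max 0 (-Q.ord jbar) = E Q := fun Q => by
    have := congrArg (fun D : Divisor kA (modularFunctionFieldFullC kA p) => D Q) hDz
    simp only [hD, Finsupp.sub_apply, FF.poleDivisor_apply, Finsupp.zero_apply] at this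
    omega
  have hc0 : E (r c0) = p := by simp [hE, hne]
  have hci : E (r cInf) = 1 := by simp [hE, Ne.symm hne]
  have hoj0 : (r c0).ord jbar = -(p : ℤ) := by
    have := hpole (r c0); have := hp.pos; omega
  have hoji : (r cInf).ord jbar = -1 := by have := hpole (r cInf); omega
  -- the cusp `∞` of the reduced curve
  obtain ⟨Q, hQ⟩ := exists_seriesPlace (modularFunctionFieldFullC kA p).val
    (jbar : modularFunctionFieldFullC kA p) (order_jqModC' kA)
  have hQj : Q.ord (jbar : modularFunctionFieldFullC kA p) = -1 := (hQ _).trans (order_jqModC' kA)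
  have hQp : Q.ord (jpbar : modularFunctionFieldFullC kA p) = -(p : ℤ) :=
    (hQ _).trans (order_jpSeries p kA)
  have hQE : E Q = 1 := by have := hpole Q; omega
  have hQeq : r cInf = Q := by
    by_contra h'
    simp only [hE, Finsupp.add_apply, Finsupp.single_apply, if_neg h', add_zero] at hQE
    split at hQE
    · have := hp.one_lt; omega
    · omega
  refine ⟨hoj0, ?_, hoji, hQeq ▸ hQp⟩
  have hpy : coeffMap A.subtype (qExpand A p (jqModC A)) = jpB p := by
    rw [coeffMap_qExpand, coeffMap_jqModC, coe_jpB]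
  have hpb : coeffMap (IsLocalRing.residue A) (qExpand A p (jqModC A))
      = (jpbar : modularFunctionFieldFullC kA p) := by
    rw [coeffMap_qExpand, coeffMap_jqModC]
    rfl
  have hpb0 : (jpbar : modularFunctionFieldFullC kA p) ≠ 0 := fun h' => by
    rw [h'] at hQp
    have := hp.pos
    simp at hQp
    omega
  rw [← mapDomain_divisorOf h _ hpy hpb hpb0 (r c0)]
  have hge := mapDomain_mono r (Z := -(Finsupp.single c0 (1 : ℤ) + Finsupp.single cInf (p : ℤ)))
    (Z' := (FF.divisorOf (jpB p) : Divisor Qb (modularFunctionFieldBar p))) (fun v => ?_) (r c0)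
  · refine le_trans ?_ hge
    rw [← Finsupp.mapDomain.addMonoidHom_apply, map_neg, Finsupp.mapDomain.addMonoidHom_apply,
      Finsupp.mapDomain_add, Finsupp.mapDomain_single, Finsupp.mapDomain_single]
    simp [Ne.symm hne]
  · rw [FF.divisorOf_apply, Finsupp.neg_apply, Finsupp.add_apply]
    have hne' := cusp_ne h0 hi
    rcases eq_or_ne c0 v with rfl | hv
    · simp [hne'.symm, h0.2]
    rcases eq_or_ne cInf v with rfl | hv'
    · simp [hne', hi.2]
    simp only [Finsupp.single_apply, if_neg hv, if_neg hv', add_zero, neg_zero]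
    by_contra hlt
    rcases eq_cusp_of_ord_jpB_neg h0 hi (not_le.mp hlt) with rfl | rfl
    · exact hv rfl
    · exact hv' rfl

end Cusps

/-- A place with values `a`, `b` at `f`, `g`, where `v(b) = p v(a) < 0`, does not reduce to the
cusp at which `f` has a pole of order `p`. -/
theorem reduction_ne_of_values {ℓ : ℕ} [Fact ℓ.Prime] (hA : A.LiesOverPrime ℓ)
    (h : ReductionInputsModL A p) {f g : modularFunctionFieldBar p}
    {fb gb : modularFunctionFieldFullC kA p} {Yf Yg : LaurentSeries A}
    (hf : coeffMap A.subtype Yf = f) (hg : coeffMap A.subtype Yg = g)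
    (hfb : coeffMap (IsLocalRing.residue A) Yf = fb) (hgb : coeffMap (IsLocalRing.residue A) Yg = gb)
    {c c' : Pl p} (hfc : c.ord f = -(p : ℤ)) (hgc : c.ord g = -1) (hfc' : c'.ord f = -1)
    (hgc' : c'.ord g = -(p : ℤ))
    (hoth : ∀ v : Pl p, v.ord f < 0 ∨ v.ord g < 0 → v = c ∨ v = c')
    (hne : placeReductionModL h c ≠ placeReductionModL h c')
    (hfbc : (placeReductionModL h c).ord fb = -(p : ℤ))
    (hgbc : -1 ≤ (placeReductionModL h c).ord gb)
    {x : Pl p} {a b : ℚ}
    (hxa : 0 < x.ord (f - algebraMap Qb (modularFunctionFieldBar p) (algebraMap ℚ Qb a)))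
    (hxb : 0 < x.ord (g - algebraMap Qb (modularFunctionFieldBar p) (algebraMap ℚ Qb b)))
    (ha : padicValRat ℓ a < 0) (hab : padicValRat ℓ b = p * padicValRat ℓ a) :
    placeReductionModL h x ≠ placeReductionModL h c := by
  classical
  intro hxc
  have hp : p.Prime := Fact.out
  have hp2 : (2 : ℤ) ≤ p := by exact_mod_cast hp.two_le
  have hp1 : (p : ℤ) < (p : ℤ) * p := by nlinarith
  set r := placeReductionModL h
  have ha0 : a ≠ 0 := fun h' => by simp [h'] at ha
  have hb0 : b ≠ 0 := fun h' => by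
    rw [h', padicValRat.zero] at hab
    nlinarith
  set u : Qb := algebraMap ℚ Qb (a ^ p / b) with hu
  have hu0 : a ^ p / b ≠ 0 := div_ne_zero (pow_ne_zero _ ha0) hb0
  have hval : padicValRat ℓ (a ^ p / b) = 0 := by
    rw [padicValRat.div (pow_ne_zero _ ha0) hb0, padicValRat.pow a, hab, sub_self]
  have huA : u ∈ A := (A.valuation_le_one_iff u).mp
    (valuation_ratCast_eq_one Fact.out hA hu0 hval).le
  set uk : kA := IsLocalRing.residue A ⟨u, huA⟩
  -- `G = f ^ p - u g`
  set G : modularFunctionFieldBar p :=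
    f ^ p - algebraMap Qb (modularFunctionFieldBar p) u * g with hG
  set Gb : modularFunctionFieldFullC kA p :=
    fb ^ p - algebraMap kA (modularFunctionFieldFullC kA p) uk * gb with hGb
  set Y : LaurentSeries A := Yf ^ p - HahnSeries.C (⟨u, huA⟩ : A) * Yg with hY
  have hGY : coeffMap A.subtype Y = G := by
    rw [hY, hG, map_sub, map_mul, map_pow, hf, hg, coeffMap_C']
    push_cast
    rw [algebraMap_laurentSeries_eq_single]
    rfl
  have hGbY : coeffMap (IsLocalRing.residue A) Y = Gb := by
    rw [hY, hGb, map_sub, map_mul, map_pow, hfb, hgb, coeffMap_C']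
    push_cast
    rw [algebraMap_laurentSeries_eq_single]
    rfl
  -- orders at the cusp
  have hkey : ∀ {F K : Type} [Field F] [Field K] [Algebra K F] (v : Place K F) (φ ψ : F) (t : K),
      v.ord φ = -(p : ℤ) → -1 ≤ v.ord ψ →
        φ ^ p - algebraMap K F t * ψ ≠ 0 ∧
          v.ord (φ ^ p - algebraMap K F t * ψ) = -((p : ℤ) * p) := by
    intro F K _ _ _ v φ ψ t hφ hψ
    have hφ0 : φ ≠ 0 := fun h' => by simp [h'] at hφ; omega
    have hφp : v.ord (φ ^ p) = -((p : ℤ) * p) := by rw [FF.ord_pow, hφ]; ring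
    rw [sub_eq_add_neg, ← hφp]
    refine FF.ord_add_of_lt v (pow_ne_zero _ hφ0) ?_
    rcases eq_or_ne (algebraMap K F t) 0 with ht | ht
    · exact Or.inl (by simp [ht])
    rcases eq_or_ne ψ 0 with hψ0 | hψ0
    · exact Or.inl (by simp [hψ0])
    · right
      rw [FF.ord_neg, v.ord_mul ht hψ0, FF.ord_algebraMap, hφp]
      omega
  obtain ⟨hG0, hGc⟩ := hkey c f g u hfc (by omega)
  obtain ⟨hGb0, hGbc⟩ := hkey (r c) fb gb uk hfbc hgbc
  rw [← hG] at hG0 hGc
  rw [← hGb] at hGb0 hGbc
  -- `G` vanishes at `x`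
  have hGx : 0 < x.ord G := by
    refine ord_pos_of_val_lt_one x hG0 ?_
    have hb' : algebraMap Qb (modularFunctionFieldBar p) u *
        algebraMap Qb (modularFunctionFieldBar p) (algebraMap ℚ Qb b)
          = algebraMap Qb (modularFunctionFieldBar p) (algebraMap ℚ Qb a) ^ p := by
      rw [← map_mul, hu, ← map_mul, div_mul_cancel₀ _ hb0, map_pow, map_pow]
    rw [hG, show f ^ p - algebraMap Qb (modularFunctionFieldBar p) u * g
      = (f ^ p - algebraMap Qb (modularFunctionFieldBar p) (algebraMap ℚ Qb a) ^ p)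
        - algebraMap Qb (modularFunctionFieldBar p) u *
          (g - algebraMap Qb (modularFunctionFieldBar p) (algebraMap ℚ Qb b)) by
      rw [mul_sub, hb']; ring]
    refine (Valuation.map_sub _ _ _).trans_lt (max_lt ?_ ?_)
    · exact val_pow_sub_pow_lt_one x (val_lt_one_of_ord_pos x hxa) p
    · rw [map_mul]
      exact (mul_le_mul_of_nonneg_right (val_algebraMap_le_one x u) zero_le).trans_lt
        (by rw [one_mul]; exact val_lt_one_of_ord_pos x hxb)
  -- poles of `G`
  have hGp : ∀ v : Pl p, (FF.poleDivisor G : Divisor Qb (modularFunctionFieldBar p)) v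
      ≤ (Finsupp.single c ((p : ℤ) * p) + Finsupp.single c' (p : ℤ)) v := by
    have hcc : c ≠ c' := fun h' => hne (congrArg r h')
    intro v
    rw [FF.poleDivisor_apply, Finsupp.add_apply, Finsupp.single_apply, Finsupp.single_apply]
    rcases eq_or_ne c v with rfl | hv
    · rw [if_pos rfl, if_neg hcc.symm, hGc]; omega
    have hbound : ∀ m : ℤ, 0 ≤ m → -m ≤ (p : ℤ) * v.ord f → -m ≤ v.ord g →
        max 0 (-v.ord G) ≤ m := by
      intro m hm hmf hmg
      refine max_le hm ?_
      have hf0 : f ≠ 0 := fun h' => by simp [h'] at hfc; omega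
      have hg0 : g ≠ 0 := fun h' => by simp [h'] at hgc
      rcases eq_or_ne (algebraMap Qb (modularFunctionFieldBar p) u) 0 with ht | ht
      · rw [hG, ht, zero_mul, sub_zero, FF.ord_pow]; omega
      have h2 := FF.ord_add_ge v (pow_ne_zero p hf0) (neg_ne_zero.mpr (mul_ne_zero ht hg0))
        (by rw [← sub_eq_add_neg]; exact hG0)
      rw [← sub_eq_add_neg, ← hG, FF.ord_neg, v.ord_mul ht hg0, FF.ord_algebraMap,
        FF.ord_pow] at h2
      rcases min_le_iff.mp h2 with h' | h' <;> omega
    rcases eq_or_ne c' v with rfl | hv'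
    · rw [if_neg hv, if_pos rfl, zero_add]
      exact hbound _ (by omega) (by rw [hfc']; omega) (by omega)
    rw [if_neg hv, if_neg hv', add_zero]
    have hpos : 0 ≤ v.ord f ∧ 0 ≤ v.ord g := by
      by_contra h'
      rcases hoth v (by omega) with h'' | h''
      · exact hv h''.symm
      · exact hv' h''.symm
    exact hbound 0 le_rfl (by have := mul_nonneg (Int.natCast_nonneg p) hpos.1; omega)
      (by omega)
  have hmap := mapDomain_divisorOf h Y hGY hGbY hGb0 (r c)
  rw [hGbc, divisorOf_eq_sub, Finsupp.mapDomain_sub, Finsupp.sub_apply] at hmap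
  simp only [show placeReductionModL h = r from rfl] at hmap
  have h1 := mapDomain_mono r hGp (r c)
  have hP : Finsupp.mapDomain r (Finsupp.single c ((p : ℤ) * p) + Finsupp.single c' (p : ℤ)) (r c)
      = (p : ℤ) * p := by
    rw [Finsupp.mapDomain_add, Finsupp.mapDomain_single, Finsupp.mapDomain_single]
    simp [Ne.symm hne]
  have h2 := le_mapDomain_apply r (zeroDivisor_nonneg G) x
  rw [hxc, FF.zeroDivisor_apply] at h2
  omega

section Main

variable {ℓ : ℕ} [Fact ℓ.Prime] (hℓp : ℓ ≠ p) (hA : A.LiesOverPrime ℓ)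
  (h : ReductionInputsModL A p) {c0 cInf : Pl p} (h0 : IsCuspZero p c0) (hi : IsCuspInf p cInf)
  {x : Pl p} {a b : ℚ}
  (hxa : 0 < x.ord (ModularPlaces.jB p
    - algebraMap Qb (modularFunctionFieldBar p) (algebraMap ℚ Qb a)))
  (hxb : 0 < x.ord (jpB p - algebraMap Qb (modularFunctionFieldBar p) (algebraMap ℚ Qb b)))
  (ha : padicValRat ℓ a < 0)

include hA h0 hi hxa ha in
/-- A point with non-integral `j` reduces to a cusp. -/
theorem reduction_eq_cusp_or :
    placeReductionModL h x = placeReductionModL h c0 ∨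
      placeReductionModL h x = placeReductionModL h cInf := by
  classical
  have hℓ : ℓ.Prime := Fact.out
  set r := placeReductionModL h
  have ha0 : a ≠ 0 := fun h' => by simp [h'] at ha
  set u : Qb := algebraMap ℚ Qb a⁻¹
  have hu1 : A.valuation u < 1 :=
    valuation_ratCast_lt_one hℓ hA (by rw [padicValRat.inv]; omega)
  have huA : u ∈ A := (A.valuation_le_one_iff u).mp hu1.le
  have hru : IsLocalRing.residue A ⟨u, huA⟩ = 0 := by
    rw [IsLocalRing.residue_eq_zero_iff]
    exact (ValuationSubring.valuation_lt_one_iff A ⟨u, huA⟩).mpr hu1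
  set G : modularFunctionFieldBar p :=
    algebraMap Qb (modularFunctionFieldBar p) u * ModularPlaces.jB p - 1 with hG
  have hGY : coeffMap A.subtype (HahnSeries.C (⟨u, huA⟩ : A) * jqModC A - 1) = G := by
    rw [hG, map_sub, map_mul, map_one, coeffMap_C', coeffMap_jqModC]
    push_cast
    rw [coe_jB, algebraMap_laurentSeries_eq_single]
    rfl
  have hGb : coeffMap (IsLocalRing.residue A) (HahnSeries.C (⟨u, huA⟩ : A) * jqModC A - 1)
      = ((-1 : modularFunctionFieldFullC kA p) : LaurentSeries kA) := by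
    rw [map_sub, map_mul, map_one, coeffMap_C', hru, map_zero, zero_mul, zero_sub]
    rfl
  have hmap := fun Q => mapDomain_divisorOf h _ hGY hGb (neg_ne_zero.mpr one_ne_zero) Q
  have hscale : G = algebraMap Qb (modularFunctionFieldBar p) u *
      (ModularPlaces.jB p - algebraMap Qb (modularFunctionFieldBar p) (algebraMap ℚ Qb a)) := by
    rw [hG, mul_sub, ← map_mul (algebraMap Qb (modularFunctionFieldBar p)), ← map_mul,
      inv_mul_cancel₀ ha0, map_one, map_one]
  have hu0 : algebraMap Qb (modularFunctionFieldBar p) u ≠ 0 :=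
    (map_ne_zero _).mpr ((map_ne_zero _).mpr (inv_ne_zero ha0))
  have hne : ModularPlaces.jB p - algebraMap Qb (modularFunctionFieldBar p) (algebraMap ℚ Qb a) ≠ 0 :=
    fun h' => by rw [h'] at hxa; simp at hxa
  have hGx : 0 < x.ord G := by
    rw [hscale, x.ord_mul hu0 hne, FF.ord_algebraMap, zero_add]; exact hxa
  have hsupp : ∀ v : Pl p, (FF.poleDivisor G : Divisor Qb (modularFunctionFieldBar p)) v ≤
      (FF.poleDivisor (ModularPlaces.jB p) : Divisor Qb (modularFunctionFieldBar p)) v := fun v => by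
    rw [FF.poleDivisor_apply, FF.poleDivisor_apply, hscale, v.ord_mul hu0 hne, FF.ord_algebraMap,
      zero_add]
    rcases eq_or_ne (algebraMap Qb (modularFunctionFieldBar p) (algebraMap ℚ Qb a)) 0 with h' | h'
    · rw [h', sub_zero]
    have h2 := FF.ord_add_ge v (f := ModularPlaces.jB p)
      (g := -algebraMap Qb (modularFunctionFieldBar p) (algebraMap ℚ Qb a))
      (fun h' => ModularPlaces.transcendental_jB p (h' ▸ isAlgebraic_zero)) (neg_ne_zero.mpr h')
      (by rw [← sub_eq_add_neg]; exact hne)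
    rw [← sub_eq_add_neg, FF.ord_neg, FF.ord_algebraMap] at h2
    omega
  by_contra hcon
  rw [not_or] at hcon
  have hQ := hmap (r x)
  rw [divisorOf_eq_sub, Finsupp.mapDomain_sub, Finsupp.sub_apply, FF.ord_neg, Place.ord_one] at hQ
  simp only [show placeReductionModL h = r from rfl] at hQ
  have h1 := mapDomain_mono r hsupp (r x)
  rw [poleDivisor_jB h0 hi, Finsupp.mapDomain_add, Finsupp.mapDomain_single,
    Finsupp.mapDomain_single, Finsupp.add_apply, Finsupp.single_apply, Finsupp.single_apply,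
    if_neg (Ne.symm hcon.1), if_neg (Ne.symm hcon.2), add_zero] at h1
  have h2 := le_mapDomain_apply r (zeroDivisor_nonneg G) x
  rw [FF.zeroDivisor_apply] at h2
  omega

include hℓp hA h0 hi hxa hxb ha in
/-- `v (j(pτ)) = p v (j)`: the point reduces to `∞`. -/
theorem reduction_eq_cuspInf (hab : padicValRat ℓ b = p * padicValRat ℓ a) :
    placeReductionModL h x = placeReductionModL h cInf := by
  rcases reduction_eq_cusp_or hA h h0 hi hxa ha with hx | hx
  · by_cases hne : placeReductionModL h c0 = placeReductionModL h cInf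
    · exact hx.trans hne
    obtain ⟨h1, h2, -, -⟩ := ord_cusp_reduction hℓp hA h h0 hi hne
    refine absurd hx (reduction_ne_of_values hA h (f := ModularPlaces.jB p) (g := jpB p)
      (Yf := jqModC A) (Yg := qExpand A p (jqModC A)) ?_ ?_ ?_ ?_ h0.1 h0.2 hi.1 hi.2 ?_ hne h1 h2
      hxa hxb ha hab)
    · rw [coeffMap_jqModC, coe_jB]
    · rw [coeffMap_qExpand, coeffMap_jqModC, coe_jpB]
    · exact coeffMap_jqModC _
    · rw [coeffMap_qExpand, coeffMap_jqModC]; rfl
    · rintro v (hv | hv)
      · exact eq_cusp_of_ord_neg h0 hi hv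
      · exact eq_cusp_of_ord_jpB_neg h0 hi hv
  · exact hx

include hℓp hA h0 hi hxa hxb ha in
/-- `v (j) = p v (j(pτ))`: the point reduces to `0`. -/
theorem reduction_eq_cuspZero (hb : padicValRat ℓ b < 0)
    (hab : padicValRat ℓ a = p * padicValRat ℓ b) :
    placeReductionModL h x = placeReductionModL h c0 := by
  rcases reduction_eq_cusp_or hA h h0 hi hxa ha with hx | hx
  · exact hx
  · by_cases hne : placeReductionModL h c0 = placeReductionModL h cInf
    · exact hx.trans hne.symm
    obtain ⟨-, -, h3, h4⟩ := ord_cusp_reduction hℓp hA h h0 hi hne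
    refine absurd hx (reduction_ne_of_values hA h (f := jpB p) (g := ModularPlaces.jB p)
      (Yf := qExpand A p (jqModC A)) (Yg := jqModC A) ?_ ?_ ?_ ?_ hi.2 hi.1 h0.2 h0.1 ?_
      (Ne.symm hne) h4 h3.ge hxb hxa hb hab)
    · rw [coeffMap_qExpand, coeffMap_jqModC, coe_jpB]
    · rw [coeffMap_jqModC, coe_jB]
    · rw [coeffMap_qExpand, coeffMap_jqModC]; rfl
    · exact coeffMap_jqModC _
    · rintro v (hv | hv)
      · exact (eq_cusp_of_ord_jpB_neg h0 hi hv).symm
      · exact (eq_cusp_of_ord_neg h0 hi hv).symm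

end Main

end FLTAgent.Mazur
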