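import Fermat.Agent.Mazur.CuspUnit
import Fermat.Agent.Mazur.CuspReduction
import Fermat.Agent.Kronecker.CoeffGalois
import Fermat.Agent.Reduction.InputsLevel

/-!
# Reduction is injective on the cuspidal subgroup

`zsmul_cusp_eq_zero`: in residue characteristic `ℓ ≥ 5`, `ℓ ≠ p`, a multiple of `C = (0) - (∞)`
with zero reduction is zero.  The part of order prime to `ℓ` is handled by injectivity of
reduction on such torsion; for the `ℓ`-part, `Δ(τ)/Δ(pτ)` is not an `ℓ`-th power modulo `ℓ` since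
its second coefficient is `-24` (`reductionModL_zsmul_cusp_ne_zero`).
-/

set_option autoImplicit false
set_option linter.style.haveILetI false

noncomputable section

open ModularCurve AlgebraicCurve

namespace FLTAgent.Mazur

open scoped PowerSeries.WithPiTopology in
theorem coeff_one_etaProd : PowerSeries.coeff 1 etaProd = -1 := by
  have key : ∀ s : Finset ℕ,
      (Modular.etaPoly ℤ s).coeff 0 = 1 ∧
        (Modular.etaPoly ℤ s).coeff 1 = if 0 ∈ s then -1 else 0 := by
    intro s
    induction s using Finset.induction with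
    | empty => simp [Modular.etaPoly, Polynomial.coeff_one]
    | insert n s hn ih =>
      rw [Modular.etaPoly, Finset.prod_insert hn, ← Modular.etaPoly]
      obtain ⟨ih0, ih1⟩ := ih
      refine ⟨?_, ?_⟩
      · rw [Polynomial.mul_coeff_zero, ih0]
        simp
      · rw [Polynomial.coeff_mul,
          show Finset.HasAntidiagonal.antidiagonal (1 : ℕ) = ({(0, 1), (1, 0)} : Finset (ℕ × ℕ)) from rfl,
          Finset.sum_pair (by decide)]
        rcases eq_or_ne n 0 with rfl | hn0
        · simp [ih0, ih1, hn, Polynomial.coeff_one]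
        · simp [ih0, ih1, hn0, Ne.symm hn0, Polynomial.coeff_one, Polynomial.coeff_X_pow]
  obtain ⟨s, hs⟩ := Filter.eventually_atTop.mp (Modular.eventually_coeff_etaPoly 1)
  rw [← hs (insert 0 s) (Finset.subset_insert _ _), (key _).2, if_pos (Finset.mem_insert_self 0 s)]

theorem coeff_one_dedekindEtaUnit : PowerSeries.coeff 1 dedekindEtaUnit = -24 := by
  rw [dedekindEtaUnit, PowerSeries.coeff_one_pow, coeff_one_etaProd, constantCoeff_etaProd]
  norm_num

section Series

variable (R : Type*) [CommRing R] (p : ℕ) [NeZero p]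

/-- `Δ(τ)/Δ(pτ)` over any ring. -/
def unitSer : LaurentSeries R :=
  Reduction.etaSer R * qExpand R p (Reduction.etaSerInv R)

theorem qExpand_ofPowerSeries (f : PowerSeries R) :
    qExpand R p (HahnSeries.ofPowerSeries ℤ R f) =
      HahnSeries.ofPowerSeries ℤ R (PowerSeries.expand p (NeZero.ne p) f) := by
  have hp : p ≠ 0 := NeZero.ne p
  ext i
  by_cases hi : (p : ℤ) ∣ i
  · obtain ⟨m, rfl⟩ := hi
    rw [qExpand_coeff_mul]
    rcases le_or_gt 0 m with hm | hm
    · lift m to ℕ using hm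
      rw [← Nat.cast_mul, HahnSeries.ofPowerSeries_apply_coeff,
        HahnSeries.ofPowerSeries_apply_coeff, PowerSeries.coeff_expand_mul]
    · rw [ofPowerSeries_coeff_of_neg _ hm, ofPowerSeries_coeff_of_neg]
      exact mul_neg_of_pos_of_neg (by exact_mod_cast Nat.pos_of_ne_zero hp) hm
  · rw [qExpand_coeff_of_not_dvd p _ hi]
    rcases le_or_gt 0 i with hi0 | hi0
    · lift i to ℕ using hi0
      rw [HahnSeries.ofPowerSeries_apply_coeff, PowerSeries.coeff_expand_of_not_dvd]
      exact fun h => hi (Int.natCast_dvd_natCast.mpr h)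
    · exact (ofPowerSeries_coeff_of_neg _ hi0).symm

theorem unitSer_eq : unitSer R p = HahnSeries.single (1 - (p : ℤ)) 1 *
    HahnSeries.ofPowerSeries ℤ R (dedekindEtaUnit.map (Int.castRingHom R) *
      PowerSeries.expand p (NeZero.ne p) (dedekindEtaUnitInv.map (Int.castRingHom R))) := by
  rw [unitSer, Reduction.etaSer, Reduction.etaSerInv, map_mul, qExpand_single,
    qExpand_ofPowerSeries, map_mul, mul_mul_mul_comm, HahnSeries.single_mul_single, mul_one]
  congr 2
  ring

theorem coeff_unitSer_add (k : ℕ) : (unitSer R p).coeff (1 - (p : ℤ) + k) =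
    PowerSeries.coeff k (dedekindEtaUnit.map (Int.castRingHom R) *
      PowerSeries.expand p (NeZero.ne p) (dedekindEtaUnitInv.map (Int.castRingHom R))) := by
  rw [unitSer_eq, HahnSeries.coeff_single_mul, one_mul,
    show 1 - (p : ℤ) + k - (1 - p) = k by ring, HahnSeries.ofPowerSeries_apply_coeff]

theorem coeff_unitSer_lead : (unitSer R p).coeff (1 - (p : ℤ)) = 1 := by
  have h := coeff_unitSer_add R p 0
  rw [Nat.cast_zero, add_zero] at h
  rw [h, PowerSeries.coeff_zero_eq_constantCoeff, map_mul, PowerSeries.constantCoeff_expand,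
    ← PowerSeries.coeff_zero_eq_constantCoeff, PowerSeries.coeff_map, PowerSeries.coeff_map,
    PowerSeries.coeff_zero_eq_constantCoeff, constantCoeff_dedekindEtaUnit,
    constantCoeff_dedekindEtaUnitInv, map_one, mul_one]

theorem coeff_unitSer_second (hp : 2 ≤ p) : (unitSer R p).coeff (2 - (p : ℤ)) = -24 := by
  have h := coeff_unitSer_add R p 1
  rw [Nat.cast_one, show 1 - (p : ℤ) + 1 = 2 - p by ring] at h
  rw [h, PowerSeries.coeff_mul,
    show Finset.HasAntidiagonal.antidiagonal (1 : ℕ) = ({(0, 1), (1, 0)} : Finset (ℕ × ℕ)) from rfl,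
    Finset.sum_pair (by decide)]
  have hnd : ¬ p ∣ 1 := by rw [Nat.dvd_one]; omega
  rw [PowerSeries.coeff_expand_of_not_dvd p (NeZero.ne p) (h := hnd), mul_zero, zero_add,
    PowerSeries.coeff_map, coeff_one_dedekindEtaUnit, PowerSeries.coeff_zero_eq_constantCoeff,
    PowerSeries.constantCoeff_expand, ← PowerSeries.coeff_zero_eq_constantCoeff,
    PowerSeries.coeff_map, PowerSeries.coeff_zero_eq_constantCoeff,
    constantCoeff_dedekindEtaUnitInv, map_one, mul_one]
  simp

variable {R} {S : Type*} [CommRing S]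

theorem coeffMap_unitSer (f : R →+* S) : coeffMap f (unitSer R p) = unitSer S p := by
  have hinv : coeffMap f (Reduction.etaSerInv R) = Reduction.etaSerInv S := by
    rw [Reduction.etaSerInv, Reduction.etaSerInv, map_mul, coeffMap_single, map_one,
      coeffMap_ofPowerSeries,
      ← RingHom.comp_apply (PowerSeries.map f) (PowerSeries.map (Int.castRingHom R)),
      ← PowerSeries.map_comp, RingHom.ext_int (f.comp (Int.castRingHom R)) (Int.castRingHom S)]
  rw [unitSer, unitSer, map_mul, Reduction.coeffMap_etaSer, coeffMap_qExpand, hinv]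

end Series

theorem coeffEmb_modularUnitSeries (L : Type*) [Field L] [Algebra ℚ L] (p : ℕ) [NeZero p] :
    coeffEmb L (modularUnitSeries p) = unitSer L p := by
  have h := Reduction.etaSer_mul_inv L
  rw [modularUnitSeries, deltaSeriesN, map_mul, map_inv₀, coeffEmb_deltaSeries, coeffEmb,
    coeffMap_qExpand, ← coeffEmb, coeffEmb_deltaSeries, ← map_inv₀,
    inv_eq_of_mul_eq_one_right h, unitSer]

local notation "Qb" => AlgebraicClosure ℚ

variable {p : ℕ} [Fact p.Prime] {A : ValuationSubring (AlgebraicClosure ℚ)}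

local notation "kA" => IsLocalRing.ResidueField A

/-- The reduction of an integral expansion of a function, when nonzero, is a function on the
reduced curve. -/
theorem coeffMap_residue_mem {ℓ : ℕ} [Fact ℓ.Prime] (hℓp : ¬ ℓ ∣ p) (hA : A.LiesOverPrime ℓ)
    {Y : LaurentSeries A} {g : modularFunctionFieldBar p}
    (hy : coeffMap A.subtype Y = g) (hne : coeffMap (IsLocalRing.residue A) Y ≠ 0) :
    coeffMap (IsLocalRing.residue A) Y ∈ modularFunctionFieldFullC kA p := by
  have hg : g ≠ 0 := fun h => hne (by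
    rw [h, ZeroMemClass.coe_zero] at hy
    have : Y = 0 := HahnSeries.ext (funext fun i => Subtype.ext (by
      simpa using congrArg (fun s : LaurentSeries Qb => s.coeff i) hy))
    rw [this, map_zero])
  obtain ⟨c, -, hV, hred⟩ := Reduction.modularGauss_scale A p hA hℓp g hg
  obtain ⟨a, b, hb, hab⟩ := Reduction.modularGauss_mem.mp hV
  rw [Reduction.modularGauss_red hb hab] at hred
  set res := coeffMap (IsLocalRing.residue A)
  have hb' : res (b : LaurentSeries A) ≠ 0 := fun h => hb (Subtype.ext h)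
  have ha' : res (a : LaurentSeries A) ≠ 0 := fun h => hred (by
    rw [show Reduction.expToRes A p a = 0 from Subtype.ext h, zero_div])
  have heq : HahnSeries.C c * coeffMap A.subtype (Y * b) = coeffMap A.subtype (a : LaurentSeries A) := by
    have h := congrArg (modularFunctionFieldBar p).val hab
    rw [map_mul, Algebra.smul_def, map_mul] at h
    simp only [IntermediateField.coe_val, Reduction.coe_expToBar, ← hy] at h
    rw [← h, map_mul, HahnSeries.C_apply, ← algebraMap_laurentSeries_eq_single, mul_assoc]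
    rfl
  obtain ⟨j, hj⟩ : ∃ j, (res (Y * b)).coeff j ≠ 0 := by
    by_contra hcon
    push Not at hcon
    exact mul_ne_zero hne hb' (by rw [← map_mul]; exact HahnSeries.ext (funext fun i => hcon i))
  rw [coeffMap_coeff, IsLocalRing.residue_ne_zero_iff_isUnit] at hj
  obtain ⟨u, hu⟩ := hj
  have hc : c ∈ A := by
    have h := congrArg (fun s : LaurentSeries Qb => s.coeff j) heq
    simp only [HahnSeries.C_apply, HahnSeries.coeff_single_mul, sub_zero, coeffMap_coeff,
      ← hu, ValuationSubring.subtype_apply] at h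
    have hu1 : ((u : A) : Qb) * ((u⁻¹ : Aˣ) : A) = 1 := by
      rw [← MulMemClass.coe_mul, u.mul_inv]; rfl
    have : c = (((a : LaurentSeries A).coeff j : A) : Qb) * (((u⁻¹ : Aˣ) : A) : Qb) := by
      rw [← h, mul_assoc, hu1, mul_one]
    rw [this]
    exact A.mul_mem _ _ (SetLike.coe_mem _) (SetLike.coe_mem _)
  have hA' : HahnSeries.C (⟨c, hc⟩ : A) * (Y * (b : LaurentSeries A)) = (a : LaurentSeries A) := by
    refine HahnSeries.ext (funext fun i => Subtype.ext ?_)
    have h := congrArg (fun s : LaurentSeries Qb => s.coeff i) heq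
    simp only [HahnSeries.C_apply, HahnSeries.coeff_single_mul, sub_zero, coeffMap_coeff,
      ValuationSubring.subtype_apply] at h ⊢
    rw [MulMemClass.coe_mul]
    exact h
  have hres := congrArg res hA'
  rw [map_mul, map_mul, coeffMap_C'] at hres
  have hc0 : HahnSeries.C (IsLocalRing.residue A ⟨c, hc⟩) ≠ (0 : LaurentSeries kA) := fun h => by
    rw [h, zero_mul] at hres
    exact ha' hres.symm
  have : res Y = res a * (HahnSeries.C (IsLocalRing.residue A ⟨c, hc⟩) * res b)⁻¹ := by
    rw [← hres]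
    field_simp
  rw [this]
  refine mul_mem (Reduction.expToRes A p a).2 (inv_mem (mul_mem ?_ (Reduction.expToRes A p b).2))
  have := (modularFunctionFieldFullC kA p).algebraMap_mem (IsLocalRing.residue A ⟨c, hc⟩)
  rwa [algebraMap_laurentSeries_eq_single, ← HahnSeries.C_apply] at this

variable {c0 cInf : Pl p}

/-- If `p - 1 = ℓ M` then `M C` does not reduce to zero, for `ℓ ≥ 5`. -/
theorem reductionModL_zsmul_cusp_ne_zero {ℓ : ℕ} [Fact ℓ.Prime] (hℓ5 : 5 ≤ ℓ) (hℓp : ℓ ≠ p)
    (hA : A.LiesOverPrime ℓ) (h0 : IsCuspZero p c0) (hi : IsCuspInf p cInf) {M : ℤ}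
    (hM : (p : ℤ) - 1 = ℓ * M) :
    reductionModL A p (M • placeDiff p c0 cInf) ≠ 0 := by
  classical
  intro hzero
  have hp : p.Prime := Fact.out
  have hℓ : ℓ.Prime := Fact.out
  have hdvd : ¬ ℓ ∣ p := fun h' => hℓp ((Nat.prime_dvd_prime_iff_eq hℓ hp).mp h')
  haveI := GalCommon.isAlgClosed_residueField A hℓ hA
  haveI := Reduction.isFF_fullC_residue p A hA hdvd
  haveI : CharP kA ℓ := GalCommon.charP_residueField hℓ hA
  haveI : NeZero ℓ := ⟨hℓ.ne_zero⟩
  have h := Reduction.reductionInputsModL p hdvd A hA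
  set r := placeReductionModL h
  -- the function with divisor the reduction of `M C`
  rw [placeDiff] at hzero
  change reductionModL A p (M • Pic0.mk _) = 0 at hzero
  rw [map_zsmul, reductionModL_mk h] at hzero
  change M • (QuotientAddGroup.mk _) = 0 at hzero
  rw [← QuotientAddGroup.mk_zsmul, QuotientAddGroup.eq_zero_iff, AddSubgroup.mem_addSubgroupOf,
    Divisor.mem_principal, AddSubgroupClass.coe_zsmul, coe_reductionDegZeroAlong] at hzero
  obtain ⟨w, hw0, hw⟩ := hzero
  -- the reduced unit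
  set Y : LaurentSeries A := unitSer A p
  have hY : coeffMap A.subtype Y = uB p := by
    rw [coe_uB, coeffEmb_modularUnitSeries, coeffMap_unitSer]
  have hlead : (coeffMap (IsLocalRing.residue A) Y).coeff (1 - (p : ℤ)) = 1 := by
    rw [coeffMap_unitSer, coeff_unitSer_lead]
  have hYne : coeffMap (IsLocalRing.residue A) Y ≠ 0 :=
    HahnSeries.ne_zero_of_coeff_ne_zero (g := 1 - (p : ℤ)) (by rw [hlead]; exact one_ne_zero)
  set ub : modularFunctionFieldFullC kA p := ⟨_, coeffMap_residue_mem hdvd hA hY hYne⟩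
  have hub0 : ub ≠ 0 := fun h' => hYne (congrArg Subtype.val h')
  have hord : ∀ Q : Place kA (modularFunctionFieldFullC kA p), Q.ord ub = (ℓ : ℤ) * Q.ord w := fun Q => by
    rw [← mapDomain_divisorOf h Y hY (gb := ub) rfl hub0 Q, divisorOf_uB h0 hi, hM, mul_smul,
      Finsupp.mapDomain_smul, ← hw Q]
    simp only [← Finsupp.mapDomain.addMonoidHom_apply, map_zsmul, Finsupp.smul_apply, smul_eq_mul]
  -- `ub` is a constant times an `ℓ`-th power
  obtain ⟨c, hc⟩ := FF.mem_range_of_forall_ord_nonneg (K := kA) (f := ub * (w ^ ℓ)⁻¹) fun Q => by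
    rw [Q.ord_mul hub0 (inv_ne_zero (pow_ne_zero _ hw0)), Q.ord_inv, FF.ord_pow, hord Q]
    omega
  have hubeq : ub = algebraMap kA _ c * w ^ ℓ := by
    rw [hc, mul_assoc, inv_mul_cancel₀ (pow_ne_zero _ hw0), mul_one]
  have hsec : (coeffMap (IsLocalRing.residue A) Y).coeff (2 - (p : ℤ)) = 0 := by
    rw [show coeffMap (IsLocalRing.residue A) Y = ((ub : modularFunctionFieldFullC kA p) :
      LaurentSeries kA) from rfl, hubeq, MulMemClass.coe_mul, SubmonoidClass.coe_pow,
      Kronecker.pow_char_eq_qExpand ℓ]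
    show (algebraMap kA (LaurentSeries kA) c * _).coeff _ = 0
    rw [algebraMap_laurentSeries_eq_single, HahnSeries.coeff_single_mul, sub_zero,
      qExpand_coeff_of_not_dvd, mul_zero]
    intro hdiv
    have h1 : (ℓ : ℤ) ∣ (p : ℤ) - 1 := ⟨M, hM⟩
    have h2 : (ℓ : ℤ) ∣ 1 := by
      have := dvd_add hdiv h1
      rwa [show 2 - (p : ℤ) + ((p : ℤ) - 1) = 1 by ring] at this
    have := Int.le_of_dvd one_pos h2
    omega
  rw [coeffMap_unitSer, coeff_unitSer_second kA p hp.two_le, neg_eq_zero,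
    show (24 : kA) = ((24 : ℕ) : kA) by norm_num, CharP.cast_eq_zero_iff kA ℓ] at hsec
  have h24 : ℓ ∣ 2 ^ 3 * 3 := hsec
  rcases hℓ.dvd_mul.mp h24 with h' | h'
  · have := Nat.le_of_dvd (by norm_num) (hℓ.dvd_of_dvd_pow h')
    omega
  · have := Nat.le_of_dvd (by norm_num) h'
    omega

/-- Reduction is injective on the subgroup generated by the cuspidal class, in residue
characteristic at least `5`. -/
theorem zsmul_cusp_eq_zero (hA' : ∃ ℓ : ℕ, ℓ.Prime ∧ 5 ≤ ℓ ∧ ℓ ≠ p ∧ A.LiesOverPrime ℓ)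
    (h0 : IsCuspZero p c0) (hi : IsCuspInf p cInf) (k : ℤ)
    (hk : reductionModL A p (k • placeDiff p c0 cInf) = 0) :
    k • placeDiff p c0 cInf = 0 := by
  obtain ⟨ℓ, hℓ, hℓ5, hℓp, hA⟩ := hA'
  haveI : Fact ℓ.Prime := ⟨hℓ⟩
  have hp : p.Prime := Fact.out
  have hdvd : ¬ ℓ ∣ p := fun h' => hℓp ((Nat.prime_dvd_prime_iff_eq hℓ hp).mp h')
  have h := Reduction.reductionInputsModL p hdvd A hA
  set C := placeDiff p c0 cInf
  have hC : ((p : ℤ) - 1) • C = 0 := sub_one_zsmul_placeDiff h0 hi
  obtain ⟨a, r, hr, har⟩ :=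
    Nat.exists_eq_pow_mul_and_not_dvd (n := p - 1) (by have := hp.two_le; omega) ℓ hℓ.ne_one
  have har' : (p : ℤ) - 1 = ((ℓ ^ a : ℕ) : ℤ) * r := by
    rw [← Nat.cast_mul, ← har, Nat.cast_sub hp.one_lt.le, Nat.cast_one]
  by_cases hka : ((ℓ ^ a : ℕ) : ℤ) ∣ k
  · refine Reduction.eq_zero_of_reductionModL_eq_zero p hdvd A hA h r hr _ ?_ hk
    obtain ⟨j, rfl⟩ := hka
    rw [← natCast_zsmul, smul_smul,
      show (r : ℤ) * (((ℓ ^ a : ℕ) : ℤ) * j) = j * ((p : ℤ) - 1) by rw [har']; ring, mul_smul, hC,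
      smul_zero]
  exfalso
  set d := Int.gcd k ((p : ℤ) - 1) with hd
  have hdC : reductionModL A p ((d : ℤ) • C) = 0 := by
    rw [hd, Int.gcd_eq_gcd_ab, add_zsmul, mul_comm k, mul_comm ((p : ℤ) - 1), ← smul_smul,
      ← smul_smul, hC, smul_zero, add_zero, map_zsmul, hk, smul_zero]
  obtain ⟨a', rfl⟩ : ∃ a', a = a' + 1 := by
    refine Nat.exists_eq_succ_of_ne_zero fun h0 => hka ?_
    simp [h0]
  have hdM : (d : ℤ) ∣ ((ℓ ^ a' * r : ℕ) : ℤ) := by
    have hdn : d ∣ ℓ ^ (a' + 1) * r := by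
      rw [← har, ← Int.natCast_dvd_natCast, Nat.cast_sub hp.one_lt.le, Nat.cast_one, hd]
      exact Int.gcd_dvd_right _ _
    have hcop : ∀ i, Nat.Coprime (ℓ ^ i) r := fun i =>
      Nat.Coprime.pow_left _ (hℓ.coprime_iff_not_dvd.mpr hr)
    rw [Int.natCast_dvd_natCast]
    obtain ⟨d1, d2, hd1, hd2, hd12⟩ := Nat.dvd_mul.mp hdn
    obtain ⟨i, hi', hi''⟩ := (Nat.dvd_prime_pow hℓ).mp hd1
    rcases Nat.lt_or_ge i (a' + 1) with hlt | hge
    · rw [← hd12, hi'']
      exact mul_dvd_mul (pow_dvd_pow ℓ (by omega)) hd2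
    · exfalso
      apply hka
      have h1 : d1 ∣ d := ⟨d2, hd12.symm⟩
      rw [hi'', show i = a' + 1 by omega] at h1
      exact (Int.natCast_dvd_natCast.mpr h1).trans (hd ▸ Int.gcd_dvd_left _ _)
  obtain ⟨e, he⟩ := hdM
  refine reductionModL_zsmul_cusp_ne_zero (A := A) hℓ5 hℓp hA h0 hi (M := ((ℓ ^ a' * r : ℕ) : ℤ))
    (by rw [har']; push_cast; ring) ?_
  rw [he, mul_comm, mul_smul, map_zsmul, hdC, smul_zero]

end FLTAgent.Mazur
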