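import Fermat.Agent.Mazur.CuspPlaces
import Fermat.Agent.ModularPlaces.Genus
import Fermat.Agent.FF.RiemannRoch
import Fermat.Agent.Reduction.PlacesParam

/-!
# The cuspidal class is not zero

For `p ∉ {2, 3, 5, 7, 13}` the genus of `X₀(p)` is positive (`genusFF_bar_ne_zero`, from the genus
formula) and `C = (0) - (∞)` is not zero (`placeDiff_cusp_ne_zero`): a function with divisor `C`
would have a single simple pole, and its powers would make the Riemann–Roch space of a large
multiple of `∞` bigger than it is.
-/

set_option autoImplicit false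
set_option linter.style.haveILetI false

noncomputable section

open ModularCurve AlgebraicCurve

namespace FLTAgent.Mazur

local notation "Qb" => AlgebraicClosure ℚ

theorem natCard_subtype_le_two {α : Type*} {P : α → Prop} (g : α → α)
    (h : ∀ x y, P x → P y → y = x ∨ y = g x) : Nat.card {x // P x} ≤ 2 := by
  classical
  rcases isEmpty_or_nonempty {x // P x} with hE | ⟨⟨x, hx⟩⟩
  · simp
  have hsub : {y | P y} ⊆ ({x, g x} : Set α) := fun y hy => by
    rcases h x y hx hy with rfl | rfl <;> simp
  calc Nat.card {x // P x} = ({y | P y} : Set α).ncard := (Nat.card_coe_set_eq _)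
    _ ≤ ({x, g x} : Set α).ncard := Set.ncard_le_ncard hsub (Set.toFinite _)
    _ ≤ 2 := by
      refine (Set.ncard_insert_le _ _).trans ?_
      rw [Set.ncard_singleton]

theorem nuTwo_le_two (p : ℕ) [Fact p.Prime] : nuTwo p ≤ 2 :=
  natCard_subtype_le_two (fun x : ZMod p => -x) fun x y hx hy => by
    have h : (y - x) * (y + x) = 0 := by linear_combination hy - hx
    rcases mul_eq_zero.mp h with h | h
    · exact Or.inl (sub_eq_zero.mp h)
    · exact Or.inr (eq_neg_of_add_eq_zero_left h)

theorem nuThree_le_two (p : ℕ) [Fact p.Prime] : nuThree p ≤ 2 :=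
  natCard_subtype_le_two (fun x : ZMod p => -1 - x) fun x y hx hy => by
    have h : (y - x) * (y + x + 1) = 0 := by linear_combination hy - hx
    rcases mul_eq_zero.mp h with h | h
    · exact Or.inl (sub_eq_zero.mp h)
    · exact Or.inr (by linear_combination h)

theorem cuspCount_prime_eq (p : ℕ) [hp : Fact p.Prime] : cuspCount p = 2 := by
  rw [cuspCount, hp.out.divisors, Finset.sum_pair hp.out.one_lt.ne]
  simp [Nat.div_self hp.out.pos]

theorem genusFF_bar_ne_zero (p : ℕ) [hp : Fact p.Prime]
    (hp' : p ∉ ({2, 3, 5, 7, 13} : Finset ℕ)) :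
    genusFF Qb ↥(modularFunctionFieldBar p) ≠ 0 := by
  intro h0
  have hg := ModularPlaces.genusFF_bar p
  rw [h0, genusFormula, dedekindPsi_prime, cuspCount_prime_eq] at hg
  simp only [Finset.mem_insert, Finset.mem_singleton, not_or] at hp'
  obtain ⟨h2, h3, h5, h7, h13⟩ := hp'
  rcases le_or_gt 14 p with hlt | hlt
  · have e2 : (nuTwo p : ℚ) ≤ 2 := by exact_mod_cast nuTwo_le_two p
    have e3 : (nuThree p : ℚ) ≤ 2 := by exact_mod_cast nuThree_le_two p
    have e : (14 : ℚ) ≤ p := by exact_mod_cast hlt
    push_cast at hg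
    linarith
  · have h11 : p = 11 := by
      have := hp.out.two_le
      interval_cases p <;> first | rfl | omega | (exfalso; revert hp; intro hp; exact absurd hp.out (by decide))
    subst h11
    have e2 : nuTwo 11 = 0 := by rw [nuTwo, Nat.card_eq_fintype_card]; decide
    have e3 : nuThree 11 = 0 := by rw [nuThree, Nat.card_eq_fintype_card]; decide
    rw [e2, e3] at hg
    norm_num at hg

variable {p : ℕ} [Fact p.Prime] {c0 cInf : Pl p}

/-- The cuspidal class is not zero. -/
theorem placeDiff_cusp_ne_zero (hp' : p ∉ ({2, 3, 5, 7, 13} : Finset ℕ))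
    (h0 : IsCuspZero p c0) (hi : IsCuspInf p cInf) : placeDiff p c0 cInf ≠ 0 := by
  classical
  intro hC
  have hne := cusp_ne h0 hi
  rw [placeDiff, Pic0.mk, QuotientAddGroup.eq_zero_iff, AddSubgroup.mem_addSubgroupOf,
    Divisor.mem_principal] at hC
  obtain ⟨f, hf0, hf⟩ := hC
  set g := genusFF Qb ↥(modularFunctionFieldBar p)
  have hord : ∀ v : Pl p, v ≠ cInf → 0 ≤ v.ord f := fun v hv => by
    rw [← hf v, Finsupp.sub_apply, Finsupp.single_apply, Finsupp.single_apply,
      if_neg (Ne.symm hv)]
    split <;> norm_num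
  have hInf : cInf.ord f = -1 := by
    rw [← hf cInf, Finsupp.sub_apply, Finsupp.single_apply, Finsupp.single_apply, if_neg hne,
      if_pos rfl]
    norm_num
  set n := 2 * g
  set D : Divisor Qb (modularFunctionFieldBar p) := Finsupp.single cInf (n : ℤ) with hD
  have hmem : ∀ a : Fin (n + 1), f ^ (a : ℕ) ∈ riemannRochSpace D := fun a => by
    refine FF.mem_riemannRochSpace_of_ord fun v => ?_
    rw [FF.ord_pow, hD, Finsupp.single_apply]
    split
    · next h =>
      subst h
      rw [hInf]
      have := a.2
      omega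
    · next h =>
      rw [neg_zero]
      exact mul_nonneg (Int.natCast_nonneg _) (hord v (Ne.symm h))
  have hli : LinearIndependent Qb fun a : Fin (n + 1) =>
      (⟨f ^ (a : ℕ), hmem a⟩ : riemannRochSpace D) :=
    LinearIndependent.of_comp (riemannRochSpace D).subtype
      (Reduction.linearIndependent_pow_of_ord_neg (v := cInf) (by omega) (n + 1))
  haveI := FF.finiteDimensional_riemannRochSpace D
  have hcard : n + 1 ≤ FF.ell D := by
    simpa using hli.fintype_card_le_finrank
  have hdeg : Divisor.degree D = (n : ℤ) := by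
    rw [hD, Divisor.degree_single, FF.deg_eq_one, Nat.cast_one, mul_one]
  have hell := FF.ell_eq_of_large (D := D) (by rw [hdeg]; omega)
  rw [hdeg] at hell
  have hg0 := genusFF_bar_ne_zero p hp'
  omega

end FLTAgent.Mazur
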