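import Fermat.Agent.Mazur.CuspHecke
import Fermat.Agent.Mazur.CuspInjective
import Fermat.Agent.Mazur.CuspNontrivial
import Fermat.Prelude.Def_EllipticCurve_FrobeniusTrace

/-!
# The cusps of `X₀(p)` and the cuspidal class `C = (0) - (∞)`

The three facts used by `Assembly`: the cusps exist and are rational (`exists_cusps`), reduction
in residue characteristic at least `5` is injective on `ℤ C` (`zsmul_cusp_eq_zero_of_reduction`),
and for `p ∉ {2, 3, 5, 7, 13}` some prime other than `p` divides the order of `C`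
(`exists_prime_dvd_addOrderOf_cusp`, from `C ≠ 0` and `(p - 1) C = 0`).
-/

set_option autoImplicit false

noncomputable section

open ModularCurve AlgebraicCurve

namespace FLTAgent.Mazur

/-- The two cusps exist and are rational. -/
theorem exists_cusps (p : ℕ) [Fact p.Prime] :
    ∃ c0 cInf : Pl p, IsCuspZero p c0 ∧ IsCuspInf p cInf ∧
      ∀ σ : AlgebraicClosure ℚ ≃ₐ[ℚ] AlgebraicClosure ℚ,
        arithmeticGalois (modularFunctionFieldFull p) σ • c0 = c0 ∧
        arithmeticGalois (modularFunctionFieldFull p) σ • cInf = cInf := by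
  exact exists_cusps_rational p

/-- Reduction is injective on the subgroup generated by the cuspidal class, in residue
characteristic at least `5`. -/
theorem zsmul_cusp_eq_zero_of_reduction (p : ℕ) [Fact p.Prime] {ℓ : ℕ} [Fact ℓ.Prime]
    (hℓ5 : 5 ≤ ℓ) (hℓp : ℓ ≠ p) (A : ValuationSubring (AlgebraicClosure ℚ))
    (hA : A.LiesOverPrime ℓ) {c0 cInf : Pl p} (h0 : IsCuspZero p c0) (hi : IsCuspInf p cInf)
    (k : ℤ) (hk : reductionModL A p (k • placeDiff p c0 cInf) = 0) :
    k • placeDiff p c0 cInf = 0 := by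
  exact zsmul_cusp_eq_zero ⟨ℓ, Fact.out, hℓ5, hℓp, hA⟩ h0 hi k hk

/-- Some prime other than `p` divides the order of the cuspidal class. -/
theorem exists_prime_dvd_addOrderOf_cusp (p : ℕ) [Fact p.Prime]
    (hp' : p ∉ ({2, 3, 5, 7, 13} : Finset ℕ)) {c0 cInf : Pl p} (h0 : IsCuspZero p c0)
    (hi : IsCuspInf p cInf) :
    ∃ l : ℕ, l.Prime ∧ l ≠ p ∧ l ∣ addOrderOf (placeDiff p c0 cInf) := by
  have hp : p.Prime := Fact.out
  have hne := placeDiff_cusp_ne_zero hp' h0 hi
  have h1 : addOrderOf (placeDiff p c0 cInf) ∣ p - 1 := by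
    rw [addOrderOf_dvd_iff_nsmul_eq_zero, ← natCast_zsmul, Nat.cast_sub hp.one_lt.le, Nat.cast_one]
    exact sub_one_zsmul_placeDiff h0 hi
  have h2 : addOrderOf (placeDiff p c0 cInf) ≠ 1 := fun h => hne (AddMonoid.addOrderOf_eq_one_iff.mp h)
  obtain ⟨l, hl, hld⟩ := Nat.exists_prime_and_dvd h2
  refine ⟨l, hl, ?_, hld⟩
  rintro rfl
  have h3 : l ∣ l - 1 := hld.trans h1
  have := Nat.le_of_dvd (by have := hl.two_le; omega) h3
  have := hl.two_le
  omega

end FLTAgent.Mazur
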