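import Fermat.Agent.ModularPlaces.Fields
import Fermat.Prelude.Def_ModularCurve_ReductionModL
import Fermat.Prelude.Def_ModularCurve_HeckeModule

/-!
# Cusps and degree-zero classes on `X₀(p)`

`Pl p` is the type of places of the function field of `X₀(p)` over `ℚ̄`, `jpB` the function
`j(pτ)`.  `IsCuspInf` and `IsCuspZero` describe the cusps `∞` and `0` by the orders of `j` and
`j(pτ)`; `placeDiff P P'` is the class of `(P) - (P')` in `J₀(p)`, fixed by `σ` when `P` and `P'`
are, and killed by reduction when `P` and `P'` reduce to the same place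
(`smul_placeDiff`, `reductionModL_placeDiff_eq_zero`).
-/

set_option autoImplicit false

noncomputable section

open ModularCurve AlgebraicCurve

namespace FLTAgent.Mazur

local notation "Qb" => AlgebraicClosure ℚ

variable (p : ℕ) [NeZero p]

/-- Places of `X₀(p)` over `ℚ̄`. -/
abbrev Pl : Type := Place Qb (modularFunctionFieldBar p)

/-- `j(pτ)` in the function field of `X₀(p)` over `ℚ̄`. -/
def jpB : modularFunctionFieldBar p :=
  ⟨coeffEmb Qb (qExpand ℚ p jq), coeffEmb_mem_laurentBaseChange Qb (jqd_mem_full p dvd_rfl)⟩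

/-- `v` is the cusp `∞`: `j` has a simple pole, `j(pτ)` a pole of order `p`. -/
def IsCuspInf (v : Pl p) : Prop :=
  v.ord (ModularPlaces.jB p) = -1 ∧ v.ord (jpB p) = -(p : ℤ)

/-- `v` is the cusp `0`: `j` has a pole of order `p`, `j(pτ)` a simple pole. -/
def IsCuspZero (v : Pl p) : Prop :=
  v.ord (ModularPlaces.jB p) = -(p : ℤ) ∧ v.ord (jpB p) = -1

theorem single_sub_single_mem_degZero (P P' : Pl p) :
    Finsupp.single P (1 : ℤ) - Finsupp.single P' 1 ∈
      Divisor.degZero (K := Qb) (F := modularFunctionFieldBar p) := by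
  rw [Divisor.mem_degZero, map_sub, Divisor.degree_single, Divisor.degree_single,
    FF.deg_eq_one, FF.deg_eq_one, sub_self]

/-- The class of `(P) - (P')` in `J₀(p)`. -/
def placeDiff (P P' : Pl p) : JZero p :=
  Pic0.mk ⟨_, single_sub_single_mem_degZero p P P'⟩

/-- The Hecke algebra acting on `J₀(p)`. -/
abbrev heckeAdjoin : Subalgebra ℤ (Module.End ℤ (JZero p)) :=
  Algebra.adjoin ℤ (Set.range (heckeOperatorBar p))

variable {p}

theorem placeDiff_add (P P' P'' : Pl p) :
    placeDiff p P P' + placeDiff p P' P'' = placeDiff p P P'' := by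
  rw [placeDiff, placeDiff, placeDiff, ← Pic0.mk_add]
  congr 1
  ext1
  simp only [AddSubgroup.coe_add]
  abel

theorem placeDiff_self (P : Pl p) : placeDiff p P P = 0 := by
  have h := placeDiff_add P P P
  simpa using h

theorem placeDiff_swap (P P' : Pl p) : placeDiff p P' P = -placeDiff p P P' := by
  rw [eq_neg_iff_add_eq_zero, add_comm, placeDiff_add, placeDiff_self]

theorem smul_placeDiff {P P' : Pl p} (σ : Qb ≃ₐ[ℚ] Qb)
    (hP : arithmeticGalois (modularFunctionFieldFull p) σ • P = P)
    (hP' : arithmeticGalois (modularFunctionFieldFull p) σ • P' = P') :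
    σ • placeDiff p P P' = placeDiff p P P' := by
  rw [galois_smul_pic0_def, placeDiff, SemilinearAut.pic0_smul_mk]
  congr 1
  ext1
  rw [SemilinearAut.coe_degZeroSMulHom, smul_sub, SemilinearAut.smul_single,
    SemilinearAut.smul_single, hP, hP']

theorem reductionModL_placeDiff_eq_zero {A : ValuationSubring Qb}
    (h : ReductionInputsModL A p) {P P' : Pl p}
    (hr : placeReductionModL h P = placeReductionModL h P') :
    reductionModL A p (placeDiff p P P') = 0 := by
  rw [placeDiff, reductionModL_mk h, ← Pic0.mk_zero]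
  congr 1
  ext1
  rw [coe_reductionDegZeroAlong, Finsupp.mapDomain_sub, Finsupp.mapDomain_single,
    Finsupp.mapDomain_single, hr, sub_self, ZeroMemClass.coe_zero]

end FLTAgent.Mazur
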