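import Fermat.Agent.Mazur.CuspHecke
import Fermat.Agent.Mazur.Eis.Data
import Fermat.Agent.Mazur.Eis.Roots
import Fermat.Prelude.Def_EllipticCurve_FrobeniusTrace

/-!
# The Eisenstein descent on the rational classes of `J₀(p)`

`exists_eisenstein_descent`: for a prime `l ≠ p` dividing the finite order of `C = (0) - (∞)`,
some Hecke element acting on `C` by a scalar prime to `l` maps a fixed `l`-power multiple of any
rational class into `l ^ k` times the rational classes, for every `k`.  The proof feeds torsion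
coordinates (`Eis.nonempty_torsData`) and `T_q C = (1 + q) C` to `Eis.exists_descent_of_data`.
-/

set_option autoImplicit false

noncomputable section

open ModularCurve AlgebraicCurve

namespace FLTAgent.Mazur

/-- For a prime `l ≠ p` dividing the order of the cuspidal class `C` there is a constant `c` such
that for every rational class `z` and every `k` some Hecke element, acting on `C` by a scalar prime
to `l`, sends `l ^ c • z` into `l ^ k` times the rational classes. -/
theorem exists_eisenstein_descent (p : ℕ) [Fact p.Prime] {c0 cInf : Pl p}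
    (h0 : IsCuspZero p c0) (hi : IsCuspInf p cInf) {l : ℕ} (hl : l.Prime) (hlp : l ≠ p)
    (hlC : l ∣ addOrderOf (placeDiff p c0 cInf)) (hord : addOrderOf (placeDiff p c0 cInf) ≠ 0) :
    ∃ c : ℕ, ∀ z : JZero p,
      (∀ σ : AlgebraicClosure ℚ ≃ₐ[ℚ] AlgebraicClosure ℚ, σ • z = z) → ∀ k : ℕ,
      ∃ t ∈ heckeAdjoin p, ∃ v : JZero p,
        (∀ σ : AlgebraicClosure ℚ ≃ₐ[ℚ] AlgebraicClosure ℚ, σ • v = v) ∧
        ∃ a : ℤ, t (placeDiff p c0 cInf) = a • placeDiff p c0 cInf ∧ ¬ (l : ℤ) ∣ a ∧
          l ^ c • t z = l ^ k • v := by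
  have : Fact l.Prime := ⟨hl⟩
  obtain ⟨D⟩ := Eis.nonempty_torsData p l
  refine Eis.exists_descent_of_data hlp D hlC hord fun q hq => ?_
  have : Fact (q : ℕ).Prime := ⟨q.2⟩
  rw [add_comm (1 : ℤ)]
  exact heckeOperatorBar_placeDiff (Ne.symm hq) h0 hi

end FLTAgent.Mazur
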