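import Fermat.Agent.Mazur.Defs
import Fermat.Agent.Kronecker.HeckeReduction
import Fermat.Prelude.Def_EllipticCurve_FrobeniusTrace

/-!
# Hecke operators preserve the kernel of reduction modulo `ℓ`

For primes `ℓ ≠ p`, the classes of `J₀(p)` with zero reduction modulo `ℓ` are stable under each
`T_q` (`reductionModL_heckeOperatorBar_eq_zero`, quoted from the `Kronecker` library) and hence,
by induction on the algebra they generate, under every element of `heckeAdjoin p`
(`reductionModL_hecke_eq_zero`).
-/

set_option autoImplicit false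

noncomputable section

open ModularCurve AlgebraicCurve

namespace FLTAgent.Mazur

/-- Each `T_q`, including `q = ℓ`, preserves the kernel of reduction modulo `ℓ`. -/
theorem reductionModL_heckeOperatorBar_eq_zero (p : ℕ) [Fact p.Prime] {ℓ : ℕ} [Fact ℓ.Prime]
    (hℓp : ℓ ≠ p) (A : ValuationSubring (AlgebraicClosure ℚ)) (hA : A.LiesOverPrime ℓ)
    (q : Nat.Primes) (z : JZero p) (hz : reductionModL A p z = 0) :
    reductionModL A p (heckeOperatorBar p q z) = 0 := by
  have hp : p.Prime := Fact.out
  have hℓ : ℓ.Prime := Fact.out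
  exact FLTAgent.Kronecker.reductionModL_heckeOperatorBar_eq_zero p
    (fun h => hℓp ((Nat.prime_dvd_prime_iff_eq hℓ hp).mp h)) A hA q z hz

/-- Every element of the Hecke algebra preserves the kernel of reduction modulo `ℓ`. -/
theorem reductionModL_hecke_eq_zero (p : ℕ) [Fact p.Prime] {ℓ : ℕ} [Fact ℓ.Prime]
    (hℓp : ℓ ≠ p) (A : ValuationSubring (AlgebraicClosure ℚ)) (hA : A.LiesOverPrime ℓ)
    {t : Module.End ℤ (JZero p)} (ht : t ∈ heckeAdjoin p) (z : JZero p)
    (hz : reductionModL A p z = 0) : reductionModL A p (t z) = 0 := by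
  induction ht using Algebra.adjoin_induction generalizing z with
  | mem x hx =>
    obtain ⟨q, rfl⟩ := hx
    exact reductionModL_heckeOperatorBar_eq_zero p hℓp A hA q z hz
  | algebraMap r => rw [Module.algebraMap_end_apply, map_zsmul, hz, smul_zero]
  | add x y _ _ hx hy => rw [LinearMap.add_apply, map_add, hx z hz, hy z hz, add_zero]
  | mul x y _ _ hx hy => exact hx _ (hy z hz)

end FLTAgent.Mazur
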