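import Fermat.Agent.Mazur.FixedFinite
import Fermat.Agent.Mazur.CuspPlaces
import Fermat.Agent.Kronecker.Specialization
import Fermat.Agent.Reduction.InputsMain
import Fermat.Agent.GalCommon.Basic

/-!
# Rational classes have reductions of bounded order

`exists_nsmul_reductionModL_fixed_eq_zero`: for `ℓ ≠ p` one positive integer kills the reduction
modulo `ℓ` of every rational class of `J₀(p)`.  The reduction of a rational class is fixed by the
Frobenius of the coefficients; this fixes a place and has finitely many places of each period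
(`finite_periodic_places`), so it fixes finitely many classes (`finite_fixed_pic0`).
-/

set_option autoImplicit false
set_option linter.style.haveILetI false

noncomputable section

open ModularCurve AlgebraicCurve

namespace FLTAgent.Mazur

local notation "Qb" => AlgebraicClosure ℚ

set_option synthInstance.maxHeartbeats 400000

section Char

variable {k : Type*} [Field k] (p : ℕ) [NeZero p]

theorem coeffGalois_smul_jF (τ : RingAut k) :
    Kronecker.coeffGalois p τ • Reduction.jF p k = Reduction.jF p k :=
  Subtype.ext (by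
    rw [Kronecker.coe_coeffGalois_smul]
    exact coeffMap_jqModC _)

theorem order_coeffMap_equiv (τ : RingAut k) (x : LaurentSeries k) :
    (coeffMap (τ : k →+* k) x).order = x.order := by
  rcases eq_or_ne x 0 with rfl | hx
  · simp
  have hsupp : ∀ i, (coeffMap (τ : k →+* k) x).coeff i = 0 ↔ x.coeff i = 0 := fun i => by
    rw [coeffMap_coeff]
    exact map_eq_zero _
  have hne : coeffMap (τ : k →+* k) x ≠ 0 := fun h => hx (HahnSeries.ext (funext fun i =>
    (hsupp i).mp (by rw [h]; rfl)))
  refine le_antisymm (HahnSeries.order_le_of_coeff_ne_zero ?_)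
    (HahnSeries.order_le_of_coeff_ne_zero ?_)
  · exact fun h => hx (HahnSeries.coeff_order_eq_zero.mp ((hsupp _).mp h))
  · exact fun h => hne (HahnSeries.coeff_order_eq_zero.mp ((hsupp _).mpr h))

theorem finite_periodic_places [IsAlgClosed k] [FF.IsFF k (modularFunctionFieldFullC k p)]
    (ℓ : ℕ) [Fact ℓ.Prime] [CharP k ℓ] [PerfectRing k ℓ] (n : ℕ) :
    {v : Place k (modularFunctionFieldFullC k p) |
      ∃ i ∈ Finset.Icc 1 n, Kronecker.coeffGalois p (frobeniusEquiv k ℓ) ^ i • v = v}.Finite := by
  classical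
  set j := Reduction.jF p k
  set C : Finset k :=
    (Finset.Icc 1 n).biUnion fun i => (Polynomial.X ^ ℓ ^ i - Polynomial.X : Polynomial k).roots.toFinset
  refine ((FF.finite_setOf_ord_neg j).union (Set.Finite.biUnion C.finite_toSet fun c _ =>
    FF.finite_ord_ne_zero (j - algebraMap k _ c))).subset ?_
  rintro v ⟨i, hi, hv⟩
  have hj0 : j ≠ 0 := fun h => Reduction.transcendental_jF p k (show IsAlgebraic k j by rw [h]; exact isAlgebraic_zero)
  rcases lt_or_ge (v.ord j) 0 with h | h
  · exact Or.inl h
  refine Or.inr ?_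
  obtain ⟨c, hc⟩ := FF.exists_residue v ((FF.mem_iff_ord_nonneg v hj0).mpr h)
  have hc' : 0 < v.ord (j - algebraMap k _ c) := by
    rcases hc with hc | hc
    · exact absurd (show IsAlgebraic k j by rw [hc]; exact isAlgebraic_algebraMap c) (Reduction.transcendental_jF p k)
    · exact hc
  rw [← map_pow] at hv
  set g := Kronecker.coeffGalois p (frobeniusEquiv k ℓ ^ i)
  have hg : g • (j - algebraMap k _ c) = j - algebraMap k _ ((frobeniusEquiv k ℓ ^ i) c) := by
    rw [smul_sub, coeffGalois_smul_jF p, SemilinearAut.smul_algebraMap]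
    rfl
  have hpow : ∀ i : ℕ, (frobeniusEquiv k ℓ ^ i) c = c ^ ℓ ^ i := by
    intro i
    induction i with
    | zero => simp
    | succ i ih => rw [pow_succ', RingAut.mul_apply, ih, frobeniusEquiv_apply, frobenius_def,
        ← pow_mul, ← pow_succ]
  have hord : v.ord (j - algebraMap k _ (c ^ ℓ ^ i)) = v.ord (j - algebraMap k _ c) := by
    rw [← hpow, ← hg]
    conv_lhs => rw [← hv]
    exact SemilinearAut.ord_smul g v _
  have hceq : c ^ ℓ ^ i = c := by
    by_contra hne
    have hd : algebraMap k (modularFunctionFieldFullC k p) (c ^ ℓ ^ i - c) ≠ 0 :=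
      (map_ne_zero _).mpr (sub_ne_zero.mpr hne)
    have hsub : (j - algebraMap k _ c) + -(j - algebraMap k _ (c ^ ℓ ^ i))
        = algebraMap k (modularFunctionFieldFullC k p) (c ^ ℓ ^ i - c) := by
      rw [map_sub]; ring
    have h2 := FF.ord_add_ge v (f := j - algebraMap k _ c)
      (g := -(j - algebraMap k _ (c ^ ℓ ^ i)))
      (fun h' => by simp [h'] at hc') (neg_ne_zero.mpr fun h' => by rw [h'] at hord; simp at hord; omega)
      (hsub ▸ hd)
    rw [hsub, FF.ord_neg, FF.ord_algebraMap, hord, min_self] at h2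
    omega
  refine Set.mem_iUnion₂.mpr ⟨c, ?_, hc'.ne'⟩
  rw [Finset.mem_coe, Finset.mem_biUnion]
  refine ⟨i, hi, ?_⟩
  rw [Multiset.mem_toFinset, Polynomial.mem_roots (FiniteField.X_pow_card_sub_X_ne_zero k
    (Nat.one_lt_pow (by have := (Finset.mem_Icc.mp hi).1; omega) (Fact.out : ℓ.Prime).one_lt))]
  simp [hceq]

end Char

/-- One positive integer kills the reduction of every rational class. -/
theorem exists_nsmul_reductionModL_fixed_eq_zero (p : ℕ) [Fact p.Prime] {ℓ : ℕ} [Fact ℓ.Prime]
    (hℓp : ℓ ≠ p) (A : ValuationSubring Qb) (hA : A.LiesOverPrime ℓ) :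
    ∃ B : ℕ, 0 < B ∧ ∀ z : JZero p, (∀ σ : Qb ≃ₐ[ℚ] Qb, σ • z = z) →
      B • reductionModL A p z = 0 := by
  classical
  have hℓ : ℓ.Prime := Fact.out
  have hp : p.Prime := Fact.out
  have hdvd : ¬ ℓ ∣ p := fun h => hℓp ((Nat.prime_dvd_prime_iff_eq hℓ hp).mp h)
  haveI := GalCommon.charP_residueField hℓ hA
  haveI := GalCommon.isAlgClosed_residueField A hℓ hA
  haveI : PerfectRing (IsLocalRing.ResidueField A) ℓ := inferInstance
  haveI := Reduction.isFF_fullC_residue p A hA hdvd
  set k := IsLocalRing.ResidueField A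
  set g := Kronecker.coeffGalois p (frobeniusEquiv k ℓ)
  obtain ⟨O, hO⟩ := exists_seriesPlace (modularFunctionFieldFullC k p).val (Reduction.jF p k)
    (order_jqModC' k)
  have hfO : g • O = O := by
    refine Place.ext (SetLike.ext fun f => ?_)
    rw [SemilinearAut.smul_toValuationSubring, ValuationSubring.mem_pointwise_smul_iff_inv_smul_mem,
      FF.mem_iff, FF.mem_iff, hO, hO, smul_eq_zero_iff_eq]
    have h : ((g⁻¹ • f : modularFunctionFieldFullC k p) : LaurentSeries k).order
        = (f : LaurentSeries k).order := by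
      rw [← map_inv, Kronecker.coe_coeffGalois_smul, order_coeffMap_equiv]
    show f = 0 ∨ 0 ≤ ((g⁻¹ • f : modularFunctionFieldFullC k p) : LaurentSeries k).order ↔ f = 0 ∨ 0 ≤ (f : LaurentSeries k).order
    rw [h]
  have hfin := finite_fixed_pic0 g hfO fun n => finite_periodic_places p ℓ n
  let P : AddSubgroup (JZeroC k p) :=
    { carrier := {x | g • x = x}
      zero_mem' := smul_zero g
      add_mem' := fun {a b} ha hb => by
        show g • (a + b) = a + b
        rw [smul_add, ha, hb]
      neg_mem' := fun {a} ha => by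
        show g • (-a) = -a
        rw [smul_neg, ha] }
  haveI : Finite P := hfin.to_subtype
  refine ⟨Nat.card P, Nat.card_pos, fun z hz => ?_⟩
  obtain ⟨σ, hσ⟩ := GalCommon.exists_isFrobeniusAt hℓ hA
  have hmem : reductionModL A p z ∈ P := by
    show g • _ = _
    have h := Kronecker.reductionModL_smul (Reduction.reductionInputsModL p hdvd A hA)
      ⟨σ, hσ.mem_decompositionSubgroup⟩ z
    rw [hz σ, Kronecker.resAut_eq_frobenius hσ] at h
    exact h.symm
  exact congrArg Subtype.val (card_nsmul_eq_zero' (x := (⟨_, hmem⟩ : P)))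

end FLTAgent.Mazur
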