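import Fermat.Agent.Mazur.ModuliMain
import Fermat.Agent.Mazur.Cusps
import Fermat.Agent.Mazur.HeckeRed
import Fermat.Agent.Mazur.ReducedFixed
import Fermat.Agent.Mazur.Descent
import Fermat.Agent.Reduction.InputsMain
import Fermat.Agent.GalCommon.Basic

/-!
# Mazur's key step

`not_inZeroComponentAt_of_two_three`: for `p ∉ {2, 3, 5, 7, 13}`, if a rational point `Q` of
order `p` avoids the identity components at the multiplicative primes `2` and `3`, it avoids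
them at every multiplicative prime `ℓ ≠ p` (the type of S15).

Let `x` be the point of `X₀(p)`, `l` a prime dividing the order of `C = (0) - (∞)`. For `k` large
the descent gives `t` with `l ^ c t((x) - (∞)) = l ^ k v`; as rational classes have reductions of
bounded order, comparison at `2` or `3` gives `t((x) - (∞)) = l ^ (k - c) v`. If `x` reduced to `0`
at `ℓ ≥ 5`, a prime-to-`l` multiple of `t C` would reduce to `0`, hence vanish.
-/

set_option autoImplicit false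

noncomputable section

open ModularCurve AlgebraicCurve WeierstrassCurve WeierstrassCurve.Affine

namespace FLTAgent.Mazur

/-- If `l ^ b B'` kills `x` and `b ≤ e`, so does `B' l ^ e` (used for bounds on the order of
reductions of rational classes). -/
theorem nsmul_pow_eq_zero {M : Type*} [AddCommMonoid M] {l b B' e : ℕ} (he : b ≤ e) {x : M}
    (h : (l ^ b * B') • x = 0) : (B' * l ^ e) • x = 0 := by
  rw [← Nat.sub_add_cancel he, pow_add, show B' * (l ^ (e - b) * l ^ b) =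
    l ^ (e - b) * (l ^ b * B') by ring, mul_nsmul', h, smul_zero]

/-- **Mazur's key step.** -/
theorem not_inZeroComponentAt_of_two_three
    {p : ℕ} (hp : p.Prime) (hp' : p ∉ ({2, 3, 5, 7, 13} : Finset ℕ))
    (W : WeierstrassCurve ℤ) (hΔ : W.Δ ≠ 0)
    (Q : ((W.map (Int.castRingHom ℚ))⁄(AlgebraicClosure ℚ)).Point)
    (hQfix : ∀ σ : AlgebraicClosure ℚ ≃ₐ[ℚ] AlgebraicClosure ℚ, σ • Q = Q)
    (hQord : addOrderOf Q = p)
    (h2Δ : (2 : ℤ) ∣ W.Δ) (h2c₄ : ¬ (2 : ℤ) ∣ W.c₄)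
    (h2 : ∀ A : ValuationSubring (AlgebraicClosure ℚ), A.LiesOverPrime 2 →
      ¬ W.InZeroComponentAt A Q)
    (h3Δ : (3 : ℤ) ∣ W.Δ) (h3c₄ : ¬ (3 : ℤ) ∣ W.c₄)
    (h3 : ∀ A : ValuationSubring (AlgebraicClosure ℚ), A.LiesOverPrime 3 →
      ¬ W.InZeroComponentAt A Q)
    {ℓ : ℕ} (hℓ : ℓ.Prime) (hℓp : ℓ ≠ p) (hℓΔ : (ℓ : ℤ) ∣ W.Δ) (hℓc₄ : ¬ (ℓ : ℤ) ∣ W.c₄)
    (A : ValuationSubring (AlgebraicClosure ℚ)) (hA : A.LiesOverPrime ℓ) :
    ¬ W.InZeroComponentAt A Q := by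
  rcases eq_or_ne ℓ 2 with rfl | hℓ2
  · exact h2 A hA
  rcases eq_or_ne ℓ 3 with rfl | hℓ3
  · exact h3 A hA
  have hℓ5 : 5 ≤ ℓ := by
    by_contra hlt
    have h4 : ℓ = 4 := by have := hℓ.two_le; omega
    subst h4
    norm_num at hℓ
  simp only [Finset.mem_insert, Finset.mem_singleton, not_or] at hp'
  have hp5 : 5 ≤ p := by
    by_contra hlt
    have h4 : p = 4 := by have := hp.two_le; omega
    subst h4
    norm_num at hp
  have : Fact p.Prime := ⟨hp⟩
  have : Fact (Nat.Prime 2) := ⟨Nat.prime_two⟩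
  have : Fact (Nat.Prime 3) := ⟨Nat.prime_three⟩
  have : Fact ℓ.Prime := ⟨hℓ⟩
  obtain ⟨A2, hA2⟩ := GalCommon.exists_liesOverPrime Nat.prime_two
  obtain ⟨A3, hA3⟩ := GalCommon.exists_liesOverPrime Nat.prime_three
  have hne : ∀ {q : ℕ}, q.Prime → q ≠ p → ¬ q ∣ p := fun hq hqp h =>
    hqp ((Nat.prime_dvd_prime_iff_eq hq hp).mp h)
  have h2p : 2 ≠ p := Ne.symm hp'.1
  have h3p : 3 ≠ p := Ne.symm hp'.2.1
  have i2 := Reduction.reductionInputsModL p (hne Nat.prime_two h2p) A2 hA2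
  have i3 := Reduction.reductionInputsModL p (hne Nat.prime_three h3p) A3 hA3
  have iℓ := Reduction.reductionInputsModL p (hne hℓ hℓp) A hA
  obtain ⟨c0, cInf, h0, hi, hfix⟩ := exists_cusps p
  obtain ⟨x, hxfix, hx⟩ := exists_point_reduction hp5 W hΔ Q hQfix hQord h2Δ h2c₄ h2
  set C := placeDiff p c0 cInf with hC
  obtain ⟨l, hl, hlp, hlC⟩ := exists_prime_dvd_addOrderOf_cusp p (by simp [hp']) h0 hi
  have : Fact l.Prime := ⟨hl⟩
  have hord : addOrderOf C ≠ 0 := by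
    intro h
    have h1 : (p - 1) • C = 0 := by
      rw [← natCast_zsmul, Nat.cast_sub hp.one_lt.le, Nat.cast_one]
      exact sub_one_zsmul_placeDiff h0 hi
    have h2 := addOrderOf_dvd_iff_nsmul_eq_zero.2 h1
    rw [h, zero_dvd_iff] at h2
    omega
  obtain ⟨c, hc⟩ := exists_eisenstein_descent p h0 hi hl hlp hlC hord
  -- the auxiliary prime `q ∈ {2, 3}`, different from `l`
  obtain ⟨q, hq, hql, hqp, hqΔ, hqc₄, hqQ⟩ : ∃ q : ℕ, q.Prime ∧ q ≠ l ∧ q ≠ p ∧ (q : ℤ) ∣ W.Δ ∧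
      ¬ (q : ℤ) ∣ W.c₄ ∧ ∀ A' : ValuationSubring (AlgebraicClosure ℚ), A'.LiesOverPrime q →
        ¬ W.InZeroComponentAt A' Q := by
    by_cases hl2 : l = 2
    · exact ⟨3, Nat.prime_three, by omega, h3p, h3Δ, h3c₄, h3⟩
    · exact ⟨2, Nat.prime_two, Ne.symm hl2, h2p, h2Δ, h2c₄, h2⟩
  have : Fact q.Prime := ⟨hq⟩
  obtain ⟨Aq, hAq⟩ := GalCommon.exists_liesOverPrime hq
  have iq := Reduction.reductionInputsModL p (hne hq hqp) Aq hAq
  obtain ⟨Bq, hBq0, hBq⟩ := exists_nsmul_reductionModL_fixed_eq_zero p hqp Aq hAq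
  obtain ⟨Bl, hBl0, hBl⟩ := exists_nsmul_reductionModL_fixed_eq_zero p hℓp A hA
  obtain ⟨bq, Bq', hBq', rfl⟩ := Nat.exists_eq_pow_mul_and_not_dvd hBq0.ne' l hl.ne_one
  obtain ⟨bl, Bl', hBl', rfl⟩ := Nat.exists_eq_pow_mul_and_not_dvd hBl0.ne' l hl.ne_one
  set z := placeDiff p x cInf with hz
  obtain ⟨t, ht, v, hv, a, htC, hla, htz⟩ :=
    hc z (fun σ => smul_placeDiff σ (hxfix σ) (hfix σ).2) (c + (bq + bl))
  -- comparison at `q`
  set τ := t z - l ^ (bq + bl) • v with hτ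
  have hτc : l ^ c • τ = 0 := by
    rw [hτ, nsmul_sub, htz, ← mul_nsmul', ← pow_add, sub_self]
  have hredz : reductionModL Aq p (t z) = 0 :=
    reductionModL_hecke_eq_zero p hqp Aq hAq ht _ (reductionModL_placeDiff_eq_zero iq
      ((hx q hq hqp hqΔ hqc₄ Aq hAq iq c0 cInf h0 hi).1 (hqQ Aq hAq)))
  have hτred : reductionModL Aq p τ = 0 := by
    have h1 : Bq' • reductionModL Aq p τ = 0 := by
      have h0 := nsmul_pow_eq_zero (Nat.le_add_right bq bl) (hBq v hv)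
      rw [mul_nsmul'] at h0
      rw [hτ, map_sub, map_nsmul, hredz, zero_sub]
      exact (neg_nsmul _ _).trans (by rw [h0, neg_zero])
    have h2 : l ^ c • reductionModL Aq p τ = 0 := by rw [← map_nsmul, hτc, map_zero]
    exact AddMonoid.addOrderOf_eq_one_iff.1 (Nat.dvd_one.1
      (((hl.coprime_iff_not_dvd.2 hBq').pow_left c) ▸
        Nat.dvd_gcd (addOrderOf_dvd_iff_nsmul_eq_zero.2 h2) (addOrderOf_dvd_iff_nsmul_eq_zero.2 h1)))
  have htz' : t z = l ^ (bq + bl) • v := sub_eq_zero.1 (Reduction.eq_zero_of_reductionModL_eq_zero p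
    (hne hq hqp) Aq hAq iq (l ^ c) (fun h => hql ((Nat.prime_dvd_prime_iff_eq hq hl).1
      (hq.dvd_of_dvd_pow h))) τ hτc hτred)
  -- the contradiction at `ℓ`
  intro hQ
  have hred : reductionModL A p (t (placeDiff p x c0)) = 0 :=
    reductionModL_hecke_eq_zero p hℓp A hA ht _ (reductionModL_placeDiff_eq_zero iℓ
      ((hx ℓ hℓ hℓp hℓΔ hℓc₄ A hA iℓ c0 cInf h0 hi).2 hQ))
  have hredC : reductionModL A p (((Bl' : ℤ) * a) • C) = 0 := by
    rw [mul_zsmul, ← htC, natCast_zsmul, map_nsmul]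
    have hsplit : t C = t z - t (placeDiff p x c0) := by
      rw [hz, hC, ← placeDiff_add x c0 cInf, map_add, add_sub_cancel_left]
    rw [hsplit, map_sub, hred, sub_zero, htz', map_nsmul, ← mul_nsmul']
    exact nsmul_pow_eq_zero (Nat.le_add_left bl bq) (hBl v hv)
  have hzero := zsmul_cusp_eq_zero_of_reduction p hℓ5 hℓp A hA h0 hi _ hredC
  have hdvd : (l : ℤ) ∣ (Bl' : ℤ) * a :=
    (Int.natCast_dvd_natCast.2 hlC).trans (addOrderOf_dvd_iff_zsmul_eq_zero.2 hzero)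
  rcases (Nat.prime_iff_prime_int.1 hl).dvd_or_dvd hdvd with h | h
  · exact hBl' (Int.natCast_dvd_natCast.1 h)
  · exact hla h

end FLTAgent.Mazur
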