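import Fermat.Agent.Mazur.CuspPlaces
import Fermat.Agent.Kronecker.Inputs

/-!
# `T_q` on the cuspidal class of `X₀(p)`

`heckeOperatorBar_placeDiff`: `T_q C = (1 + q) C` for a prime `q ≠ p`.  The orders of
`j, j(pτ), j(qτ), j(pqτ)` at the poles of `j` at level `p q` are computed with the two
Atkin–Lehner involutions (`ords_of_pole`); they show that both degeneracy maps send a place over
a cusp of level `p` to the same cusp, whence the correspondence multiplies each cusp by `1 + q`.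
-/

set_option autoImplicit false
set_option linter.style.haveILetI false

noncomputable section

open ModularCurve AlgebraicCurve IntermediateField

namespace FLTAgent.Mazur

local notation "Qb" => AlgebraicClosure ℚ

/-- The Atkin–Lehner involution exchanging `j(dτ)` and `j(ℓdτ)` at level `N ℓ`. -/
theorem exists_swap {N ℓ M : ℕ} [NeZero N] [NeZero ℓ] [NeZero M] (hM : M = N * ℓ) (hℓ : ℓ.Prime)
    (hℓN : ¬ ℓ ∣ N) :
    ∃ w : modularFunctionFieldBar M ≃ₐ[Qb] modularFunctionFieldBar M,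
      ∀ (z : modularFunctionFieldBar M) (d : ℕ), d ∣ M →
        (z : LaurentSeries Qb) = Kronecker.jSeries Qb d →
          ((w z : modularFunctionFieldBar M) : LaurentSeries Qb)
            = Kronecker.jSeries Qb (Kronecker.swapIdx ℓ d) := by
  subst hM
  obtain ⟨e, he⟩ := Kronecker.exists_ringHom_of_relations (K := Qb)
    (fun d : ModularCosets.DivIdx (N * ℓ) => Kronecker.jSeries Qb (d : ℕ))
    (fun d : ModularCosets.DivIdx (N * ℓ) => Kronecker.jSeries Qb (Kronecker.swapIdx ℓ d))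
    (Kronecker.aeval_swap_eq_zero_iff Qb hℓ hℓN Kronecker.embComplex)
  have hF : modularFunctionFieldBar (N * ℓ) = adjoin Qb
      (Set.range fun d : ModularCosets.DivIdx (N * ℓ) => Kronecker.jSeries Qb (d : ℕ)) :=
    Kronecker.laurentBaseChange_full_eq_adjoin Qb (N * ℓ)
  have hswap : ∀ d : ModularCosets.DivIdx (N * ℓ),
      Kronecker.swapIdx ℓ d ∈ (N * ℓ).divisors := by
    rintro ⟨d, hd⟩
    refine Nat.mem_divisors.mpr ⟨?_, NeZero.ne _⟩
    have hd' := Nat.dvd_of_mem_divisors hd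
    rw [Kronecker.swapIdx]
    split
    · next h => exact (Nat.div_dvd_of_dvd h).trans hd'
    · next h =>
      exact mul_dvd_mul_right
        ((Nat.Coprime.symm (hℓ.coprime_iff_not_dvd.mpr h)).dvd_of_dvd_mul_right hd') ℓ
  have hinv : ∀ d : ModularCosets.DivIdx (N * ℓ),
      Kronecker.swapIdx ℓ (Kronecker.swapIdx ℓ d) = d := by
    rintro ⟨d, hd⟩
    have hd' := Nat.dvd_of_mem_divisors hd
    simp only [Kronecker.swapIdx]
    by_cases h : ℓ ∣ d
    · rw [if_pos h]
      have hn : ¬ ℓ ∣ d / ℓ := fun h' => hℓN (h'.trans (by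
        obtain ⟨c, rfl⟩ := h
        rw [Nat.mul_div_cancel_left c hℓ.pos]
        exact Nat.dvd_of_mul_dvd_mul_left hℓ.pos (by rw [mul_comm ℓ N]; exact hd')))
      rw [if_neg hn, Nat.div_mul_cancel h]
    · rw [if_neg h, if_pos (dvd_mul_left ℓ d), Nat.mul_div_cancel _ hℓ.pos]
  have hrange : ∀ x : adjoin Qb
      (Set.range fun d : ModularCosets.DivIdx (N * ℓ) => Kronecker.jSeries Qb (d : ℕ)),
      e x ∈ adjoin Qb
        (Set.range fun d : ModularCosets.DivIdx (N * ℓ) => Kronecker.jSeries Qb (d : ℕ)) := by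
    rintro ⟨x, hx⟩
    induction hx using IntermediateField.adjoin_induction with
    | mem y hy =>
      obtain ⟨d, rfl⟩ := hy
      show e _ ∈ _
      erw [he d]
      exact subset_adjoin Qb _ ⟨⟨_, hswap d⟩, rfl⟩
    | algebraMap c =>
      rw [show (⟨algebraMap Qb _ c, _⟩ : adjoin Qb (Set.range fun d : ModularCosets.DivIdx (N * ℓ) =>
        Kronecker.jSeries Qb (d : ℕ))) = algebraMap Qb _ c from Subtype.ext rfl, AlgHom.commutes]
      exact IntermediateField.algebraMap_mem _ c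
    | add x y hx hy ihx ihy =>
      rw [show (⟨x + y, _⟩ : adjoin Qb (Set.range fun d : ModularCosets.DivIdx (N * ℓ) =>
        Kronecker.jSeries Qb (d : ℕ))) = ⟨x, hx⟩ + ⟨y, hy⟩ from Subtype.ext rfl, map_add]
      exact add_mem ihx ihy
    | inv x hx ihx =>
      rw [show (⟨x⁻¹, _⟩ : adjoin Qb (Set.range fun d : ModularCosets.DivIdx (N * ℓ) =>
        Kronecker.jSeries Qb (d : ℕ))) = (⟨x, hx⟩ : adjoin Qb (Set.range fun d :
        ModularCosets.DivIdx (N * ℓ) => Kronecker.jSeries Qb (d : ℕ)))⁻¹ from Subtype.ext rfl,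
        map_inv₀]
      exact inv_mem ihx
    | mul x y hx hy ihx ihy =>
      rw [show (⟨x * y, _⟩ : adjoin Qb (Set.range fun d : ModularCosets.DivIdx (N * ℓ) =>
        Kronecker.jSeries Qb (d : ℕ))) = ⟨x, hx⟩ * ⟨y, hy⟩ from Subtype.ext rfl, map_mul]
      exact mul_mem ihx ihy
  let e' := e.codRestrict (adjoin Qb (Set.range fun d : ModularCosets.DivIdx (N * ℓ) =>
    Kronecker.jSeries Qb (d : ℕ))).toSubalgebra hrange
  let e'' : adjoin Qb (Set.range fun d : ModularCosets.DivIdx (N * ℓ) =>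
      Kronecker.jSeries Qb (d : ℕ)) →ₐ[Qb] adjoin Qb (Set.range fun d :
      ModularCosets.DivIdx (N * ℓ) => Kronecker.jSeries Qb (d : ℕ)) := e'
  have he' : ∀ d : ModularCosets.DivIdx (N * ℓ),
      e'' ⟨_, subset_adjoin Qb _ ⟨d, rfl⟩⟩ = ⟨_, subset_adjoin Qb _ ⟨⟨_, hswap d⟩, rfl⟩⟩ :=
    fun d => Subtype.ext (by exact he d)
  have hcomp : e''.comp e'' = AlgHom.id Qb _ := by
    refine IntermediateField.algHom_ext_of_eq_adjoin Qb rfl fun z hz => ?_
    obtain ⟨d, rfl⟩ := hz
    show e'' (e'' _) = _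
    rw [he' d, he' ⟨_, hswap d⟩]
    exact Subtype.ext (congrArg (Kronecker.jSeries Qb) (hinv d))
  let c := IntermediateField.equivOfEq hF
  refine ⟨c.trans ((AlgEquiv.ofAlgHom e'' e'' hcomp hcomp).trans c.symm), fun z d hd hz => ?_⟩
  have hdm : d ∈ (N * ℓ).divisors := Nat.mem_divisors.mpr ⟨hd, NeZero.ne _⟩
  show ((e'' (c z)) : LaurentSeries Qb) = _
  rw [show c z = ⟨_, subset_adjoin Qb _ ⟨⟨d, hdm⟩, rfl⟩⟩ from Subtype.ext hz, he' ⟨d, hdm⟩]

/-- `j(dτ)` at level `M`. -/
def jdB (M d : ℕ) [NeZero d] (hd : d ∣ M) : modularFunctionFieldBar M :=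
  ⟨coeffEmb Qb (qExpand ℚ d jq), coeffEmb_mem_laurentBaseChange Qb (jqd_mem_full M hd)⟩

theorem coe_jdB (M d : ℕ) [NeZero d] (hd : d ∣ M) :
    (jdB M d hd : LaurentSeries Qb) = Kronecker.jSeries Qb d := by
  show coeffEmb Qb (qExpand ℚ d jq) = _
  rw [jSeries_eq, coeffEmb, coeffMap_qExpand, ← coeffEmb, ModularCosets.coeffEmb_jq_eq]

theorem jdB_one_eq (M : ℕ) [NeZero M] : jdB M 1 (one_dvd M) = ModularPlaces.jB M :=
  Subtype.ext (by
    rw [coe_jdB, jSeries_eq, qExpand_one_apply]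
    exact (ModularCosets.coeffEmb_jq_eq Qb).symm)

section LevelPQ

variable {p q : ℕ} [hp : Fact p.Prime] [hq : Fact q.Prime]

instance neZero_pq : NeZero (p * q) :=
  ⟨Nat.mul_ne_zero hp.out.ne_zero hq.out.ne_zero⟩

/-- The functions `j, j(pτ), j(qτ), j(pqτ)` at level `p q`. -/
abbrev g1 : modularFunctionFieldBar (p * q) := jdB (p * q) 1 (one_dvd _)
@[inherit_doc g1]
abbrev gp : modularFunctionFieldBar (p * q) := jdB (p * q) p (dvd_mul_right p q)
@[inherit_doc g1]
abbrev gq : modularFunctionFieldBar (p * q) := jdB (p * q) q (dvd_mul_left q p)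
@[inherit_doc g1]
abbrev gpq : modularFunctionFieldBar (p * q) := jdB (p * q) (p * q) dvd_rfl

/-- The four values `(ord j, ord j(pτ), ord j(qτ), ord j(pqτ))` at a place. -/
abbrev ords (v : Pl (p * q)) : ℤ × ℤ × ℤ × ℤ :=
  (v.ord (g1 (p := p) (q := q)), v.ord (gp (p := p) (q := q)), v.ord (gq (p := p) (q := q)),
    v.ord (gpq (p := p) (q := q)))

theorem swap_exists (hpq : p ≠ q) :
    (∃ w : modularFunctionFieldBar (p * q) ≃ₐ[Qb] modularFunctionFieldBar (p * q),
      w g1 = gq ∧ w gq = g1 ∧ w gp = gpq ∧ w gpq = gp) ∧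
    (∃ w : modularFunctionFieldBar (p * q) ≃ₐ[Qb] modularFunctionFieldBar (p * q),
      w g1 = gp ∧ w gp = g1 ∧ w gq = gpq ∧ w gpq = gq) := by
  have hqp : ¬ q ∣ p := fun h => hpq ((Nat.prime_dvd_prime_iff_eq hq.out hp.out).mp h).symm
  have hpq' : ¬ p ∣ q := fun h => hpq ((Nat.prime_dvd_prime_iff_eq hp.out hq.out).mp h)
  have hq1 : ¬ q ∣ 1 := fun h => hq.out.one_lt.ne' (Nat.dvd_one.mp h)
  have hp1 : ¬ p ∣ 1 := fun h => hp.out.one_lt.ne' (Nat.dvd_one.mp h)
  constructor
  · obtain ⟨w, hw⟩ := exists_swap (M := p * q) rfl hq.out hqp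
    refine ⟨w, ?_, ?_, ?_, ?_⟩ <;> refine Subtype.ext ((hw _ _ ?_ (coe_jdB _ _ _)).trans ?_)
    · exact one_dvd _
    · rw [coe_jdB, Kronecker.swapIdx, if_neg hq1, one_mul]
    · exact dvd_mul_left q p
    · rw [coe_jdB, Kronecker.swapIdx, if_pos dvd_rfl, Nat.div_self hq.out.pos]
    · exact dvd_mul_right p q
    · rw [coe_jdB, Kronecker.swapIdx, if_neg hqp]
    · exact dvd_rfl
    · rw [coe_jdB, Kronecker.swapIdx, if_pos (dvd_mul_left q p),
        Nat.mul_div_cancel _ hq.out.pos]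
  · obtain ⟨w, hw⟩ := exists_swap (N := q) (ℓ := p) (M := p * q) (mul_comm p q) hp.out hpq'
    refine ⟨w, ?_, ?_, ?_, ?_⟩ <;> refine Subtype.ext ((hw _ _ ?_ (coe_jdB _ _ _)).trans ?_)
    · exact one_dvd _
    · rw [coe_jdB, Kronecker.swapIdx, if_neg hp1, one_mul]
    · exact dvd_mul_right p q
    · rw [coe_jdB, Kronecker.swapIdx, if_pos dvd_rfl, Nat.div_self hp.out.pos]
    · exact dvd_mul_left q p
    · rw [coe_jdB, Kronecker.swapIdx, if_neg hpq', mul_comm q p]
    · exact dvd_rfl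
    · rw [coe_jdB, Kronecker.swapIdx, if_pos (dvd_mul_right p q),
        Nat.mul_div_cancel_left _ hp.out.pos]

theorem dedekindPsi_pq (hpq : p ≠ q) : dedekindPsi (p * q) = (p + 1) * (q + 1) := by
  have hcop : Nat.Coprime p q := (Nat.coprime_primes hp.out hq.out).mpr hpq
  have hsq : Squarefree (p * q) :=
    (Nat.squarefree_mul_iff).mpr ⟨hcop, hp.out.squarefree, hq.out.squarefree⟩
  rw [dedekindPsi, Finset.filter_true_of_mem fun d hd =>
    hsq.squarefree_of_dvd (Nat.dvd_of_mem_divisors hd)]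
  rw [Nat.sum_div_divisors (p * q) fun d => d, hcop.sum_divisors_mul,
    hp.out.divisors, hq.out.divisors, Finset.sum_pair hp.out.one_lt.ne,
    Finset.sum_pair hq.out.one_lt.ne]
  ring

/-- The four values at the poles of `j`. -/
theorem ords_of_pole (hpq : p ≠ q) {v : Pl (p * q)} (hv : v.ord (g1 (p := p) (q := q)) < 0) :
    ords v = (-1, -(p : ℤ), -(q : ℤ), -((p : ℤ) * q)) ∨
    ords v = (-(q : ℤ), -((p : ℤ) * q), -1, -(p : ℤ)) ∨
    ords v = (-(p : ℤ), -1, -((p : ℤ) * q), -(q : ℤ)) ∨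
    ords v = (-((p : ℤ) * q), -(q : ℤ), -(p : ℤ), -1) := by
  classical
  obtain ⟨⟨wq, hq1, hq2, hq3, hq4⟩, ⟨wp, hp1, hp2, hp3, hp4⟩⟩ := swap_exists (p := p) (q := q) hpq
  have horder : ∀ (d : ℕ) [NeZero d] (hd : d ∣ p * q),
      ((jdB (p * q) d hd : modularFunctionFieldBar (p * q)) : LaurentSeries Qb).order
        = -(d : ℤ) := by
    intro d _ hd
    rw [coe_jdB, jSeries_eq, order_qExpand, order_jqModC']
    ring
  obtain ⟨vi, hvi⟩ := exists_seriesPlace (modularFunctionFieldBar (p * q)).val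
    (g1 (p := p) (q := q)) (by
      show ((g1 (p := p) (q := q) : modularFunctionFieldBar (p * q)) : LaurentSeries Qb).order = -1
      rw [horder]
      simp)
  have hvi' : ords vi = (-1, -(p : ℤ), -(q : ℤ), -((p : ℤ) * q)) := by
    simp [ords, hvi, IntermediateField.coe_val, horder]
  have hswq : ∀ u : Pl (p * q), ords (wq • u) =
      ((ords u).2.2.1, (ords u).2.2.2, (ords u).1, (ords u).2.1) := fun u => by
    simp only [ords, Prod.mk.injEq]
    refine ⟨?_, ?_, ?_, ?_⟩
    · conv_lhs => rw [← hq2]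
      exact Place.ord_smul wq u _
    · conv_lhs => rw [← hq4]
      exact Place.ord_smul wq u _
    · conv_lhs => rw [← hq1]
      exact Place.ord_smul wq u _
    · conv_lhs => rw [← hq3]
      exact Place.ord_smul wq u _
  have hswp : ∀ u : Pl (p * q), ords (wp • u) =
      ((ords u).2.1, (ords u).1, (ords u).2.2.2, (ords u).2.2.1) := fun u => by
    simp only [ords, Prod.mk.injEq]
    refine ⟨?_, ?_, ?_, ?_⟩
    · conv_lhs => rw [← hp2]
      exact Place.ord_smul wp u _
    · conv_lhs => rw [← hp1]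
      exact Place.ord_smul wp u _
    · conv_lhs => rw [← hp4]
      exact Place.ord_smul wp u _
    · conv_lhs => rw [← hp3]
      exact Place.ord_smul wp u _
  set a := wq • vi with ha
  set b := wp • vi with hb
  set c := wp • a with hc
  have hva : ords a = (-(q : ℤ), -((p : ℤ) * q), -1, -(p : ℤ)) := by
    rw [ha, hswq, hvi']
  have hvb : ords b = (-(p : ℤ), -1, -((p : ℤ) * q), -(q : ℤ)) := by
    rw [hb, hswp, hvi']
  have hvc : ords c = (-((p : ℤ) * q), -(q : ℤ), -(p : ℤ), -1) := by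
    rw [hc, hswp, hva]
  by_contra hcon
  rw [not_or, not_or, not_or] at hcon
  have h1 : ∀ u w : Pl (p * q), u.ord (g1 (p := p) (q := q)) ≠ w.ord (g1 (p := p) (q := q)) →
      u ≠ w := fun u w h h' => h (by rw [h'])
  have o0 := congrArg Prod.fst hvi'
  have oa := congrArg Prod.fst hva
  have ob := congrArg Prod.fst hvb
  have oc := congrArg Prod.fst hvc
  simp only at o0 oa ob oc
  have hp2 : (2 : ℤ) ≤ p := by exact_mod_cast hp.out.two_le
  have hq2 : (2 : ℤ) ≤ q := by exact_mod_cast hq.out.two_le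
  have hne : (p : ℤ) ≠ q := by exact_mod_cast hpq
  have hpq1 : (p : ℤ) < (p : ℤ) * q := by nlinarith
  have hpq2 : (q : ℤ) < (p : ℤ) * q := by nlinarith
  set S : Finset (Pl (p * q)) := {vi, a, b, c} with hS
  have hvS : v ∉ S := by
    simp only [hS, Finset.mem_insert, Finset.mem_singleton, not_or]
    exact ⟨fun h => hcon.1 (h ▸ hvi'), fun h => hcon.2.1 (h ▸ hva),
      fun h => hcon.2.2.1 (h ▸ hvb), fun h => hcon.2.2.2 (h ▸ hvc)⟩
  haveI := FF.isSeparable_adjoin_of_charZero (K := Qb) (ModularPlaces.transcendental_jB (p * q))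
  set E : Divisor Qb (modularFunctionFieldBar (p * q)) :=
    FF.poleDivisor (ModularPlaces.jB (p * q)) with hE
  have hdeg : Divisor.degree E = ((p : ℤ) + 1) * ((q : ℤ) + 1) := by
    rw [hE, FF.degree_poleDivisor (ModularPlaces.transcendental_jB (p * q)),
      ModularPlaces.finrank_jB, dedekindPsi_pq hpq]
    push_cast
    ring
  have hEv : ∀ u, E u = max 0 (-u.ord (g1 (p := p) (q := q))) := fun u => by
    rw [hE, FF.poleDivisor_apply, ← jdB_one_eq (p * q)]
  have hsum : ∑ u ∈ insert v S, E u ≤ Divisor.degree E := by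
    rw [FF.degree_eq_sum, Finsupp.sum]
    refine le_of_le_of_eq (Finset.sum_le_sum_of_subset_of_nonneg
      (Finset.subset_union_right (s₁ := E.support) (s₂ := insert v S))
      fun u _ _ => by rw [hEv]; exact le_max_left _ _) ?_
    exact (Finset.sum_subset (Finset.subset_union_left (s₂ := insert v S))
      fun u _ hu => Finsupp.notMem_support_iff.mp hu).symm
  rw [Finset.sum_insert hvS, hS, Finset.sum_insert, Finset.sum_insert, Finset.sum_pair, hdeg] at hsum
  · rw [hEv, hEv, hEv, hEv, hEv, o0, oa, ob, oc] at hsum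
    rw [max_eq_right, max_eq_right, max_eq_right, max_eq_right, max_eq_right] at hsum <;> nlinarith
  · exact h1 _ _ (by rw [ob, oc]; omega)
  · simp only [Finset.mem_insert, Finset.mem_singleton, not_or]
    exact ⟨h1 _ _ (by rw [oa, ob]; omega), h1 _ _ (by rw [oa, oc]; omega)⟩
  · simp only [Finset.mem_insert, Finset.mem_singleton, not_or]
    exact ⟨h1 _ _ (by rw [o0, oa]; omega), h1 _ _ (by rw [o0, ob]; omega),
      h1 _ _ (by rw [o0, oc]; omega)⟩

/-- At a pole of `j(qτ)`, `j` has a pole, and the ratio of `(ord j(pqτ), ord j(qτ))` is that of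
`(ord j(pτ), ord j)`. -/
theorem ords_of_pole_gq (hpq : p ≠ q) {v : Pl (p * q)} (hv : v.ord (gq (p := p) (q := q)) < 0) :
    v.ord (g1 (p := p) (q := q)) < 0 ∧
      (v.ord (gpq (p := p) (q := q)) = p * v.ord (gq (p := p) (q := q)) →
        v.ord (gp (p := p) (q := q)) = p * v.ord (g1 (p := p) (q := q))) ∧
      (v.ord (gq (p := p) (q := q)) = p * v.ord (gpq (p := p) (q := q)) →
        v.ord (g1 (p := p) (q := q)) = p * v.ord (gp (p := p) (q := q))) := by
  obtain ⟨⟨wq, hq1, hq2, hq3, hq4⟩, -⟩ := swap_exists (p := p) (q := q) hpq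
  have e1 : (wq • v).ord (g1 (p := p) (q := q)) = v.ord (gq (p := p) (q := q)) := by
    conv_lhs => rw [← hq2]
    exact Place.ord_smul wq v _
  have e2 : (wq • v).ord (gp (p := p) (q := q)) = v.ord (gpq (p := p) (q := q)) := by
    conv_lhs => rw [← hq4]
    exact Place.ord_smul wq v _
  have e3 : (wq • v).ord (gq (p := p) (q := q)) = v.ord (g1 (p := p) (q := q)) := by
    conv_lhs => rw [← hq1]
    exact Place.ord_smul wq v _
  have e4 : (wq • v).ord (gpq (p := p) (q := q)) = v.ord (gp (p := p) (q := q)) := by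
    conv_lhs => rw [← hq3]
    exact Place.ord_smul wq v _
  have hp2 : (2 : ℤ) ≤ p := by exact_mod_cast hp.out.two_le
  have hq2' : (2 : ℤ) ≤ q := by exact_mod_cast hq.out.two_le
  have h := ords_of_pole hpq (v := wq • v) (by rw [e1]; exact hv)
  simp only [ords, Prod.mk.injEq, e1, e2, e3, e4] at h
  rcases h with ⟨a, b, c, d⟩ | ⟨a, b, c, d⟩ | ⟨a, b, c, d⟩ | ⟨a, b, c, d⟩ <;>
    rw [a, b, c, d] <;> refine ⟨by nlinarith, fun h => ?_, fun h => ?_⟩ <;> nlinarith

end LevelPQ

section Hecke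

variable {p : ℕ} [Fact p.Prime] {q : ℕ} [Fact q.Prime]

theorem heckeAlphaBar_jB : heckeAlphaBar Qb p q (ModularPlaces.jB p) = g1 (p := p) (q := q) :=
  Subtype.ext (by rw [coe_heckeAlphaBar, coe_jdB, jSeries_eq, qExpand_one_apply, coe_jB])

theorem heckeAlphaBar_jpB : heckeAlphaBar Qb p q (jpB p) = gp (p := p) (q := q) :=
  Subtype.ext (by rw [coe_heckeAlphaBar, coe_jdB, jSeries_eq, coe_jpB])

theorem heckeBetaBar_jB : heckeBetaBar Qb p q (ModularPlaces.jB p) = gq (p := p) (q := q) :=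
  Subtype.ext (by rw [coe_heckeBetaBar, coe_jdB, jSeries_eq, coe_jB])

theorem heckeBetaBar_jpB : heckeBetaBar Qb p q (jpB p) = gpq (p := p) (q := q) :=
  Subtype.ext (by
    rw [coe_heckeBetaBar, coe_jdB, jSeries_eq, coe_jpB, qExpand_qExpand,
      qExpand_congr (mul_comm q p)])

variable {c0 cInf : Pl p}

theorem restrict_alpha_of_restrict_beta (hpq : p ≠ q) (h0 : IsCuspZero p c0)
    (hi : IsCuspInf p cInf) (hα : HeckeAlphaBarIntegral Qb p q) (hβ : HeckeBetaBarIntegral Qb p q)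
    {c : Pl p} (hc : c = c0 ∨ c = cInf) (W : Pl (p * q))
    (hW : W.restrictAlong (heckeBetaBar Qb p q) hβ = c) :
    W.restrictAlong (heckeAlphaBar Qb p q) hα = c := by
  set e := W.ramificationIndexAlong (heckeBetaBar Qb p q)
  set d := W.restrictAlong (heckeAlphaBar Qb p q) hα
  set f := W.ramificationIndexAlong (heckeAlphaBar Qb p q)
  have he : (1 : ℤ) ≤ (e : ℤ) := by
    exact_mod_cast FF.ramificationIndexAlong_pos (heckeBetaBar Qb p q) hβ W
  have hf : (0 : ℤ) < (f : ℤ) := by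
    exact_mod_cast FF.ramificationIndexAlong_pos (heckeAlphaBar Qb p q) hα W
  have hp2 : (2 : ℤ) ≤ p := by exact_mod_cast (Fact.out : p.Prime).two_le
  have a1 := Place.ord_restrictAlong (heckeBetaBar Qb p q) hβ W (ModularPlaces.jB p)
  have a2 := Place.ord_restrictAlong (heckeBetaBar Qb p q) hβ W (jpB p)
  have b1 := Place.ord_restrictAlong (heckeAlphaBar Qb p q) hα W (ModularPlaces.jB p)
  have b2 := Place.ord_restrictAlong (heckeAlphaBar Qb p q) hα W (jpB p)
  rw [hW, heckeBetaBar_jB] at a1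
  rw [hW, heckeBetaBar_jpB] at a2
  rw [heckeAlphaBar_jB] at b1
  rw [heckeAlphaBar_jpB] at b2
  change _ = (e : ℤ) * _ at a1 a2
  change _ = (f : ℤ) * d.ord _ at b1 b2
  have hneg : W.ord (gq (p := p) (q := q)) < 0 := by
    rw [a1]
    rcases hc with rfl | rfl
    · rw [h0.1]; nlinarith
    · rw [hi.1]; nlinarith
  obtain ⟨h1, hri, hr0⟩ := ords_of_pole_gq hpq hneg
  have hd : d.ord (ModularPlaces.jB p) < 0 := by
    rw [b1] at h1
    by_contra hge
    exact absurd h1 (not_lt.mpr (mul_nonneg hf.le (not_lt.mp hge)))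
  rcases hc with rfl | rfl
  · rcases eq_cusp_of_ord_neg h0 hi hd with h | h
    · exact h
    have := hr0 (by rw [a1, a2, h0.1, h0.2]; ring)
    rw [b1, b2, h, hi.1, hi.2] at this
    have h4 : (f : ℤ) * ((p : ℤ) * p - 1) = 0 := by linear_combination this
    rcases mul_eq_zero.mp h4 with h5 | h5 <;> nlinarith
  · rcases eq_cusp_of_ord_neg h0 hi hd with h | h
    · have := hri (by rw [a1, a2, hi.1, hi.2]; ring)
      rw [b1, b2, h, h0.1, h0.2] at this
      have h4 : (f : ℤ) * ((p : ℤ) * p - 1) = 0 := by linear_combination this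
      rcases mul_eq_zero.mp h4 with h5 | h5 <;> nlinarith
    · exact h

theorem finrankAlong_heckeBetaBar (hpq : p ≠ q) (h0 : IsCuspZero p c0) (hi : IsCuspInf p cInf)
    (hβ : HeckeBetaBarIntegral Qb p q)
    [HasPrincipalDivisors Qb (modularFunctionFieldBar (p * q))]
    (hFI : FundamentalIdentityAlong Qb (heckeBetaBar Qb p q) hβ) :
    finrankAlong Qb (heckeBetaBar Qb p q) = q + 1 := by
  classical
  obtain ⟨⟨wq, hq1, -⟩, -⟩ := swap_exists (p := p) (q := q) hpq
  set E1 : Divisor Qb (modularFunctionFieldBar (p * q)) :=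
    FF.poleDivisor (ModularPlaces.jB (p * q))
  set E0 : Divisor Qb (modularFunctionFieldBar p) := FF.poleDivisor (ModularPlaces.jB p) with hE0
  have hpull : Divisor.pullbackAlong (heckeBetaBar Qb p q) hβ E0 = wq • E1 := by
    ext W
    rw [Divisor.pullbackAlong_apply, hE0, FF.poleDivisor_apply, Divisor.smul_apply,
      FF.poleDivisor_apply, ← jdB_one_eq (p * q)]
    have h1 : (wq⁻¹ • W).ord (g1 (p := p) (q := q)) = W.ord (gq (p := p) (q := q)) := by
      rw [← hq1]
      conv_rhs => rw [← smul_inv_smul wq W]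
      exact (Place.ord_smul wq _ _).symm
    rw [h1, ← heckeBetaBar_jB, Place.ord_restrictAlong _ hβ, ← mul_neg,
      mul_max_of_nonneg _ _ (Int.natCast_nonneg _), mul_zero]
  haveI := FF.isSeparable_adjoin_of_charZero (K := Qb) (ModularPlaces.transcendental_jB (p * q))
  have hd := Divisor.degree_pullbackAlong (heckeBetaBar Qb p q) hβ hFI E0
  rw [hpull, Divisor.degree_smul, FF.degree_poleDivisor (ModularPlaces.transcendental_jB (p * q)),
    ModularPlaces.finrank_jB, dedekindPsi_pq hpq, hE0, poleDivisor_jB h0 hi, map_add,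
    Divisor.degree_single, Divisor.degree_single, FF.deg_eq_one, FF.deg_eq_one] at hd
  push_cast at hd
  have h : ((p : ℤ) + 1) * (((q : ℤ) + 1) - finrankAlong Qb (heckeBetaBar Qb p q)) = 0 := by
    linear_combination hd
  rcases mul_eq_zero.mp h with h' | h'
  · have := (Fact.out : p.Prime).pos
    omega
  · omega

theorem correspondence_cusp (hpq : p ≠ q) (h0 : IsCuspZero p c0) (hi : IsCuspInf p cInf)
    (hα : HeckeAlphaBarIntegral Qb p q) (hβ : HeckeBetaBarIntegral Qb p q)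
    [HasPrincipalDivisors Qb (modularFunctionFieldBar (p * q))]
    (hFI : FundamentalIdentityAlong Qb (heckeBetaBar Qb p q) hβ)
    {c : Pl p} (hc : c = c0 ∨ c = cInf) :
    Divisor.correspondence (heckeBetaBar Qb p q) (heckeAlphaBar Qb p q) hβ hα
      (Finsupp.single c 1) = Finsupp.single c ((q : ℤ) + 1) := by
  classical
  have hsingle : ∀ W ∈ Place.fiberAlong (heckeBetaBar Qb p q) hβ c,
      Divisor.pushforwardAlong (heckeAlphaBar Qb p q) hα
        (Finsupp.single W (1 * (W.ramificationIndexAlong (heckeBetaBar Qb p q) : ℤ))) =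
        Finsupp.single c (W.ramificationIndexAlong (heckeBetaBar Qb p q) : ℤ) := fun W hW => by
    rw [Divisor.pushforwardAlong_single, FF.inertiaDegAlong_eq_one (heckeAlphaBar Qb p q) hα,
      restrict_alpha_of_restrict_beta hpq h0 hi hα hβ hc W (Place.mem_fiberAlong.mp hW)]
    simp
  have hdeg := Divisor.degree_pullbackAlong (heckeBetaBar Qb p q) hβ hFI (Finsupp.single c 1)
  rw [Divisor.pullbackAlong_single, map_sum, finrankAlong_heckeBetaBar hpq h0 hi hβ hFI] at hdeg
  rw [Divisor.correspondence_apply, Divisor.pullbackAlong_single, map_sum,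
    Finset.sum_congr rfl hsingle, ← Finsupp.single_finsetSum]
  congr 1
  simp only [Divisor.degree_single, FF.deg_eq_one, Nat.cast_one, one_mul, mul_one] at hdeg
  push_cast at hdeg
  exact hdeg

/-- `T_q C = (1 + q) C`. -/
theorem heckeOperatorBar_placeDiff (hpq : p ≠ q) (h0 : IsCuspZero p c0) (hi : IsCuspInf p cInf) :
    heckeOperatorBar p ⟨q, Fact.out⟩ (placeDiff p c0 cInf) =
      ((q : ℤ) + 1) • placeDiff p c0 cInf := by
  haveI : NeZero q := ⟨(Fact.out : q.Prime).ne_zero⟩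
  obtain ⟨hα, hβ, hP, hfin, hFI, hN⟩ := Kronecker.heckeInputs_bar p q
  haveI := hP
  rw [show heckeOperatorBar p ⟨q, Fact.out⟩ (placeDiff p c0 cInf)
      = heckeOperatorAlong Qb p q (placeDiff p c0 cInf) from rfl,
    heckeOperatorAlong_eq hα hβ hFI hfin hN, placeDiff]
  show Pic0.correspondence _ _ hβ hα hFI hfin hN (Pic0.mk _) = _
  rw [Pic0.correspondence_mk]
  show _ = ((q : ℤ) + 1) • QuotientAddGroup.mk _
  rw [← QuotientAddGroup.mk_zsmul]
  congr 1
  ext1
  rw [Pic0.coe_degZeroCorrespondence, AddSubgroupClass.coe_zsmul, map_sub,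
    correspondence_cusp hpq h0 hi hα hβ hFI (Or.inl rfl),
    correspondence_cusp hpq h0 hi hα hβ hFI (Or.inr rfl), smul_sub, Finsupp.smul_single,
    Finsupp.smul_single, smul_eq_mul, mul_one]

end Hecke

end FLTAgent.Mazur
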