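import Fermat.Agent.FF.RiemannRoch
import Fermat.Prelude.Def_AlgebraicCurve_BaseChangeGalois

/-!
# Finitely many fixed divisor classes of degree zero

`finite_fixed_pic0`: on a function field over an algebraically closed field, a semilinear
automorphism fixing a place `O` and having finitely many places of each period fixes finitely many
classes of degree zero.  By Riemann–Roch a fixed class is `E - m O` with `E` effective, fixed and
of degree `m ≤ g` (`exists_fixed_representative`), and the support of such an `E` is periodic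
(`exists_period_of_mem_support`).
-/

set_option autoImplicit false
set_option linter.style.haveILetI false

noncomputable section

open AlgebraicCurve

namespace FLTAgent.Mazur

variable {K F : Type*} [Field K] [Field F] [Algebra K F]

theorem smul_isPrincipal (g : SemilinearAut K F) {D : Divisor K F} (h : Divisor.IsPrincipal D) :
    Divisor.IsPrincipal (g • D) :=
  SemilinearAut.smul_mem_principal g (D := D) h

theorem smul_nonneg_divisor (g : SemilinearAut K F) {D : Divisor K F} (h : 0 ≤ D) : 0 ≤ g • D :=
  Finsupp.le_def.mpr fun v => by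
    rw [SemilinearAut.divisor_smul_apply]
    exact Finsupp.le_def.mp h _

variable [IsAlgClosed K] [FF.IsFF K F]

theorem ell_add_single_le (D : Divisor K F) (v : Place K F) :
    FF.ell (D + Finsupp.single v 1) ≤ FF.ell D + 1 := by
  have h := FF.degree_sub_ell_mono (D := D) (E := D + Finsupp.single v 1)
    (le_add_of_nonneg_right (Finsupp.single_nonneg.2 zero_le_one))
  rw [map_add, FF.degree_single_one] at h
  omega

/-- A fixed class has a fixed representative `E - m O` with `E` effective of degree `m ≤ g`. -/
theorem exists_fixed_representative (g : SemilinearAut K F) {O : Place K F} (hO : g • O = O)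
    {x : Pic0 K F} (hx : g • x = x) :
    ∃ (E : Divisor K F) (m : ℕ) (h : E - Finsupp.single O (m : ℤ) ∈ Divisor.degZero),
      m ≤ genusFF K F ∧ 0 ≤ E ∧ g • E = E ∧ Pic0.mk ⟨_, h⟩ = x := by
  classical
  obtain ⟨⟨D, hD⟩, rfl⟩ := Pic0.mk_surjective x
  have hdeg : Divisor.degree D = 0 := hD
  have hex : ∃ m : ℕ, 0 < FF.ell (D + Finsupp.single O (m : ℤ)) := by
    refine ⟨genusFF K F, ?_⟩
    have h := FF.degree_add_one_sub_genusFF_le_ell (D + Finsupp.single O (genusFF K F : ℤ))
    rw [map_add, hdeg, Divisor.degree_single, FF.deg_eq_one] at h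
    push_cast at h
    omega
  set m := Nat.find hex with hm
  have hle : m ≤ genusFF K F := Nat.find_min' hex (by
    have h := FF.degree_add_one_sub_genusFF_le_ell (D + Finsupp.single O (genusFF K F : ℤ))
    rw [map_add, hdeg, Divisor.degree_single, FF.deg_eq_one] at h
    push_cast at h
    omega)
  have hone : FF.ell (D + Finsupp.single O (m : ℤ)) = 1 := by
    have hpos := Nat.find_spec hex
    rw [← hm] at hpos
    rcases Nat.eq_zero_or_pos m with h0 | h0
    · rw [h0, Nat.cast_zero, Finsupp.single_zero, add_zero] at hpos ⊢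
      rw [FF.ell_congr (D := 0) (D' := D) (by
        rw [sub_zero]; exact FF.isPrincipal_of_degree_zero_of_ell_pos hdeg hpos), FF.ell_zero]
    · have hprev : ¬ 0 < FF.ell (D + Finsupp.single O ((m - 1 : ℕ) : ℤ)) :=
        Nat.find_min hex (by omega)
      have h := ell_add_single_le (D + Finsupp.single O ((m - 1 : ℕ) : ℤ)) O
      rw [add_assoc, ← Finsupp.single_add, show ((m - 1 : ℕ) : ℤ) + 1 = (m : ℤ) by omega] at h
      omega
  obtain ⟨E, ⟨hE, hEP⟩, huniq⟩ := FF.existsUnique_effective_of_ell_eq_one hone
  have hgD : g • D - D ∈ Divisor.principal (K := K) (F := F) := by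
    rw [SemilinearAut.pic0_smul_mk] at hx
    have h := (QuotientAddGroup.eq_iff_sub_mem).mp hx
    simpa [AddSubgroup.mem_addSubgroupOf] using h
  have hfix : g • E = E := by
    refine huniq _ ⟨smul_nonneg_divisor g hE, ?_⟩
    have h1 := AddSubgroup.add_mem _ (SemilinearAut.smul_mem_principal g (D := E - (D +
      Finsupp.single O (m : ℤ))) hEP) hgD
    have heq : g • (E - (D + Finsupp.single O (m : ℤ))) + (g • D - D)
        = g • E - (D + Finsupp.single O (m : ℤ)) := by
      rw [smul_sub, smul_add, SemilinearAut.smul_single, hO]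
      abel
    rwa [heq] at h1
  have hdE : E - Finsupp.single O (m : ℤ) ∈ Divisor.degZero (K := K) (F := F) := by
    have h := FF.degree_eq_of_isPrincipal hEP
    rw [map_sub, map_add, hdeg] at h
    rw [Divisor.mem_degZero, map_sub]
    omega
  refine ⟨E, m, hdE, hle, hE, hfix, ?_⟩
  refine (QuotientAddGroup.eq_iff_sub_mem).mpr ?_
  rw [AddSubgroup.mem_addSubgroupOf]
  have heq : ((⟨_, hdE⟩ - ⟨D, hD⟩ : Divisor.degZero (K := K) (F := F)) : Divisor K F)
      = E - (D + Finsupp.single O (m : ℤ)) := by
    rw [AddSubgroupClass.coe_sub, sub_add_eq_sub_sub, sub_right_comm]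
  rw [heq]
  exact hEP

/-- A fixed effective divisor of degree at most `n` is supported on periodic places. -/
theorem exists_period_of_mem_support (g : SemilinearAut K F) {E : Divisor K F} (hE : 0 ≤ E)
    (hfix : g • E = E) {n : ℕ} (hn : Divisor.degree E ≤ n) {v : Place K F} (hv : v ∈ E.support) :
    ∃ i ∈ Finset.Icc 1 n, g ^ i • v = v := by
  classical
  have hcard : E.support.card ≤ n := by
    have h1 : (E.support.card : ℤ) ≤ Divisor.degree E := by
      rw [FF.degree_eq_sum, Finsupp.sum, ← mul_one (E.support.card : ℤ), ← nsmul_eq_mul,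
        ← Finset.sum_const]
      refine Finset.sum_le_sum fun w hw => ?_
      have h2 := Finsupp.le_def.mp hE w
      rw [Finsupp.coe_zero, Pi.zero_apply] at h2
      have h3 := Finsupp.mem_support_iff.mp hw
      omega
    omega
  have horb : ∀ i : ℕ, g ^ i • v ∈ E.support := by
    intro i
    induction i with
    | zero => simpa using hv
    | succ i ih =>
      rw [Finsupp.mem_support_iff] at ih ⊢
      rw [← hfix, pow_succ', mul_smul, SemilinearAut.divisor_smul_apply_smul]
      exact ih
  obtain ⟨a, ha, b, hb, hab, heq⟩ := Finset.exists_ne_map_eq_of_card_lt_of_maps_to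
    (s := Finset.range (n + 1)) (t := E.support) (f := fun i => g ^ i • v)
    (by rw [Finset.card_range]; omega) (fun i _ => horb i)
  rw [Finset.mem_range] at ha hb
  wlog hlt : a < b generalizing a b
  · exact this b hb a ha (Ne.symm hab) heq.symm (lt_of_le_of_ne (not_lt.mp hlt) (Ne.symm hab))
  refine ⟨b - a, Finset.mem_Icc.mpr ⟨by omega, by omega⟩, MulAction.injective (g ^ a) ?_⟩
  simp only [← mul_smul, ← pow_add, Nat.add_sub_cancel' hlt.le, heq]

/-- Finitely many fixed classes. -/
theorem finite_fixed_pic0 (g : SemilinearAut K F) {O : Place K F} (hO : g • O = O)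
    (hfin : ∀ n : ℕ, {v : Place K F | ∃ i ∈ Finset.Icc 1 n, g ^ i • v = v}.Finite) :
    {x : Pic0 K F | g • x = x}.Finite := by
  classical
  set n := genusFF K F
  set T := (hfin n).toFinset
  set S : Finset (Divisor K F) := T.finsupp fun _ => Finset.Icc (0 : ℤ) n
  let G : Divisor K F × ℕ → Pic0 K F := fun q =>
    if h : q.1 - Finsupp.single O (q.2 : ℤ) ∈ Divisor.degZero then Pic0.mk ⟨_, h⟩ else 0
  refine ((S ×ˢ Finset.range (n + 1)).image G).finite_toSet.subset fun x hx => ?_
  obtain ⟨E, m, hd, hm, hE, hfix, rfl⟩ := exists_fixed_representative g hO hx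
  rw [Finset.mem_coe, Finset.mem_image]
  refine ⟨(E, m), Finset.mem_product.mpr ⟨?_, Finset.mem_range.mpr (by omega)⟩, dif_pos hd⟩
  have hdeg : Divisor.degree E = m := by
    have h : Divisor.degree (E - Finsupp.single O (m : ℤ)) = 0 := hd
    rw [map_sub, Divisor.degree_single, FF.deg_eq_one] at h
    push_cast at h
    omega
  have hsupp : ∀ v ∈ E.support, v ∈ T := fun v hv =>
    (hfin n).mem_toFinset.mpr (exists_period_of_mem_support g hE hfix (by omega) hv)
  refine Finset.mem_finsupp_iff.mpr ⟨hsupp, fun v _ => Finset.mem_Icc.mpr ⟨?_, ?_⟩⟩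
  · simpa using Finsupp.le_def.mp hE v
  · have hle : Finsupp.single v (E v) ≤ E := fun w => by
      rw [Finsupp.single_apply]
      split
      · subst_vars; exact le_rfl
      · simpa using Finsupp.le_def.mp hE w
    have h := FF.degree_mono hle
    rw [Divisor.degree_single, FF.deg_eq_one, hdeg] at h
    push_cast at h
    simp only
    omega

end FLTAgent.Mazur
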