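import Fermat.Agent.Mazur.ModuliValues
import Fermat.Agent.EllP.NodeBridge
import Fermat.Agent.GalCommon.Basic
import Fermat.Agent.EllLocal.Frey
import Fermat.Prelude.Def_EllipticCurve_ZeroComponentAt

/-!
The two invariants `(j (E), j (E / ⟨Q⟩))` of a curve over `ℤ` with a rational point of order `p`:
they are rational, they are the values `(j τ, j (p τ))` at a point of `ℍ`, and their valuations at
a multiplicative prime tell whether `Q` reduces into the identity component.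
-/

set_option autoImplicit false

noncomputable section

open UpperHalfPlane WeierstrassCurve WeierstrassCurve.Affine ModularCurve
open scoped MatrixGroups

namespace FLTAgent.Mazur

open ModularCosets FLTAgent.Modular EllLocal

local notation "Qb" => AlgebraicClosure ℚ

variable {p : ℕ}

theorem valuation_natCast_eq {q : ℕ} (hq : q.Prime) {A : ValuationSubring Qb}
    (hA : A.LiesOverPrime q) {n : ℕ} (hn : n ≠ 0) :
    A.valuation (n : Qb) = A.valuation (q : Qb) ^ padicValNat q n := by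
  have := Fact.mk hq
  obtain ⟨m, hm⟩ : q ^ padicValNat q n ∣ n := pow_padicValNat_dvd
  have hqm : ¬(q : ℤ) ∣ (m : ℤ) := fun h => by
    refine pow_succ_padicValNat_not_dvd (p := q) hn ?_
    rw [pow_succ]
    conv_rhs => rw [hm]
    exact Nat.mul_dvd_mul_left _ (Int.natCast_dvd_natCast.mp h)
  conv_lhs => rw [hm]
  rw [Nat.cast_mul, Nat.cast_pow, map_mul, map_pow,
    show ((m : ℕ) : Qb) = ((m : ℤ) : Qb) by push_cast; rfl, valuation_intCast_eq_one hq hA hqm,
    mul_one]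

theorem valuation_ratCast_eq {q : ℕ} (hq : q.Prime) {A : ValuationSubring Qb}
    (hA : A.LiesOverPrime q) {r : ℚ} (hr : r ≠ 0) :
    A.valuation (algebraMap ℚ Qb r) = A.valuation (q : Qb) ^ padicValRat q r := by
  have hq0 : A.valuation (q : Qb) ≠ 0 := by simpa using hq.ne_zero
  have hn : A.valuation ((r.num : ℤ) : Qb) = A.valuation ((r.num.natAbs : ℕ) : Qb) := by
    rcases Int.natAbs_eq r.num with h | h <;> conv_lhs => rw [h]
    · rw [Int.cast_natCast]
    · rw [Int.cast_neg, Valuation.map_neg, Int.cast_natCast]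
  conv_lhs => rw [← Rat.num_div_den r]
  rw [map_div₀, map_intCast, map_natCast, map_div₀, hn,
    valuation_natCast_eq hq hA (Int.natAbs_ne_zero.mpr (Rat.num_ne_zero.mpr hr)),
    valuation_natCast_eq hq hA r.den_nz, padicValRat_def, padicValInt, zpow_sub₀ hq0,
    zpow_natCast, zpow_natCast]

theorem velJ_castPoint {K : Type*} [Field K] [DecidableEq K] {W W' : Affine K} (h : W = W')
    (n : ℕ) (P : W.Point) : velJ W' n (castPoint h P) = velJ W n P := by
  subst h; rfl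

theorem velJ_pointCongr {K : Type*} [Field K] [DecidableEq K] {W W' : Affine K} (h : W = W')
    (n : ℕ) (P : W.Point) : velJ W' n (EllP.pointCongr h P) = velJ W n P := by
  subst h; rfl

theorem velJ_modelHom {K : Type*} [Field K] [DecidableEq K] [CharZero K] {A : ValuationSubring K}
    {W₀ W₁ : WeierstrassCurve A} (C : VariableChange K)
    (h : C • genCurve A W₀ = genCurve A W₁) {n : ℕ} (P : (genCurve A W₀).Point)
    (hP : addOrderOf P = n) :
    velJ (genCurve A W₁) n (modelHom C h P) = velJ (genCurve A W₀) n P := by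
  rw [modelHom, AddMonoidHom.comp_apply, velJ_castPoint, velJ_vcPoint _ C P hP]

theorem invariant_smul {K : Type*} [Field K] (W : WeierstrassCurve K) (C : VariableChange K) :
    (C • W).c₄ ^ 3 / (C • W).Δ = W.c₄ ^ 3 / W.Δ := by
  rw [variableChange_c₄, variableChange_Δ, mul_pow, ← pow_mul,
    mul_div_mul_left _ _ (pow_ne_zero 12 (Units.ne_zero _))]

/-- `InZeroComponentAt` is membership in `E₀` of the model at the place. -/
theorem inZeroComponentAt_iff {W : WeierstrassCurve ℤ} (A : ValuationSubring Qb)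
    (P : EllP.QPoint W) :
    W.InZeroComponentAt A P ↔ EllP.toModel A P ∈ E0 A (EllP.modelAt A W) := by
  have hred : redCurve A (EllP.modelAt A W) =
      (W.map (Int.castRingHom (IsLocalRing.ResidueField A))).toAffine := by
    change (W.map (Int.castRingHom A)).map (IsLocalRing.residue A) = _
    rw [WeierstrassCurve.map_map]
    congr 1
  cases P with
  | zero =>
    exact iff_of_true (Or.inl rfl) ((map_zero (EllP.toModel A)).symm ▸ zero_mem _)
  | some x y h =>
    rw [EllP.toModel_some]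
    constructor
    · rintro (h0 | ⟨x', y', h', e, hx | ⟨hx, hy, hns⟩⟩)
      · exact absurd h0 (by simp)
      · obtain ⟨rfl, rfl⟩ := (Point.some.injEq ..).mp e
        exact Or.inl hx
      · obtain ⟨rfl, rfl⟩ := (Point.some.injEq ..).mp e
        exact Or.inr ⟨⟨x, hx⟩, ⟨y, hy⟩, ⟨(EllP.genCurve_modelAt A W).symm ▸ h, rfl⟩,
          hred.symm ▸ hns⟩
    · rintro (hx | ⟨a, b, ⟨hn, e⟩, hns⟩)
      · exact Or.inr ⟨x, y, h, rfl, Or.inl hx⟩
      · obtain ⟨ea, eb⟩ := (Point.some.injEq ..).mp e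
        subst ea eb
        exact Or.inr ⟨_, _, h, rfl, Or.inr ⟨a.2, b.2, hred ▸ hns⟩⟩

/-- The two valuations at a node. -/
theorem valuation_velJ_node [Fact p.Prime] (hp2 : p ≠ 2) (ι : Qb →+* ℂ)
    {A : ValuationSubring Qb} {c : A} (hc : IsLocalRing.residue A c = 0) (hc0 : (c : Qb) ≠ 0)
    (hvp : A.valuation (p : Qb) = 1) {R : (nodeGen c).Point} (hR : p • R = 0) (hR0 : R ≠ 0) :
    (R ∈ E0 A (nodeCurve c) →
      A.valuation (velJ (nodeGen c) p R) = ((A.valuation (c : Qb))⁻¹) ^ p) ∧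
    (R ∉ E0 A (nodeCurve c) →
      A.valuation (velJ (nodeGen c) p R) ^ p = (A.valuation (c : Qb))⁻¹) := by
  have hp : p.Prime := Fact.out
  refine ⟨fun hmem => ?_, fun h => valuation_velJ_of_notMem hc hc0 hp hp2 h hR⟩
  obtain ⟨τ, hτ⟩ := ModularPlaces.exists_jE_eq
    (ι ((nodeGen c).c₄ ^ 3 / (nodeGen c).Δ))
  rw [← ModularPlaces.jFun_eq_jE] at hτ
  obtain ⟨P, hPp, hgen, hinj, hval⟩ := exists_level_points hp2 ι (nodeGen c)
    (nodeGen_Δ_ne_zero hc hc0) τ hτ
  obtain ⟨Q, hQm, hQd, hQ⟩ := exists_sum_poly (p := p)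
  have hC : 1 < A.valuation ((nodeGen c).c₄ ^ 3 / (nodeGen c).Δ) := by
    rw [valuation_node_j hc]
    exact (one_lt_inv₀ (zero_lt_iff.mpr (by rwa [ne_eq, Valuation.zero_iff]))).mpr
      (valuation_c_lt_one hc)
  have hsum : ∑ i, velJ (nodeGen c) p (P i) =
      Polynomial.aeval ((nodeGen c).c₄ ^ 3 / (nodeGen c).Δ) Q := by
    refine ι.injective ?_
    rw [map_sum, Finset.sum_congr rfl fun i _ => hval i, ← hQ, hτ, Polynomial.eval_map,
      Polynomial.aeval_def, Polynomial.hom_eval₂]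
    congr 1
    exact RingHom.ext_int _ _
  obtain ⟨i₀, hi₀mem, hi₀, hrest⟩ := node_classification hc hc0 hp hp2 hvp P hPp hgen hinj
    (by rw [hsum, valuation_eval_monic hC Q hQm, hQd, valuation_node_j hc])
  obtain ⟨i, k, hk, rfl⟩ := hgen R hR hR0
  rw [velJ_nsmul _ hp hk (P i) (hPp i).2]
  suffices i = i₀ by rw [this, hi₀]
  by_contra hne
  exact notMem_E0_nsmul hp (hrest i hne).1 (hPp i).2 (k := (k : ℤ))
    (fun h => hk (Int.natCast_dvd_natCast.mp h)) (by simpa using hmem)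

/-- The moduli point of `(E, ⟨Q⟩)`. -/
theorem exists_moduli_point [Fact p.Prime] (hp2 : p ≠ 2) (ι : Qb →+* ℂ) (W : WeierstrassCurve ℤ)
    (hΔ : W.Δ ≠ 0) (Q : EllP.QPoint W) (hQfix : ∀ σ : Qb ≃ₐ[ℚ] Qb, σ • Q = Q)
    (hQord : addOrderOf Q = p) :
    ∃ (a b : ℚ) (τ : ℍ), jFun τ = ι (algebraMap ℚ Qb a) ∧
      jH (triSmul p 0 1 τ) = ι (algebraMap ℚ Qb b) ∧ a = (W.c₄ : ℚ) ^ 3 / (W.Δ : ℚ) ∧
      ∀ ℓ : ℕ, ℓ.Prime → ℓ ≠ p → (ℓ : ℤ) ∣ W.Δ → ¬(ℓ : ℤ) ∣ W.c₄ →
        ∀ A : ValuationSubring Qb, A.LiesOverPrime ℓ →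
          A.valuation (p : Qb) = 1 ∧
          1 < A.valuation (algebraMap ℚ Qb a) ∧ 1 < A.valuation (algebraMap ℚ Qb b) ∧
          (¬W.InZeroComponentAt A Q →
            A.valuation (algebraMap ℚ Qb b) ^ p = A.valuation (algebraMap ℚ Qb a)) ∧
          (W.InZeroComponentAt A Q →
            A.valuation (algebraMap ℚ Qb b) = A.valuation (algebraMap ℚ Qb a) ^ p) := by
  have hp : p.Prime := Fact.out
  set E : Affine Qb := ((W.map (Int.castRingHom ℚ))⁄Qb).toAffine with hE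
  have hEmap : E = W.map ((algebraMap ℚ Qb).comp (Int.castRingHom ℚ)) :=
    WeierstrassCurve.map_map ..
  have hEc₄ : E.c₄ = (W.c₄ : Qb) := by rw [hEmap, map_c₄, eq_intCast]
  have hEc₆ : E.c₆ = (W.c₆ : Qb) := by rw [hEmap, map_c₆, eq_intCast]
  have hEb₂ : E.b₂ = (W.b₂ : Qb) := by rw [hEmap, map_b₂, eq_intCast]
  have hEΔ : E.Δ = (W.Δ : Qb) := by rw [hEmap, map_Δ, eq_intCast]
  have hΔ0 : E.Δ ≠ 0 := by rw [hEΔ]; exact_mod_cast hΔ
  set a : ℚ := (W.c₄ : ℚ) ^ 3 / (W.Δ : ℚ) with ha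
  have haE : algebraMap ℚ Qb a = E.c₄ ^ 3 / E.Δ := by
    rw [ha, hEc₄, hEΔ, map_div₀, map_pow, map_intCast, map_intCast]
  obtain ⟨τ₀, hτ₀⟩ := ModularPlaces.exists_jE_eq (ι (E.c₄ ^ 3 / E.Δ))
  rw [← ModularPlaces.jFun_eq_jE] at hτ₀
  obtain ⟨P, hPp, hgen, -, hval⟩ := exists_level_points hp2 ι E hΔ0 τ₀ hτ₀
  have hQp : p • Q = 0 := hQord ▸ addOrderOf_nsmul_eq_zero Q
  have hQ0 : Q ≠ 0 := fun h => by
    rw [h, addOrderOf_zero] at hQord
    exact hp.ne_one hQord.symm
  obtain ⟨i, k, hk, hQi⟩ := hgen Q hQp hQ0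
  have hJ : velJ E p Q = velJ E p (P i) := by rw [hQi]; exact velJ_nsmul _ hp hk _ (hPp i).2
  -- rationality
  obtain ⟨b, hb⟩ : ∃ b : ℚ, algebraMap ℚ Qb b = velJ E p Q := by
    refine Set.mem_range.mp ((InfiniteGalois.mem_range_algebraMap_iff_fixed _).mpr fun σ => ?_)
    refine (velJ_congr (W := E) (W' := E) (σ : Qb →+* Qb) (u := (1 : Qb)) one_ne_zero ?_ ?_
      (fun j _ => ?_)).symm
    · rw [one_pow, one_mul, hEc₄, map_intCast]
    · rw [one_pow, one_mul, hEc₆, map_intCast]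
    · rw [one_pow, one_mul, velWp, map_add, map_div₀, map_ofNat, hEb₂, map_intCast]
      congr 1
      have hfix : σ • (j • Q : EllP.QPoint W) = j • Q := by
        show Point.map σ.toAlgHom (j • Q) = j • Q
        rw [map_nsmul]
        exact congrArg (j • ·) (hQfix σ)
      cases hR : (j • Q : EllP.QPoint W) with
      | zero => exact (map_zero _).symm
      | some x y h =>
        rw [hR] at hfix
        obtain ⟨h', he⟩ := EllP.smul_some_qbar σ h
        rw [he] at hfix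
        exact ((Point.some.injEq ..).mp hfix).1.symm
  refine ⟨a, b, i.rep • τ₀, ?_, ?_, ha, fun ℓ hℓ hℓp hℓΔ hℓc A hA => ?_⟩
  · rw [jFun_smul, hτ₀, haE]
  · rw [hb, hJ, hval i]; rfl
  have hvp : A.valuation (p : Qb) = 1 := by
    have := valuation_intCast_eq_one (L := Qb) hℓ hA (n := (p : ℤ)) fun h =>
      hℓp ((Nat.prime_dvd_prime_iff_eq hℓ hp).mp (Int.natCast_dvd_natCast.mp h))
    simpa using this
  obtain ⟨C, c, hC, hc, hc0, hvc, hu, hr, hs, ht, -⟩ := EllP.node_data hℓ hA hΔ hℓΔ hℓc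
  obtain ⟨C₀, rfl⟩ := exists_integral_change hu hr hs ht
  set T := EllP.toModel A Q with hT
  set R := modelHom (C₀.map A.subtype) hC T with hR
  have hTord : addOrderOf T = p := by
    rw [hT, AddEquiv.addOrderOf_eq, hQord]
  have hmem : W.InZeroComponentAt A Q ↔ R ∈ E0 A (nodeCurve c) :=
    (inZeroComponentAt_iff A Q).trans (modelHom_mem_E0_iff hC).symm
  have hRJ : velJ (nodeGen c) p R = algebraMap ℚ Qb b := by
    rw [hR, velJ_modelHom _ hC T hTord, hb, hT]
    exact velJ_pointCongr _ p Q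
  have hRp : p • R = 0 := by rw [hR, ← map_nsmul, hT, ← map_nsmul, hQp, map_zero, map_zero]
  have hR0 : R ≠ 0 := by
    intro h
    rw [hR, map_eq_zero_iff _ (modelHom_injective hC), hT, map_eq_zero_iff _
      (EllP.toModel A).injective] at h
    exact hQ0 h
  have hva : A.valuation (algebraMap ℚ Qb a) = (A.valuation (c : Qb))⁻¹ := by
    have hg : genCurve A (EllP.modelAt A W) = E := EllP.genCurve_modelAt A W
    have hI : (nodeGen c).c₄ ^ 3 / (nodeGen c).Δ = E.c₄ ^ 3 / E.Δ := by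
      have h := invariant_smul (genCurve A (EllP.modelAt A W)) (C₀.map A.subtype)
      rw [hC, hg] at h
      exact h
    rw [haE, ← hI, valuation_node_j hc]
  obtain ⟨h1, h2⟩ := valuation_velJ_node hp2 ι hc hc0 hvp hRp hR0
  rw [hRJ, ← hva] at h1 h2
  have hva1 : 1 < A.valuation (algebraMap ℚ Qb a) := by
    rw [hva]
    exact (one_lt_inv₀ (zero_lt_iff.mpr (by rwa [ne_eq, Valuation.zero_iff]))).mpr
      (valuation_c_lt_one hc)
  refine ⟨hvp, hva1, ?_, fun h => h2 (mt hmem.mpr h), fun h => h1 (hmem.mp h)⟩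
  by_cases h : R ∈ E0 A (nodeCurve c)
  · rw [h1 h]; exact one_lt_pow₀ hva1 hp.ne_zero
  · by_contra hle
    rw [not_lt] at hle
    exact hva1.not_ge (h2 h ▸ pow_le_one₀ zero_le hle)

end FLTAgent.Mazur
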