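import Fermat.Agent.Mazur.Defs
import Fermat.Agent.Mazur.ModuliPoint
import Fermat.Agent.ModularPlaces.Exhaust
import Fermat.Agent.Torsion.ExtC

/-!
The rational point of `X₀(p)` attached to a curve over `ℤ` with a rational point `Q` of order `p`.

`exists_moduliPlace_natural` gives the point with `(j, j_p) = (j (E), j (E / ⟨Q⟩))`,
`exists_moduliPlace` its Fricke image.
-/

set_option autoImplicit false

noncomputable section

open AlgebraicCurve ModularCurve WeierstrassCurve UpperHalfPlane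
open scoped WeierstrassCurve.Affine MatrixGroups

namespace FLTAgent.Mazur

open FLTAgent.Modular FLTAgent.Torsion ModularCosets

local notation "Qb" => AlgebraicClosure ℚ

/-- `j(τ)` in the function field of `X₀(p)`. -/
def jFun₀ (p : ℕ) [NeZero p] : modularFunctionFieldBar p :=
  ⟨coeffEmb Qb jq, coeffEmb_mem_laurentBaseChange Qb
    (modularFunctionField_le_full p (jq_mem p))⟩

/-- `j(pτ)` in the function field of `X₀(p)`. -/
def jpFun₀ (p : ℕ) [NeZero p] : modularFunctionFieldBar p :=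
  ⟨coeffEmb Qb (qExpand ℚ p jq), coeffEmb_mem_laurentBaseChange Qb
    (modularFunctionField_le_full p (jqN_mem p))⟩

/-- `f` takes the finite value `c` at `x`. -/
def HasValueAt {p : ℕ} (x : Place Qb (modularFunctionFieldBar p)) (f : modularFunctionFieldBar p)
    (c : Qb) : Prop :=
  0 < x.ord (f - algebraMap Qb (modularFunctionFieldBar p) c)

theorem jFun₀_eq (p : ℕ) [NeZero p] : jFun₀ p = ModularPlaces.jB p := rfl

theorem jpFun₀_eq (p : ℕ) [NeZero p] : jpFun₀ p = jpB p := rfl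

variable {p : ℕ} [NeZero p]

theorem ord_placeZ_sub_pos_iff {y : FC p} {f : ℍ → ℂ} (hf : HasQExp 1 f (y : LaurentSeries ℂ))
    (han : ∀ z : ℍ, AnalyticAt ℂ (f ∘ ofComplex) (z : ℂ)) {c : ℂ}
    (hne : y - algebraMap ℂ (FC p) c ≠ 0) (z : ℍ) :
    0 < (ModularPlaces.placeZ z : Place ℂ (FC p)).ord (y - algebraMap ℂ (FC p) c) ↔ f z = c := by
  have hev : ev ((y - algebraMap ℂ (FC p) c : FC p) : LaurentSeries ℂ) = fun w => f w - c :=
    ev_eq_of_isMero (isMero_of_analyticAt fun w => (han w).sub analyticAt_const)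
      (hf.sub (hasQExp_const 1 c))
  have h1 := ModularPlaces.ord_placeZ z hne
  have h2 := meromorphicOrderAt_ev_ne_top hne z
  rw [hev] at h1 h2
  have han' : AnalyticAt ℂ ((fun w => f w - c) ∘ ofComplex) (z : ℂ) :=
    (han z).sub analyticAt_const
  have hzero : analyticOrderAt ((fun w => f w - c) ∘ ofComplex) (z : ℂ) ≠ 0 ↔ f z = c := by
    rw [analyticOrderAt_ne_zero]
    simp [han', sub_eq_zero]
  have hd : (0 : ℤ) < ModularPlaces.degZ p z := by exact_mod_cast ModularPlaces.degZ_pos z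
  rw [← hzero, ← mul_pos_iff_of_pos_left hd, ← h1, ordH]
  rw [han'.meromorphicOrderAt_eq] at h2 ⊢
  cases hn : analyticOrderAt ((fun w => f w - c) ∘ ofComplex) (z : ℂ) with
  | top => simp [hn] at h2
  | coe n => simp [Nat.pos_iff_ne_zero]

theorem jH_triSmul_eq_jMulFun (z : ℍ) : jH (triSmul p 0 1 z) = jMulFun p z := by
  rw [jMulFun]
  congr 1
  ext1
  rw [ModularForm.coe_heckeDiagMatrix_smul (NeZero.ne p), coe_triSmul]
  simp

theorem coeffMap_coeffEmb_iota (ι : Qb →+* ℂ) (x : LaurentSeries ℚ) :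
    coeffMap ι (coeffEmb Qb x) = coeffEmb ℂ x := by
  rw [coeffEmb, coeffEmb, coeffMap_coeffMap]
  exact coeffMap_congr (Subsingleton.elim _ _) _

theorem embFC_algebraMap (ι : Qb →+* ℂ) (a : Qb) :
    embFC p ι (algebraMap Qb (modularFunctionFieldBar p) a) = algebraMap ℂ (FC p) (ι a) := by
  apply Subtype.ext
  rw [coe_embFC]
  show coeffMap ι (algebraMap Qb (LaurentSeries Qb) a) = algebraMap ℂ (LaurentSeries ℂ) (ι a)
  rw [algebraMap_laurentSeries_eq_single, coeffMap_single, algebraMap_laurentSeries_eq_single]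

theorem embFC_jB (ι : Qb →+* ℂ) : embFC p ι (ModularPlaces.jB p) = ModularPlaces.jC p :=
  Subtype.ext ((coe_embFC ι _).trans (coeffMap_coeffEmb_iota ι jq))

theorem coe_embFC_jpB (ι : Qb →+* ℂ) :
    (embFC p ι (jpB p) : LaurentSeries ℂ) = coeffEmb ℂ (qExpand ℚ p jq) :=
  (coe_embFC ι _).trans (coeffMap_coeffEmb_iota ι _)

/-- The series of `j (p τ)` is not constant. -/
theorem coeffEmb_qExpand_ne_const {L : Type*} [Field L] [Algebra ℚ L] (c : L) :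
    coeffEmb L (qExpand ℚ p jq) ≠ algebraMap L (LaurentSeries L) c := by
  intro h
  have h' := congrArg (fun y : LaurentSeries L => y.coeff ((p : ℤ) * (-1))) h
  rw [algebraMap_laurentSeries_eq_single] at h'
  simp only [coeffEmb, coeffMap_coeff, qExpand_coeff_mul] at h'
  rw [HahnSeries.coeff_single_of_ne (by have := NeZero.ne p; omega)] at h'
  rw [show jq.coeff (-1 : ℤ) = (1 : ℚ) by
    rw [← jqModC_rat]; exact coeff_jqModC_neg_one ℚ, map_one] at h'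
  exact one_ne_zero h'

theorem jpB_sub_ne_zero (c : Qb) :
    jpB p - algebraMap Qb (modularFunctionFieldBar p) c ≠ 0 := fun h =>
  coeffEmb_qExpand_ne_const (p := p) c (congrArg Subtype.val (sub_eq_zero.mp h))

theorem jB_sub_ne_zero (c : Qb) :
    ModularPlaces.jB p - algebraMap Qb (modularFunctionFieldBar p) c ≠ 0 := fun h =>
  ModularPlaces.transcendental_jB p (sub_eq_zero.mp h ▸ isAlgebraic_algebraMap c)

/-- A point with values at a place of multiplicative reduction gives a fixed place. -/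
theorem exists_place_of_values [Fact p.Prime] (hp2 : p ≠ 2) (ι : Qb →+* ℂ)
    {A : ValuationSubring Qb} (hvp : A.valuation (p : Qb) = 1) (a b : ℚ)
    (ha : 1 < A.valuation (algebraMap ℚ Qb a)) {τ : ℍ}
    (hτ : jFun τ = ι (algebraMap ℚ Qb a))
    (hτb : jH (triSmul p 0 1 τ) = ι (algebraMap ℚ Qb b)) :
    ∃ x : Pl p, (∀ σ : Qb ≃ₐ[ℚ] Qb, arithmeticGalois (modularFunctionFieldFull p) σ • x = x) ∧
      HasValueAt x (ModularPlaces.jB p) (algebraMap ℚ Qb a) ∧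
      HasValueAt x (jpB p) (algebraMap ℚ Qb b) := by
  set a' : Qb := algebraMap ℚ Qb a
  set b' : Qb := algebraMap ℚ Qb b
  set ya := ModularPlaces.jB p - algebraMap Qb (modularFunctionFieldBar p) a' with hya
  set yb := jpB p - algebraMap Qb (modularFunctionFieldBar p) b' with hyb
  have hea : embFC p ι ya = ModularPlaces.jC p - algebraMap ℂ (FC p) (ι a') := by
    rw [hya, map_sub, embFC_jB, embFC_algebraMap]
  have heb : embFC p ι yb = embFC p ι (jpB p) - algebraMap ℂ (FC p) (ι b') := by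
    rw [hyb, map_sub, embFC_algebraMap]
  have hqa : HasQExp 1 jFun ((ModularPlaces.jC p : FC p) : LaurentSeries ℂ) := hasQExp_jFun
  have hqb : HasQExp 1 (jMulFun p) ((embFC p ι (jpB p) : FC p) : LaurentSeries ℂ) := by
    rw [coe_embFC_jpB]; exact hasQExp_jMulFun p
  have hnea : ModularPlaces.jC p - algebraMap ℂ (FC p) (ι a') ≠ 0 :=
    ModularPlaces.jC_sub_ne_zero _
  have hneb : embFC p ι (jpB p) - algebraMap ℂ (FC p) (ι b') ≠ 0 :=
    heb ▸ (map_ne_zero _).mpr (jpB_sub_ne_zero b')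
  have hposa : 0 < (ModularPlaces.placeZ τ : Place ℂ (FC p)).ord (embFC p ι ya) := by
    rw [hea, ord_placeZ_sub_pos_iff hqa analyticAt_jFun hnea]
    exact hτ
  obtain ⟨x, hx⟩ := eq_placeExt_of_ord_ne_zero ι hposa.ne'
  have hxa : 0 < x.ord ya := by rw [← ord_placeExt ι x, ← hx]; exact hposa
  have hxb : 0 < x.ord yb := by
    rw [← ord_placeExt ι x, ← hx, heb,
      ord_placeZ_sub_pos_iff hqb (analyticAt_jMulFun p) hneb, ← jH_triSmul_eq_jMulFun]
    exact hτb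
  refine ⟨x, fun σ => ?_, hxa, hxb⟩
  set g := arithmeticGalois (modularFunctionFieldFull p) σ
  have hfix : ∀ (y₀ : LaurentSeries ℚ) (hy₀ : coeffEmb Qb y₀ ∈ modularFunctionFieldBar p) (c : ℚ),
      g • ((⟨coeffEmb Qb y₀, hy₀⟩ : modularFunctionFieldBar p) -
          algebraMap Qb (modularFunctionFieldBar p) (algebraMap ℚ Qb c)) =
        (⟨coeffEmb Qb y₀, hy₀⟩ : modularFunctionFieldBar p) -
          algebraMap Qb (modularFunctionFieldBar p) (algebraMap ℚ Qb c) := by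
    intro y₀ hy₀ c
    apply Subtype.ext
    show coeffMap (σ : Qb →+* Qb) (coeffEmb Qb y₀ - algebraMap Qb (LaurentSeries Qb) _) =
      coeffEmb Qb y₀ - algebraMap Qb (LaurentSeries Qb) _
    rw [map_sub, coeffEmb, coeffMap_coeffMap, coeffMap_congr (Subsingleton.elim _ _),
      algebraMap_laurentSeries_eq_single, coeffMap_single]
    exact congrArg _ (congrArg _ (σ.commutes c))
  have h1 : 0 < (g • x).ord ya := by
    rw [show ya = g • ya from (hfix _ _ a).symm, SemilinearAut.ord_smul]; exact hxa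
  have h2 : 0 < (g • x).ord yb := by
    rw [show yb = g • yb from (hfix _ _ b).symm, SemilinearAut.ord_smul]; exact hxb
  set w := placeExt ι (g • x) with hw
  have hwa : 0 < w.ord (ModularPlaces.jC p - algebraMap ℂ (FC p) (ι a')) := by
    rw [← hea, hw, ord_placeExt]; exact h1
  obtain ⟨z, hz⟩ := ModularPlaces.exists_jE_eq (ι a')
  obtain ⟨r, hr⟩ := ModularPlaces.exists_placeZ_eq w z (by rw [hz]; exact hwa)
  set τ' := r.out⁻¹ • z
  have hτ' : jFun τ' = ι a' := by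
    rw [jFun_smul, ModularPlaces.jFun_eq_jE, hz]
  have hwb : 0 < w.ord (embFC p ι yb) := by rw [hw, ord_placeExt]; exact h2
  rw [← hr, heb, ord_placeZ_sub_pos_iff hqb (analyticAt_jMulFun p) hneb,
    ← jH_triSmul_eq_jMulFun] at hwb
  obtain ⟨γ, hγ, hγτ⟩ := exists_gamma0_of_values hp2 ι hvp ha hτ hτb hτ' hwb
  apply placeExt_injective ι
  rw [← hx, ← hw, ← hr, ← hγτ, ModularPlaces.placeZ_smul hγ]

theorem padicValRat_facts {q : ℕ} (hq : q.Prime) {A : ValuationSubring Qb}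
    (hA : A.LiesOverPrime q) {a b : ℚ} (ha : 1 < A.valuation (algebraMap ℚ Qb a))
    (hb : 1 < A.valuation (algebraMap ℚ Qb b)) :
    padicValRat q a < 0 ∧ padicValRat q b < 0 ∧
      (A.valuation (algebraMap ℚ Qb b) ^ p = A.valuation (algebraMap ℚ Qb a) →
        padicValRat q a = p * padicValRat q b) := by
  have ha0 : a ≠ 0 := by rintro rfl; simp at ha
  have hb0 : b ≠ 0 := by rintro rfl; simp at hb
  have hq1 : A.valuation (q : Qb) < 1 := hA
  have hq0 : (0 : A.ValueGroup) < A.valuation (q : Qb) :=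
    zero_lt_iff.mpr (by simpa using hq.ne_zero)
  have hanti := zpow_right_strictAnti₀ hq0 hq1
  rw [valuation_ratCast_eq hq hA ha0, ← zpow_zero (A.valuation (q : Qb))] at ha
  rw [valuation_ratCast_eq hq hA hb0, ← zpow_zero (A.valuation (q : Qb))] at hb
  refine ⟨hanti.lt_iff_gt.mp ha, hanti.lt_iff_gt.mp hb, fun h => ?_⟩
  rw [valuation_ratCast_eq hq hA ha0, valuation_ratCast_eq hq hA hb0, ← zpow_natCast,
    ← zpow_mul] at h
  rw [← hanti.injective h, mul_comm]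

/--
The place `x` of `X₀(p)` with `(j, j_p)(x) = (j(E), j(E/⟨Q⟩))`. It is rational, and at a prime
`ℓ ≠ p` of multiplicative reduction it reduces to the cusp `0` (where `v (j) = p v (j_p)`) when `Q`
is off the identity component, and to the cusp `∞` (where `v (j_p) = p v (j)`) otherwise.
-/
theorem exists_moduliPlace_natural (hp : p.Prime) (hp2 : p ≠ 2)
    (W : WeierstrassCurve ℤ) (hΔ : W.Δ ≠ 0)
    (Q : ((W.map (Int.castRingHom ℚ))⁄Qb).Point)
    (hQfix : ∀ σ : Qb ≃ₐ[ℚ] Qb, σ • Q = Q) (hQord : addOrderOf Q = p)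
    {ℓ₀ : ℕ} (hℓ₀ : ℓ₀.Prime) (hℓ₀p : ℓ₀ ≠ p) (hℓ₀Δ : (ℓ₀ : ℤ) ∣ W.Δ)
    (hℓ₀c₄ : ¬(ℓ₀ : ℤ) ∣ W.c₄) :
    ∃ (x : Place Qb (modularFunctionFieldBar p)) (a b : ℚ),
      (∀ σ : Qb ≃ₐ[ℚ] Qb, arithmeticGalois (modularFunctionFieldFull p) σ • x = x) ∧
      HasValueAt x (jFun₀ p) (algebraMap ℚ Qb a) ∧
      HasValueAt x (jpFun₀ p) (algebraMap ℚ Qb b) ∧
      a = (W.c₄ : ℚ) ^ 3 / (W.Δ : ℚ) ∧
      ∀ ℓ : ℕ, ℓ.Prime → ℓ ≠ p → (ℓ : ℤ) ∣ W.Δ → ¬(ℓ : ℤ) ∣ W.c₄ →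
        ∀ A : ValuationSubring Qb, A.LiesOverPrime ℓ →
          padicValRat ℓ a < 0 ∧ padicValRat ℓ b < 0 ∧
          (¬W.InZeroComponentAt A Q → padicValRat ℓ a = p * padicValRat ℓ b) ∧
          (W.InZeroComponentAt A Q → padicValRat ℓ b = p * padicValRat ℓ a) := by
  have := Fact.mk hp
  let ι : Qb →+* ℂ := (IsAlgClosed.lift (R := ℚ) : Qb →ₐ[ℚ] ℂ).toRingHom
  obtain ⟨a, b, τ, hτ, hτb, hadef, hval⟩ := exists_moduli_point hp2 ι W hΔ Q hQfix hQord
  obtain ⟨A₀, hA₀⟩ := GalCommon.exists_liesOverPrime hℓ₀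
  obtain ⟨hvp, ha1, -, -, -⟩ := hval ℓ₀ hℓ₀ hℓ₀p hℓ₀Δ hℓ₀c₄ A₀ hA₀
  obtain ⟨x, hfix, hxa, hxb⟩ := exists_place_of_values hp2 ι hvp a b ha1 hτ hτb
  refine ⟨x, a, b, hfix, hxa, hxb, hadef, fun ℓ hℓ hℓp hℓΔ hℓc A hA => ?_⟩
  obtain ⟨-, h1, h2, h3, h4⟩ := hval ℓ hℓ hℓp hℓΔ hℓc A hA
  obtain ⟨e1, e2, e3⟩ := padicValRat_facts (p := p) hℓ hA h1 h2
  exact ⟨e1, e2, fun h => e3 (h3 h),
    fun h => (padicValRat_facts (p := p) hℓ hA h2 h1).2.2 (h4 h).symm⟩

/--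
The place `x` of `X₀(p)` with `(j, j_p)(x) = (j(E/⟨Q⟩), j(E))`. It is rational, and at a prime
`ℓ ≠ p` of multiplicative reduction it reduces to the cusp `∞` (where `v (j_p) = p v (j)`) when `Q`
is off the identity component, and to the cusp `0` (where `v (j) = p v (j_p)`) otherwise.
-/
theorem exists_moduliPlace (hp : p.Prime) (hp2 : p ≠ 2)
    (W : WeierstrassCurve ℤ) (hΔ : W.Δ ≠ 0)
    (Q : ((W.map (Int.castRingHom ℚ))⁄Qb).Point)
    (hQfix : ∀ σ : Qb ≃ₐ[ℚ] Qb, σ • Q = Q) (hQord : addOrderOf Q = p)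
    {ℓ₀ : ℕ} (hℓ₀ : ℓ₀.Prime) (hℓ₀p : ℓ₀ ≠ p) (hℓ₀Δ : (ℓ₀ : ℤ) ∣ W.Δ)
    (hℓ₀c₄ : ¬(ℓ₀ : ℤ) ∣ W.c₄)
    (_hoff : ∀ A : ValuationSubring Qb, A.LiesOverPrime ℓ₀ → ¬W.InZeroComponentAt A Q) :
    ∃ (x : Place Qb (modularFunctionFieldBar p)) (a b : ℚ),
      (∀ σ : Qb ≃ₐ[ℚ] Qb, arithmeticGalois (modularFunctionFieldFull p) σ • x = x) ∧
      HasValueAt x (jFun₀ p) (algebraMap ℚ Qb a) ∧
      HasValueAt x (jpFun₀ p) (algebraMap ℚ Qb b) ∧
      b = (W.c₄ : ℚ) ^ 3 / (W.Δ : ℚ) ∧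
      ∀ ℓ : ℕ, ℓ.Prime → ℓ ≠ p → (ℓ : ℤ) ∣ W.Δ → ¬(ℓ : ℤ) ∣ W.c₄ →
        ∀ A : ValuationSubring Qb, A.LiesOverPrime ℓ →
          padicValRat ℓ a < 0 ∧ padicValRat ℓ b < 0 ∧
          (¬W.InZeroComponentAt A Q → padicValRat ℓ b = p * padicValRat ℓ a) ∧
          (W.InZeroComponentAt A Q → padicValRat ℓ a = p * padicValRat ℓ b) := by
  have := Fact.mk hp
  let ι : Qb →+* ℂ := (IsAlgClosed.lift (R := ℚ) : Qb →ₐ[ℚ] ℂ).toRingHom
  obtain ⟨a, b, τ, hτ, hτb, hadef, hval⟩ := exists_moduli_point hp2 ι W hΔ Q hQfix hQord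
  obtain ⟨A₀, hA₀⟩ := GalCommon.exists_liesOverPrime hℓ₀
  obtain ⟨hvp, -, hb1, -, -⟩ := hval ℓ₀ hℓ₀ hℓ₀p hℓ₀Δ hℓ₀c₄ A₀ hA₀
  obtain ⟨x, hfix, hxa, hxb⟩ := exists_place_of_values hp2 ι hvp b a hb1
    (τ := fricke p τ) ((jFun_fricke τ).trans hτb) ((jH_mul_fricke τ).trans hτ)
  refine ⟨x, b, a, hfix, hxa, hxb, hadef, fun ℓ hℓ hℓp hℓΔ hℓc A hA => ?_⟩
  obtain ⟨-, h1, h2, h3, h4⟩ := hval ℓ hℓ hℓp hℓΔ hℓc A hA
  obtain ⟨e1, e2, e3⟩ := padicValRat_facts (p := p) hℓ hA h1 h2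
  exact ⟨e2, e1, fun h => e3 (h3 h),
    fun h => (padicValRat_facts (p := p) hℓ hA h2 h1).2.2 (h4 h).symm⟩

end FLTAgent.Mazur
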