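import Fermat.Agent.Mazur.Moduli
import Fermat.Agent.Mazur.CuspReduction
import Fermat.Prelude.Def_EllipticCurve_ZeroComponentAt
import Fermat.Prelude.Def_EllipticCurve_FrobeniusTrace

/-!
# The point of `X₀(p)` of a curve with a rational point of order `p`

`exists_point_reduction`: for `W` over `ℤ` with a rational point `Q` of order `p`, off the
identity component at the multiplicative prime `2`, there is a rational place `x` of `X₀(p)`
which at every multiplicative prime `ℓ ≠ p` reduces to the cusp `∞` or `0` according as `Q` is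
off or in the identity component.  It combines the valuations of `(j, j(pτ))` at the point
(`exists_moduliPlace`) with the criteria of `CuspReduction`.
-/

set_option autoImplicit false

noncomputable section

open ModularCurve AlgebraicCurve WeierstrassCurve WeierstrassCurve.Affine

namespace FLTAgent.Mazur

/-- The point of `X₀(p)` given by a curve with a rational point `Q` of order `p` is a rational
place; at a multiplicative prime `ℓ ≠ p` it reduces to the cusp `∞` if `Q` is off the identity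
component and to the cusp `0` otherwise. -/
theorem exists_point_reduction {p : ℕ} [Fact p.Prime] (hp5 : 5 ≤ p)
    (W : WeierstrassCurve ℤ) (hΔ : W.Δ ≠ 0)
    (Q : ((W.map (Int.castRingHom ℚ))⁄(AlgebraicClosure ℚ)).Point)
    (hQfix : ∀ σ : AlgebraicClosure ℚ ≃ₐ[ℚ] AlgebraicClosure ℚ, σ • Q = Q)
    (hQord : addOrderOf Q = p) (h2Δ : (2 : ℤ) ∣ W.Δ) (h2c₄ : ¬ (2 : ℤ) ∣ W.c₄)
    (h2 : ∀ A : ValuationSubring (AlgebraicClosure ℚ), A.LiesOverPrime 2 →
      ¬ W.InZeroComponentAt A Q) :
    ∃ x : Pl p, (∀ σ : AlgebraicClosure ℚ ≃ₐ[ℚ] AlgebraicClosure ℚ,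
        arithmeticGalois (modularFunctionFieldFull p) σ • x = x) ∧
      ∀ ℓ : ℕ, ℓ.Prime → ℓ ≠ p → (ℓ : ℤ) ∣ W.Δ → ¬ (ℓ : ℤ) ∣ W.c₄ →
        ∀ A : ValuationSubring (AlgebraicClosure ℚ), A.LiesOverPrime ℓ →
        ∀ h : ReductionInputsModL A p, ∀ c0 cInf : Pl p, IsCuspZero p c0 → IsCuspInf p cInf →
          (¬ W.InZeroComponentAt A Q → placeReductionModL h x = placeReductionModL h cInf) ∧
          (W.InZeroComponentAt A Q → placeReductionModL h x = placeReductionModL h c0) := by
  obtain ⟨x, a, b, hfix, hxa, hxb, -, hval⟩ :=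
    exists_moduliPlace (Fact.out : p.Prime) (by omega) W hΔ Q hQfix hQord Nat.prime_two
      (by omega) h2Δ h2c₄ h2
  refine ⟨x, hfix, fun ℓ hℓ hℓp hℓΔ hℓc₄ A hA h c0 cInf h0 hi => ?_⟩
  have : Fact ℓ.Prime := ⟨hℓ⟩
  obtain ⟨ha, hb, hoff, hin⟩ := hval ℓ hℓ hℓp hℓΔ hℓc₄ A hA
  exact ⟨fun hQ => reduction_eq_cuspInf hℓp hA h h0 hi hxa hxb ha (hoff hQ),
    fun hQ => reduction_eq_cuspZero hℓp hA h h0 hi hxa hxb ha hb (hin hQ)⟩

end FLTAgent.Mazur
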