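import Fermat.Agent.Mazur.ModuliVelu
import Fermat.Agent.EllLocal.NodeInertia
import Fermat.Agent.EllTorsion.Card
import Fermat.Agent.EllTorsion.Galois

/-!
Valuations of the `j`-invariants of the `p`-isogenous curves of a node curve: exactly one subgroup
of order `p` lies in `E₀`; for the others `v (j') ^ p = v c ⁻¹`.
-/

set_option autoImplicit false

noncomputable section

open WeierstrassCurve WeierstrassCurve.Affine Finset

namespace FLTAgent.Mazur

open EllLocal

variable {K : Type*} [Field K] [DecidableEq K] {A : ValuationSubring K}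
  {c : A} {p : ℕ}

local notation "v" => A.valuation
local notation "π" => IsLocalRing.residue A

theorem valuation_node_unit (hc : π c = 0) : v (1 + 432 * (c : K)) = 1 := by
  refine Valuation.map_one_add_of_lt _ ?_
  rw [map_mul]
  refine lt_of_le_of_lt (mul_le_of_le_one_left' ?_) (valuation_c_lt_one hc)
  exact_mod_cast A.valuation_le_one ((432 : ℕ) : A)

omit [DecidableEq K] in
theorem nodeGen_c₄ : (nodeGen c).c₄ = 1 := by
  simp only [WeierstrassCurve.c₄, WeierstrassCurve.b₂, WeierstrassCurve.b₄, nodeGen_a₁, nodeGen_a₂,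
    nodeGen_a₃, nodeGen_a₄]
  ring

omit [DecidableEq K] in
theorem nodeGen_c₆ : (nodeGen c).c₆ = -(1 + 864 * (c : K)) := by
  simp only [WeierstrassCurve.c₆, WeierstrassCurve.b₂, WeierstrassCurve.b₄, WeierstrassCurve.b₆,
    nodeGen_a₁, nodeGen_a₂, nodeGen_a₃, nodeGen_a₄, nodeGen_a₆]
  ring

omit [DecidableEq K] in
theorem nodeGen_b₂ : (nodeGen c).b₂ = 1 := by
  simp only [WeierstrassCurve.b₂, nodeGen_a₁, nodeGen_a₂]; ring

omit [DecidableEq K] in
theorem nodeGen_Δ : (nodeGen c).Δ = -((c : K) * (1 + 432 * (c : K))) := by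
  simp only [WeierstrassCurve.Δ, WeierstrassCurve.b₂, WeierstrassCurve.b₄, WeierstrassCurve.b₆,
    WeierstrassCurve.b₈, nodeGen_a₁, nodeGen_a₂, nodeGen_a₃, nodeGen_a₄, nodeGen_a₆]
  ring

theorem nodeGen_Δ_ne_zero (hc : π c = 0) (hc0 : (c : K) ≠ 0) : (nodeGen c).Δ ≠ 0 := by
  rw [nodeGen_Δ, neg_ne_zero]
  refine mul_ne_zero hc0 fun h => ?_
  have := valuation_node_unit hc
  rw [h, map_zero] at this
  exact zero_ne_one this

theorem valuation_node_j (hc : π c = 0) :
    v ((nodeGen c).c₄ ^ 3 / (nodeGen c).Δ) = (v (c : K))⁻¹ := by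
  rw [nodeGen_c₄, nodeGen_Δ, one_pow, map_div₀, map_one, Valuation.map_neg, map_mul,
    valuation_node_unit hc, mul_one, one_div]

/-! ### A torsion point outside `E₀` -/

omit [DecidableEq K] in
theorem eval_zero_preΨ' (W : WeierstrassCurve K) (h₆ : W.b₆ = 0) (h₈ : W.b₈ = 0) :
    ∀ n, 3 ≤ n → (W.preΨ' n).eval 0 = 0 := by
  intro n
  induction n using Nat.strong_induction_on with
  | _ n ih =>
    intro hn
    have hΨ₂ : W.Ψ₂Sq.eval 0 = 0 := by simp [Ψ₂Sq, h₆]
    rcases Nat.lt_or_ge n 5 with h | h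
    · interval_cases n
      · simp [Ψ₃, h₈]
      · simp [preΨ₄, h₆, h₈]
    obtain ⟨m, hm | hm⟩ := Nat.even_or_odd' n
    · obtain ⟨k, rfl⟩ : ∃ k, m = k + 3 := ⟨m - 3, by omega⟩
      subst hm
      rw [preΨ'_even]
      simp [ih (k + 3) (by omega) (by omega)]
    · obtain ⟨k, rfl⟩ : ∃ k, m = k + 2 := ⟨m - 2, by omega⟩
      subst hm
      rw [preΨ'_odd]
      split_ifs <;> simp [ih (k + 4) (by omega) (by omega), ih (k + 3) (by omega) (by omega)]

variable [IsAlgClosed K] [CharZero K] (hc : IsLocalRing.residue A c = 0) (hc0 : (c : K) ≠ 0) (hp : p.Prime)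
  (hp2 : p ≠ 2) (hvp : A.valuation (p : K) = 1)

include hc hc0 hp hp2 hvp in
theorem exists_notMem_E0 : ∃ P : (nodeGen c).Point, P ∉ E0 A (nodeCurve c) ∧ p • P = 0 := by
  have hp3 : 3 ≤ p := by have := hp.two_le; omega
  set f : Polynomial A := (nodeCurve c).preΨ' p with hf
  have hfK : f.map A.subtype = (nodeGen c).preΨ' p := (map_preΨ' (nodeCurve c) A.subtype p).symm
  have h0 : π (f.eval 0) = 0 := by
    rw [← Polynomial.coeff_zero_eq_eval_zero, ← Polynomial.coeff_map,
      Polynomial.coeff_zero_eq_eval_zero, hf, ← map_preΨ']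
    refine eval_zero_preΨ' _ ?_ ?_ p hp3
    · simp only [WeierstrassCurve.b₆, map_a₃, map_a₆]
      simp only [nodeCurve, map_zero, hc]
      ring
    · simp only [WeierstrassCurve.b₈, map_a₁, map_a₂, map_a₃, map_a₄, map_a₆]
      simp only [nodeCurve, map_one, map_zero, hc]
      ring
  set g := (nodeGen c).preΨ' p with hg
  have hdeg : g.natDegree = (p ^ 2 - if Even p then 4 else 1) / 2 :=
    natDegree_preΨ' _ (by exact_mod_cast hp.ne_zero)
  have hlead : g.leadingCoeff = (p : K) := by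
    rw [Polynomial.leadingCoeff, hdeg, hg, coeff_preΨ',
      if_neg (Nat.not_even_iff_odd.mpr (hp.odd_of_ne_two hp2))]
  have hgs := (IsAlgClosed.splits g).eq_prod_roots
  have hg0 : v (g.eval 0) < 1 := by
    rw [← hfK, Polynomial.eval_zero_map]
    exact valuation_lt_of_residue_eq_zero A h0
  obtain ⟨r, hr, hr1⟩ : ∃ r ∈ g.roots, v r < 1 := by
    by_contra hno
    push Not at hno
    refine hg0.not_ge ?_
    rw [hgs, Polynomial.eval_mul, Polynomial.eval_C, map_mul, hlead, hvp, one_mul,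
      Polynomial.eval_multiset_prod, Multiset.map_map, map_multiset_prod, Multiset.map_map]
    refine Multiset.one_le_prod fun x hx => ?_
    obtain ⟨s, hs, rfl⟩ := Multiset.mem_map.mp hx
    simpa using hno s hs
  have := EllTorsion.isElliptic_of_Δ_ne_zero (nodeGen_Δ_ne_zero hc hc0)
  obtain ⟨y, hy⟩ := EllTorsion.exists_nonsingular (W := nodeGen c) r
  refine ⟨.some r y hy, (notMem_E0_some hc hy).mpr hr1, ?_⟩
  rw [EllTorsion.nsmul_some_eq_zero_iff_preΨ' (hp.odd_of_ne_two hp2)]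
  exact Polynomial.isRoot_of_mem_roots hr

omit [IsAlgClosed K] [CharZero K] in
include hp in
theorem notMem_E0_nsmul {P : (nodeGen c).Point} (hP : P ∉ E0 A (nodeCurve c)) (h0 : p • P = 0)
    {k : ℤ} (hk : ¬(p : ℤ) ∣ k) : k • P ∉ E0 A (nodeCurve c) := by
  intro h
  obtain ⟨a, b, hab⟩ := ((Nat.prime_iff_prime_int.mp hp).coprime_iff_not_dvd).mpr hk
  refine hP ?_
  have : P = a • ((p : ℤ) • P) + b • (k • P) := by rw [smul_smul, smul_smul, ← add_smul, hab, one_smul]
  rw [this, natCast_zsmul, h0, smul_zero, zero_add]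
  exact AddSubgroup.zsmul_mem _ h _

omit [IsAlgClosed K] [CharZero K] in
include hc hc0 in
theorem rel_comp_of_mem {P : (nodeGen c).Point} (hP : P ∉ E0 A (nodeCurve c)) :
    ¬ Rel A (c : K) (EllLocal.comp P) := by
  cases P with
  | zero => exact absurd (E0 A _).zero_mem hP
  | some x y h =>
    have hx := (notMem_E0_some hc h).mp hP
    rw [comp_some_of_lt h hx]
    exact gval_not_rel hc0 (valuation_c_lt_one hc) hx (nodeGen_equation h.1)

omit [IsAlgClosed K] [CharZero K] in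
include hc hc0 hp hp2 in
/-- The valuations of the abscissas of the first half of the multiples. -/
theorem exists_exponents {P : (nodeGen c).Point} (hP : P ∉ E0 A (nodeCurve c)) (h0 : p • P = 0) :
    ∃ e : ℕ → ℕ, (∀ k ∈ Icc 1 (p / 2), e k ∈ Icc 1 (p / 2) ∧
      v (xc (k • P)) < 1 ∧ v (xc (k • P)) ^ p = v (c : K) ^ e k) ∧
      Set.InjOn e (Icc 1 (p / 2) : Finset ℕ) := by
  classical
  have hodd := hp.odd_of_ne_two hp2
  have hndvd : ∀ k ∈ Icc 1 (p / 2), ¬(p : ℤ) ∣ (k : ℤ) := fun k hk h => by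
    rw [mem_Icc] at hk
    have := Int.le_of_dvd (by omega) h
    omega
  have hC0 : (0 : A.ValueGroup) < v (c : K) :=
    zero_lt_iff.mpr (by rwa [ne_eq, Valuation.zero_iff])
  have hC1 : v (c : K) < 1 := valuation_c_lt_one hc
  have main : ∀ k ∈ Icc 1 (p / 2), ∃ e : ℕ, e ∈ Icc 1 (p / 2) ∧ v (xc (k • P)) < 1 ∧
      v (xc (k • P)) ^ p = v (c : K) ^ e ∧
      (EllLocal.comp (k • P) = v (xc (k • P)) ∨ EllLocal.comp (k • P) = (v (xc (k • P)))⁻¹) := by
    intro k hk
    have hmem : k • P ∉ E0 A (nodeCurve c) := by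
      simpa using notMem_E0_nsmul hp hP h0 (hndvd k hk)
    obtain ⟨x, y, h, hxy, hx, hkind, m, hm⟩ := exists_zpow_of_torsion hc hc0 hmem hodd
      (by rw [← mul_smul, mul_comm, mul_smul, h0, smul_zero])
    have hgv : EllLocal.comp (k • P) = v x ∨ EllLocal.comp (k • P) = (v x)⁻¹ := by
      rw [hxy, comp_some_of_lt h hx]
      rcases hkind with hk' | hk'
      · exact Or.inl hk'.gval_eq
      · exact Or.inr hk'.gval_eq
    have hsq : v (c : K) < v x ^ 2 := by rcases hkind with hk' | hk' <;> exact hk'.1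
    have hanti := zpow_right_strictAnti₀ hC0 hC1
    have hm0 : 0 < m := by
      have h1 : v (c : K) ^ m < v (c : K) ^ (0 : ℤ) := by
        rw [zpow_zero, ← hm]; exact pow_lt_one₀ zero_le hx hp.ne_zero
      exact hanti.lt_iff_gt.mp h1
    have hm2 : 2 * m < p := by
      have h1 : v (c : K) ^ (p : ℤ) < v (c : K) ^ (2 * m) := by
        rw [zpow_natCast, mul_comm, zpow_mul, ← hm, show (2 : ℤ) = ((2 : ℕ) : ℤ) from rfl,
          zpow_natCast, ← pow_mul, mul_comm p 2, pow_mul]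
        exact pow_lt_pow_left₀ hsq zero_le hp.ne_zero
      exact hanti.lt_iff_gt.mp h1
    lift m to ℕ using hm0.le
    refine ⟨m, mem_Icc.mpr (by omega), ?_⟩
    rw [hxy] at hgv ⊢
    exact ⟨hx, by simpa using hm, hgv⟩
  choose! e he1 he2 he3 he4 using main
  refine ⟨e, fun k hk => ⟨he1 k hk, he2 k hk, he3 k hk⟩, fun i hi j hj hij => ?_⟩
  simp only [mem_coe] at hi hj
  by_contra hne
  have hv : v (xc (i • P)) = v (xc (j • P)) := by
    refine (pow_left_inj₀ zero_le zero_le hp.ne_zero).mp ?_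
    rw [he3 i hi, he3 j hj, hij]
  have hci := comp_ne_zero hc0 (i • P)
  have hcj := comp_ne_zero hc0 (j • P)
  rw [mem_Icc] at hi hj
  -- `i P - j P` or `i P + j P` has trivial component
  rcases show EllLocal.comp (i • P) = EllLocal.comp (j • P) ∨
      EllLocal.comp (i • P) * EllLocal.comp (j • P) = 1 by
    rcases he4 i (mem_Icc.mpr hi) with a | a <;> rcases he4 j (mem_Icc.mpr hj) with b | b
    · exact Or.inl (by rw [a, b, hv])
    · refine Or.inr ?_
      rw [a, b, hv, mul_inv_cancel₀]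
      intro h0'
      rw [h0'] at b
      exact hcj (b.trans inv_zero)
    · refine Or.inr ?_
      rw [a, b, hv, inv_mul_cancel₀]
      exact fun h0' => hcj (b.trans h0')
    · exact Or.inl (by rw [a, b, hv]) with h | h
  · refine notMem_E0_nsmul hp hP h0 (k := (i : ℤ) - j) (fun hd => ?_) ?_
    · have := Int.eq_zero_of_dvd_of_natAbs_lt_natAbs hd (by omega)
      omega
    · by_contra hmem
      refine rel_comp_of_mem hc hc0 hmem ?_
      rw [sub_smul, natCast_zsmul, natCast_zsmul, sub_eq_add_neg]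
      obtain ⟨k₁, e₁⟩ := comp_add hc hc0 (i • P) (-(j • P))
      obtain ⟨k₂, e₂⟩ := comp_mul_neg hc0 (j • P)
      refine ⟨k₁ + k₂, ?_⟩
      rw [zpow_add₀ hC0.ne', ← e₁, ← e₂, h, mul_assoc, inv_mul_cancel₀, mul_one]
      exact mul_ne_zero hcj (comp_ne_zero hc0 _)
  · refine notMem_E0_nsmul hp hP h0 (k := (i : ℤ) + j) (fun hd => ?_) ?_
    · have := Int.le_of_dvd (by omega) hd
      omega
    · by_contra hmem
      refine rel_comp_of_mem hc hc0 hmem ?_
      rw [add_smul, natCast_zsmul, natCast_zsmul]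
      obtain ⟨k₁, e₁⟩ := comp_add hc hc0 (i • P) (j • P)
      refine ⟨k₁, ?_⟩
      rw [← e₁, h, inv_one, mul_one]

omit [IsAlgClosed K] [CharZero K] [DecidableEq K] in
theorem sum_Icc_symm {M : Type*} [AddCommMonoid M] {H : ℕ} (f : ℕ → M)
    (hf : ∀ k ∈ Icc 1 H, f (2 * H + 1 - k) = f k) :
    ∑ k ∈ Icc 1 (2 * H), f k = ∑ k ∈ Icc 1 H, f k + ∑ k ∈ Icc 1 H, f k := by
  have hs : Icc 1 (2 * H) = Icc 1 H ∪ (Icc 1 H).image (fun k => 2 * H + 1 - k) := by
    ext k
    simp only [mem_union, mem_Icc, mem_image]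
    refine ⟨fun hk => ?_, ?_⟩
    · by_cases h : k ≤ H
      · exact Or.inl ⟨hk.1, h⟩
      · exact Or.inr ⟨2 * H + 1 - k, by omega, by omega⟩
    · rintro (h | ⟨i, hi, rfl⟩) <;> omega
  rw [hs, sum_union, sum_image]
  · congr 1
    exact sum_congr rfl hf
  · intro i hi j hj h
    simp only [coe_Icc, Set.mem_Icc] at hi hj
    simp only at h
    omega
  · rw [disjoint_left]
    simp only [mem_Icc, mem_image, not_exists, not_and]
    intro a ha i hi
    omega

omit [IsAlgClosed K] in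
include hc hc0 hp hp2 in
/-- The `j`-invariant of the quotient by a subgroup outside `E₀`. -/
theorem valuation_velJ_of_notMem {P : (nodeGen c).Point} (hP : P ∉ E0 A (nodeCurve c))
    (h0 : p • P = 0) : v (velJ (nodeGen c) p P) ^ p = (v (c : K))⁻¹ := by
  obtain ⟨e, he, hinj⟩ := exists_exponents hc hc0 hp hp2 hP h0
  obtain ⟨H, hH⟩ := hp.odd_of_ne_two hp2
  have hp2' : p / 2 = H := by omega
  rw [hp2'] at he hinj
  have hH1 : 1 ≤ H := by have := hp.two_le; omega
  have himg : (Icc 1 H).image e = Icc 1 H :=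
    eq_of_subset_of_card_le (fun x hx => by
      obtain ⟨i, hi, rfl⟩ := mem_image.mp hx
      exact (he i hi).1) (by rw [card_image_of_injOn hinj])
  obtain ⟨k₁, hk₁, hek₁⟩ : ∃ k ∈ Icc 1 H, e k = 1 := by
    have : (1 : ℕ) ∈ (Icc 1 H).image e := by rw [himg]; simpa using hH1
    simpa [mem_image] using this
  set C := v (c : K) with hC
  have hC0 : 0 < C := zero_lt_iff.mpr (by rwa [hC, ne_eq, Valuation.zero_iff])
  have hC1 : C < 1 := valuation_c_lt_one hc
  set g := v (xc (k₁ • P)) with hg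
  have hgp : g ^ p = C := by rw [hg, (he k₁ hk₁).2.2, hek₁, pow_one]
  have hg0 : 0 < g := zero_lt_iff.mpr fun h => by
    rw [h, zero_pow hp.ne_zero] at hgp; exact hC0.ne hgp
  have hg1 : g < 1 := (he k₁ hk₁).2.1
  -- bounds for the abscissas
  have hle : ∀ k ∈ Icc 1 H, v (xc (k • P)) ≤ g := fun k hk => by
    refine (pow_le_pow_iff_left₀ zero_le zero_le hp.ne_zero).mp ?_
    rw [(he k hk).2.2, hgp]
    exact (pow_le_pow_right_of_le_one' hC1.le (mem_Icc.mp (he k hk).1).1).trans_eq (pow_one C)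
  have hlt : ∀ k ∈ Icc 1 H, k ≠ k₁ → v (xc (k • P)) < g := fun k hk hne => by
    refine lt_of_le_of_ne (hle k hk) fun h => hne (hinj (mem_coe.mpr hk) (mem_coe.mpr hk₁) ?_)
    have h' := (he k hk).2.2
    rw [h, hgp] at h'
    have := (pow_right_strictAnti₀ hC0 hC1).injective (h'.symm.trans (pow_one C).symm)
    rw [this, hek₁]
  set S₁ := ∑ k ∈ Icc 1 H, xc (k • P) with hS₁
  set S₂ := ∑ k ∈ Icc 1 H, xc (k • P) ^ 2 with hS₂
  set S₃ := ∑ k ∈ Icc 1 H, xc (k • P) ^ 3 with hS₃
  have v1 : v S₁ = g := by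
    rw [hS₁, ← add_sum_erase _ _ hk₁, Valuation.map_add_eq_of_lt_left]
    exact Valuation.map_sum_lt' _ hg0 fun k hk =>
      hlt k (mem_erase.mp hk).2 (mem_erase.mp hk).1
  have hgg : g * g < g := mul_lt_of_lt_one_right hg0 hg1
  have v2 : v S₂ < g := Valuation.map_sum_lt' _ hg0 fun k hk => by
    rw [map_pow, pow_two]
    exact (mul_le_mul' (hle k hk) (hle k hk)).trans_lt hgg
  have v3 : v S₃ < g := Valuation.map_sum_lt' _ hg0 fun k hk => by
    rw [map_pow, pow_succ, pow_two]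
    exact (mul_le_mul' (mul_le_mul' (hle k hk) (hle k hk)) (hle k hk)).trans_lt
      (mul_lt_of_lt_one_left hg0 (hgg.trans hg1))
  have v4 : v (c : K) < g := by
    show C < g
    rw [← hgp]
    exact pow_lt_self_of_lt_one₀ hg0 hg1 hp.one_lt
  -- symmetric sums
  have hneg : ∀ k ∈ Icc 1 H, xc ((2 * H + 1 - k) • P) = xc (k • P) := by
    intro k hk
    have : (2 * H + 1 - k) • P = -(k • P) := by
      rw [eq_neg_iff_add_eq_zero, ← add_smul, show 2 * H + 1 - k + k = p by
        rw [mem_Icc] at hk; omega, h0]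
    rw [this]
    generalize k • P = R
    cases R <;> rfl
  have hwp : ∀ k ∈ Icc 1 H, velWp (nodeGen c) ((2 * H + 1 - k) • P) = velWp (nodeGen c) (k • P) :=
    fun k hk => by rw [velWp, velWp, hneg k hk]
  set e₀ : ℤ := 28 * H - 1 with he₀
  have hG₂ : 12 * velG₂ (nodeGen c) p P = 1 + 240 * S₁ + 1440 * S₂ := by
    rw [velG₂, show p - 1 = 2 * H by omega,
      sum_Icc_symm _ (fun k hk => by rw [hwp k hk]), nodeGen_c₄, hS₁, hS₂, mul_sum, mul_sum,
      ← sum_add_distrib, mul_sum, mul_add, mul_sum, add_assoc, ← sum_add_distrib]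
    congr 1
    · norm_num
    · exact sum_congr rfl fun k _ => by rw [velWp, nodeGen_b₂]; ring
  have hG₃ : 216 * velG₃ (nodeGen c) p P =
      -1 + 864 * (e₀ : K) * (c : K) + 60480 * S₃ + 15120 * S₂ + 504 * S₁ := by
    have hterm : ∀ k : ℕ, 120 * velWp (nodeGen c) (k • P) ^ 3 -
        3 / 2 * (nodeGen c).c₄ * velWp (nodeGen c) (k • P) - (nodeGen c).c₆ / 18 =
        120 * xc (k • P) ^ 3 + 30 * xc (k • P) ^ 2 + xc (k • P) + 48 * (c : K) := fun k => by
      rw [velWp, nodeGen_b₂, nodeGen_c₄, nodeGen_c₆]; ring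
    rw [velG₃, show p - 1 = 2 * H by omega]
    simp only [hterm]
    rw [sum_Icc_symm _ (fun k hk => by rw [hneg k hk])]
    simp only [sum_add_distrib, ← mul_sum, sum_const, Nat.card_Icc, Nat.add_sub_cancel,
      nsmul_eq_mul, ← hS₁, ← hS₂, ← hS₃, nodeGen_c₆, he₀]
    push_cast
    ring
  -- the main terms
  set N : K := 1 + 240 * S₁ + 1440 * S₂ with hN
  set R : K := 20 * S₂ + 70 * S₃ + (e₀ : K) * c - 47 * (S₁ * S₁) - 7620 * (S₁ * S₂)
    - 128700 * (S₂ * S₂) - 35280 * (S₁ * S₃) - 1058400 * (S₂ * S₃) - 2116800 * (S₃ * S₃)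
    - 504 * (e₀ : K) * (c * S₁) - 15120 * (e₀ : K) * (c * S₂) - 60480 * (e₀ : K) * (c * S₃)
    - 432 * (e₀ : K) ^ 2 * (c * c) + 8000 * ((S₁ + 6 * S₂) * ((S₁ + 6 * S₂) * (S₁ + 6 * S₂)))
    with hR
  have hden : velG₂ (nodeGen c) p P ^ 3 - 27 * velG₃ (nodeGen c) p P ^ 2 = S₁ + R := by
    rw [show velG₂ (nodeGen c) p P = (1 + 240 * S₁ + 1440 * S₂) / 12 by
        linear_combination hG₂ / 12,
      show velG₃ (nodeGen c) p P = (-1 + 864 * (e₀ : K) * (c : K) + 60480 * S₃ + 15120 * S₂ +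
        504 * S₁) / 216 by linear_combination hG₃ / 216, hR]
    ring
  -- integers are integral
  have hn : ∀ n : ℕ, v (n : K) ≤ 1 := fun n => by exact_mod_cast A.valuation_le_one ((n : ℕ) : A)
  have he : v (e₀ : K) ≤ 1 := by exact_mod_cast A.valuation_le_one ((e₀ : ℤ) : A)
  have small : ∀ {a z : K}, v a ≤ 1 → v z < g → v (a * z) < g := fun ha hz => by
    rw [map_mul]; exact lt_of_le_of_lt (mul_le_of_le_one_left' ha) hz
  have prod_small : ∀ {y z : K}, v y ≤ g → v z ≤ g → v (y * z) < g := fun hy hz => by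
    rw [map_mul]; exact (mul_le_mul' hy hz).trans_lt hgg
  have v1' : v S₁ ≤ g := v1.le
  have v16 : v (S₁ + 6 * S₂) ≤ g :=
    Valuation.map_add_le _ v1' (small (by exact_mod_cast hn 6) v2).le
  have hRlt : v R < g := by
    rw [hR]
    have n2 := fun n : ℕ => hn n
    refine Valuation.map_add_lt _ ?_ (small (by exact_mod_cast hn 8000)
      (prod_small v16 (prod_small v16 v16).le))
    refine Valuation.map_sub_lt _ ?_ (small ?_ (prod_small v4.le v4.le))
    swap
    · rw [map_mul, map_pow]; exact mul_le_one' (by exact_mod_cast hn 432) (pow_le_one₀ zero_le he)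
    refine Valuation.map_sub_lt _ ?_ (small ?_ (prod_small v4.le v3.le))
    swap
    · rw [map_mul]; exact mul_le_one' (by exact_mod_cast hn 60480) he
    refine Valuation.map_sub_lt _ ?_ (small ?_ (prod_small v4.le v2.le))
    swap
    · rw [map_mul]; exact mul_le_one' (by exact_mod_cast hn 15120) he
    refine Valuation.map_sub_lt _ ?_ (small ?_ (prod_small v4.le v1'))
    swap
    · rw [map_mul]; exact mul_le_one' (by exact_mod_cast hn 504) he
    refine Valuation.map_sub_lt _ ?_ (small (by exact_mod_cast hn 2116800) (prod_small v3.le v3.le))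
    refine Valuation.map_sub_lt _ ?_ (small (by exact_mod_cast hn 1058400) (prod_small v2.le v3.le))
    refine Valuation.map_sub_lt _ ?_ (small (by exact_mod_cast hn 35280) (prod_small v1' v3.le))
    refine Valuation.map_sub_lt _ ?_ (small (by exact_mod_cast hn 128700) (prod_small v2.le v2.le))
    refine Valuation.map_sub_lt _ ?_ (small (by exact_mod_cast hn 7620) (prod_small v1' v2.le))
    refine Valuation.map_sub_lt _ ?_ (small (by exact_mod_cast hn 47) (prod_small v1' v1'))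
    exact Valuation.map_add_lt _ (Valuation.map_add_lt _ (small (by exact_mod_cast hn 20) v2)
      (small (by exact_mod_cast hn 70) v3)) (small he v4)
  have hvN : v N = 1 := by
    rw [hN, add_assoc]
    refine Valuation.map_one_add_of_lt _ ?_
    refine Valuation.map_add_lt _ ?_ ((small (by exact_mod_cast hn 1440) v2).trans hg1)
    rw [map_mul, v1]
    exact lt_of_le_of_lt (mul_le_of_le_one_left' (by exact_mod_cast hn 240)) hg1
  rw [velJ, hden, show (1728 : K) * velG₂ (nodeGen c) p P ^ 3 = N ^ 3 by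
      rw [show velG₂ (nodeGen c) p P = N / 12 by linear_combination hG₂ / 12]; ring,
    map_div₀, map_pow, hvN, one_pow, Valuation.map_add_eq_of_lt_left _ (hRlt.trans_eq v1.symm),
    v1, one_div, inv_pow, hgp]

include hc hc0 hp hp2 hvp in
/-- Among a complete system of representatives of the lines, exactly one lies in `E₀`. -/
theorem node_classification {ι : Type*} [Fintype ι] (P : ι → (nodeGen c).Point)
    (hPp : ∀ i, P i ≠ 0 ∧ p • P i = 0)
    (hgen : ∀ Q : (nodeGen c).Point, p • Q = 0 → Q ≠ 0 → ∃ i, ∃ k : ℕ, ¬ p ∣ k ∧ Q = k • P i)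
    (hinj : ∀ (i j : ι) (k : ℕ), P j = k • P i → i = j)
    (hsum : v (∑ i, velJ (nodeGen c) p (P i)) = ((v (c : K))⁻¹) ^ p) :
    ∃ i₀, P i₀ ∈ E0 A (nodeCurve c) ∧ v (velJ (nodeGen c) p (P i₀)) = ((v (c : K))⁻¹) ^ p ∧
      ∀ i, i ≠ i₀ → P i ∉ E0 A (nodeCurve c) ∧
        v (velJ (nodeGen c) p (P i)) ^ p = (v (c : K))⁻¹ := by
  classical
  set C := v (c : K)
  have hC0 : 0 < C := zero_lt_iff.mpr (by rwa [ne_eq, Valuation.zero_iff])
  have hC1 : C < 1 := valuation_c_lt_one hc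
  have hCinv : 1 < C⁻¹ := (one_lt_inv₀ hC0).mpr hC1
  have hsmall : ∀ i, P i ∉ E0 A (nodeCurve c) →
      v (velJ (nodeGen c) p (P i)) < C⁻¹ ^ p := fun i hi => by
    refine (pow_lt_pow_iff_left₀ zero_le zero_le hp.ne_zero).mp ?_
    rw [valuation_velJ_of_notMem hc hc0 hp hp2 hi (hPp i).2, ← pow_mul]
    conv_lhs => rw [← pow_one C⁻¹]
    exact pow_lt_pow_right₀ hCinv (by nlinarith [hp.two_le])
  obtain ⟨i₀, hi₀⟩ : ∃ i, P i ∈ E0 A (nodeCurve c) := by
    by_contra hno
    push Not at hno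
    exact (Valuation.map_sum_lt' _ (pow_pos (zero_lt_iff.mpr (inv_ne_zero hC0.ne')) p)
      fun i _ => hsmall i (hno i)).ne hsum
  -- two lines in `E₀` would put all the torsion there
  have huniq : ∀ i, i ≠ i₀ → P i ∉ E0 A (nodeCurve c) := by
    intro i hne hi
    have := EllTorsion.isElliptic_of_Δ_ne_zero (nodeGen_Δ_ne_zero hc hc0)
    let T : Type _ := {Q : (nodeGen c).Point // p • Q = 0}
    have hT : Nat.card T = p ^ 2 := by
      rw [← EllTorsion.natCard_torsionBy (W := nodeGen c) p (by exact_mod_cast hp.ne_zero)]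
      exact Nat.card_congr (Equiv.subtypeEquivRight fun Q => by
        rw [Submodule.mem_torsionBy_iff, natCast_zsmul])
    have : Finite T := Nat.finite_of_card_ne_zero (by rw [hT]; exact pow_ne_zero _ hp.ne_zero)
    let Φ : Fin p × Fin p → T := fun mn => ⟨(mn.1 : ℕ) • P i₀ + (mn.2 : ℕ) • P i, by
      rw [smul_add, smul_comm, (hPp i₀).2, smul_zero, smul_comm, (hPp i).2, smul_zero, add_zero]⟩
    have hred : ∀ (j : ι) (m : ℤ), (p : ℤ) ∣ m → m • P j = 0 := by
      rintro j m ⟨t, rfl⟩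
      rw [mul_comm, mul_smul, natCast_zsmul, (hPp j).2, smul_zero]
    have hΦ : Function.Injective Φ := by
      rintro ⟨a, b⟩ ⟨a', b'⟩ h
      have h' : ((a : ℕ) : ℤ) • P i₀ + ((b : ℕ) : ℤ) • P i =
          ((a' : ℕ) : ℤ) • P i₀ + ((b' : ℕ) : ℤ) • P i := by
        simpa only [natCast_zsmul] using congrArg Subtype.val h
      have hb : (p : ℤ) ∣ ((b : ℕ) : ℤ) - (b' : ℕ) := by
        by_contra hd
        obtain ⟨u, w, huw⟩ := ((Nat.prime_iff_prime_int.mp hp).coprime_iff_not_dvd).mpr hd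
        set k : ℕ := ((w * (((a' : ℕ) : ℤ) - (a : ℕ))) % p).toNat with hk
        refine hne (hinj i₀ i k ?_).symm
        have e1 : ((b : ℕ) - (b' : ℕ) : ℤ) • P i = (((a' : ℕ) : ℤ) - (a : ℕ)) • P i₀ := by
          rw [sub_smul, sub_smul, sub_eq_sub_iff_add_eq_add, add_comm, h', add_comm]
        calc P i = (u * p + w * ((b : ℕ) - (b' : ℕ) : ℤ)) • P i := by rw [huw, one_smul]
          _ = (w * (((a' : ℕ) : ℤ) - (a : ℕ))) • P i₀ := by
            rw [add_smul, hred i _ (dvd_mul_left _ _), zero_add, mul_smul, e1, ← mul_smul]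
          _ = k • P i₀ := by
            rw [← natCast_zsmul, hk, Int.toNat_of_nonneg (Int.emod_nonneg _
              (by exact_mod_cast hp.ne_zero)), Int.emod_def, sub_smul,
              hred i₀ _ (dvd_mul_right _ _), sub_zero]
      have hb0 : b = b' := Fin.ext (by
        have := Int.eq_zero_of_dvd_of_natAbs_lt_natAbs hb (by have := b.2; have := b'.2; omega)
        omega)
      subst hb0
      rw [add_left_inj] at h'
      have h'' : (((a : ℕ) : ℤ) - (a' : ℕ)) • P i₀ = 0 := by rw [sub_smul, h', sub_self]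
      have ha : (p : ℤ) ∣ ((a : ℕ) : ℤ) - (a' : ℕ) := by
        have := addOrderOf_eq_prime (hp := ⟨hp⟩) (hPp i₀).2 (hPp i₀).1
        have h9 := addOrderOf_dvd_iff_zsmul_eq_zero.mpr h''
        rwa [this] at h9
      have := Int.eq_zero_of_dvd_of_natAbs_lt_natAbs ha (by have := a.2; have := a'.2; omega)
      exact Prod.ext (Fin.ext (by simp only; omega)) rfl
    obtain ⟨R, hR, hRp⟩ := exists_notMem_E0 hc hc0 hp hp2 hvp
    obtain ⟨⟨a, b⟩, hab⟩ := (hΦ.bijective_of_nat_card_le (by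
      rw [hT, Nat.card_prod, Nat.card_fin, sq])).2 ⟨R, hRp⟩
    refine hR ?_
    rw [← show (Φ (a, b)).1 = R from congrArg Subtype.val hab]
    exact add_mem (AddSubgroup.nsmul_mem _ hi₀ _) (AddSubgroup.nsmul_mem _ hi _)
  refine ⟨i₀, hi₀, ?_, fun i hi => ⟨huniq i hi,
    valuation_velJ_of_notMem hc hc0 hp hp2 (huniq i hi) (hPp i).2⟩⟩
  have hrest : v (∑ i ∈ univ.erase i₀, velJ (nodeGen c) p (P i)) < C⁻¹ ^ p :=
    Valuation.map_sum_lt' _ (pow_pos (zero_lt_iff.mpr (inv_ne_zero hC0.ne')) p) fun i hi =>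
      hsmall i (huniq i (mem_erase.mp hi).1)
  rw [← add_sum_erase _ _ (mem_univ i₀)] at hsum
  have := Valuation.map_sub_eq_of_lt_left A.valuation (hrest.trans_eq hsum.symm)
  rwa [add_sub_cancel_right, hsum] at this

end FLTAgent.Mazur
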