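import Mathlib.AlgebraicGeometry.EllipticCurve.Affine.Point
import Mathlib.Tactic
import Fermat.Agent.EllLocal.VarChange

/-!
The `j`-invariant of the quotient of a Weierstrass curve by the subgroup generated by a point of
order `n`, by the formula of Vélu (written with the coordinate `℘ = x + b₂ / 12`).
-/

set_option autoImplicit false

noncomputable section

open WeierstrassCurve WeierstrassCurve.Affine Finset

namespace FLTAgent.Mazur

variable {K : Type*} [Field K] [DecidableEq K] (W : Affine K)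

/-- The first coordinate, `0` at infinity. -/
def xc {W : Affine K} : W.Point → K
  | .zero => 0
  | .some x _ _ => x

omit [DecidableEq K] in
@[simp]
theorem xc_some {W : Affine K} {x y : K} (h : W.Nonsingular x y) : xc (Point.some x y h) = x := rfl

/-- The coordinate `℘ = x + b₂ / 12`. -/
def velWp (P : W.Point) : K := xc P + W.b₂ / 12

/-- `g₂` of the quotient curve. -/
def velG₂ (n : ℕ) (P : W.Point) : K :=
  W.c₄ / 12 + 10 * ∑ k ∈ Icc 1 (n - 1), (6 * velWp W (k • P) ^ 2 - W.c₄ / 24)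

/-- `g₃` of the quotient curve. -/
def velG₃ (n : ℕ) (P : W.Point) : K :=
  W.c₆ / 216 + 7 / 6 * ∑ k ∈ Icc 1 (n - 1),
    (120 * velWp W (k • P) ^ 3 - 3 / 2 * W.c₄ * velWp W (k • P) - W.c₆ / 18)

/-- `j` of the quotient curve. -/
def velJ (n : ℕ) (P : W.Point) : K :=
  1728 * velG₂ W n P ^ 3 / (velG₂ W n P ^ 3 - 27 * velG₃ W n P ^ 2)

/-- Multiplication by a unit mod `p` permutes `1, …, p - 1`. -/
theorem sum_Icc_mul_mod {M : Type*} [AddCommMonoid M] {p k : ℕ} (hp : p.Prime) (hk : ¬ p ∣ k)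
    (f : ℕ → M) : ∑ i ∈ Icc 1 (p - 1), f (i * k % p) = ∑ i ∈ Icc 1 (p - 1), f i := by
  have hp0 := hp.pos
  have hmem : ∀ i ∈ Icc 1 (p - 1), i * k % p ∈ Icc 1 (p - 1) := by
    intro i hi
    rw [mem_Icc] at hi ⊢
    have h1 : i * k % p < p := Nat.mod_lt _ hp0
    have h2 : i * k % p ≠ 0 := by
      intro h
      rcases hp.dvd_mul.mp (Nat.dvd_of_mod_eq_zero h) with h' | h'
      · have := Nat.le_of_dvd (by omega) h'
        omega
      · exact hk h'
    omega
  have hinj : Set.InjOn (fun i => i * k % p) (Icc 1 (p - 1) : Set ℕ) := by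
    intro i hi j hj h
    simp only [coe_Icc, Set.mem_Icc] at hi hj
    have hcop : Nat.gcd p k = 1 := (Nat.Prime.coprime_iff_not_dvd hp).mpr hk
    have h' : i ≡ j [MOD p] := Nat.ModEq.cancel_right_of_coprime hcop h
    exact h'.eq_of_lt_of_lt (by omega) (by omega)
  have himg : (Icc 1 (p - 1)).image (fun i => i * k % p) = Icc 1 (p - 1) :=
    eq_of_subset_of_card_le (fun x hx => by
      obtain ⟨i, hi, rfl⟩ := mem_image.mp hx
      exact hmem i hi) (by rw [card_image_of_injOn hinj])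
  conv_rhs => rw [← himg, sum_image hinj]

theorem velJ_nsmul {p k : ℕ} (hp : p.Prime) (hk : ¬ p ∣ k) (P : W.Point) (hP : p • P = 0) :
    velJ W p (k • P) = velJ W p P := by
  have e : ∀ i : ℕ, i • (k • P) = (i * k % p) • P := by
    intro i
    conv_lhs => rw [← mul_smul, ← Nat.mod_add_div (i * k) p, add_smul, mul_comm p, mul_smul, hP,
      smul_zero, add_zero]
  have h2 : velG₂ W p (k • P) = velG₂ W p P := by
    simp only [velG₂, e]
    rw [sum_Icc_mul_mod hp hk (fun i => 6 * velWp W (i • P) ^ 2 - W.c₄ / 24)]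
  have h3 : velG₃ W p (k • P) = velG₃ W p P := by
    simp only [velG₃, e]
    rw [sum_Icc_mul_mod hp hk
      (fun i => 120 * velWp W (i • P) ^ 3 - 3 / 2 * W.c₄ * velWp W (i • P) - W.c₆ / 18)]
  simp only [velJ, h2, h3]

variable {L : Type*} [Field L] [DecidableEq L]

/-- Homogeneity: compatibility with field embeddings and changes of coordinates. -/
theorem velJ_congr (f : K →+* L) {u : L} (hu : u ≠ 0) {W : Affine K} {W' : Affine L} {n : ℕ}
    {P : W.Point} {P' : W'.Point} (h₄ : W'.c₄ = u ^ 4 * f W.c₄) (h₆ : W'.c₆ = u ^ 6 * f W.c₆)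
    (hx : ∀ k ∈ Icc 1 (n - 1), velWp W' (k • P') = u ^ 2 * f (velWp W (k • P))) :
    velJ W' n P' = f (velJ W n P) := by
  have h2 : velG₂ W' n P' = u ^ 4 * f (velG₂ W n P) := by
    simp only [velG₂, map_add, map_mul, map_div₀, map_sum, map_sub, map_pow, map_ofNat, mul_add]
    rw [mul_sum, mul_sum, mul_sum, h₄, mul_div_assoc]
    congr 1
    exact sum_congr rfl fun k hk => by rw [hx k hk]; ring
  have h3 : velG₃ W' n P' = u ^ 6 * f (velG₃ W n P) := by
    simp only [velG₃, map_add, map_mul, map_div₀, map_sum, map_sub, map_pow, map_ofNat, mul_add]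
    rw [mul_sum, mul_sum, mul_sum, h₄, h₆, mul_div_assoc]
    congr 1
    exact sum_congr rfl fun k hk => by rw [hx k hk]; ring
  simp only [velJ, h2, h3, map_div₀, map_mul, map_sub, map_pow, map_ofNat]
  rw [show (1728 : L) * (u ^ 4 * f (velG₂ W n P)) ^ 3 = u ^ 12 * (1728 * f (velG₂ W n P) ^ 3) by ring,
    show (u ^ 4 * f (velG₂ W n P)) ^ 3 - 27 * (u ^ 6 * f (velG₃ W n P)) ^ 2 =
      u ^ 12 * (f (velG₂ W n P) ^ 3 - 27 * f (velG₃ W n P) ^ 2) by ring,
    mul_div_mul_left _ _ (pow_ne_zero 12 hu)]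

theorem addOrderOf_nsmul_ne_zero {G : Type*} [AddMonoid G] {P : G} {n k : ℕ}
    (hP : addOrderOf P = n) (hk : k ∈ Icc 1 (n - 1)) : k • P ≠ 0 := by
  rw [mem_Icc] at hk
  intro h
  have := Nat.le_of_dvd (by omega) (hP ▸ addOrderOf_dvd_iff_nsmul_eq_zero.mpr h)
  omega

/-- Invariance under a change of coordinates. -/
theorem velJ_vcPoint [CharZero K] (C : VariableChange K) {n : ℕ} (P : W.Point) (hP : addOrderOf P = n) :
    velJ (C • W).toAffine n (EllLocal.vcPoint W C P) = velJ W n P := by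
  refine velJ_congr (RingHom.id K) (u := ((C.u⁻¹ : Kˣ) : K)) (Units.ne_zero _)
    (variableChange_c₄ W C) (variableChange_c₆ W C) fun k hk => ?_
  rw [← map_nsmul]
  cases hR : k • P with
  | zero => exact absurd hR (addOrderOf_nsmul_ne_zero hP hk)
  | some x y h =>
    rw [EllLocal.vcPoint_some]
    simp only [velWp, xc_some, RingHom.id_apply, EllLocal.vcX, variableChange_b₂]
    field_simp
    ring

end FLTAgent.Mazur
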