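import Fermat.Agent.Mazur.ModuliUniform
import Fermat.Agent.Mazur.ModuliVelu

/-!
Eisenstein sums of a lattice containing a given lattice with cyclic quotient: `g₂`, `g₃` of the
bigger lattice in terms of values of `℘` of the smaller one.
-/

set_option autoImplicit false

noncomputable section

open Filter Topology
open scoped PeriodPair

namespace FLTAgent.Mazur

variable (L : PeriodPair)

theorem iteratedDeriv_weierstrassP_eq {z : ℂ} (hz : z ∉ L.lattice) {n : ℕ} (hn : n ≠ 0) :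
    iteratedDeriv n ℘[L] z = n.factorial * ((n + 1) * L.sumInvPow z (n + 2)) := by
  obtain ⟨r, hr0, hr⟩ := Metric.nhds_basis_closedBall.mem_iff.mp
    (L.isClosed_lattice.isOpen_compl.mem_nhds hz)
  lift r to NNReal using hr0.le
  have hP := L.hasFPowerSeriesOnBall_weierstrassP z r (by exact_mod_cast hr0) hr
  have h := hP.factorial_smul (1 : ℂ) n
  rw [iteratedDeriv_eq_iteratedFDeriv, ← h, nsmul_eq_mul]
  congr 1
  rw [PeriodPair.weierstrassPSeries, FormalMultilinearSeries.ofScalars_apply_eq]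
  simp [hn]

theorem eventually_notMem_of_notMem {z : ℂ} (hz : z ∉ L.lattice) :
    ∀ᶠ w in 𝓝 z, w ∉ L.lattice :=
  L.isClosed_lattice.isOpen_compl.mem_nhds hz

theorem iteratedDeriv_two_weierstrassP {z : ℂ} (hz : z ∉ L.lattice) :
    iteratedDeriv 2 ℘[L] z = 6 * ℘[L] z ^ 2 - L.g₂ / 2 := by
  rw [iteratedDeriv_succ, iteratedDeriv_one, L.deriv_weierstrassP,
    deriv_derivWeierstrassP_eq L hz]

theorem iteratedDeriv_four_weierstrassP {z : ℂ} (hz : z ∉ L.lattice) :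
    iteratedDeriv 4 ℘[L] z = 120 * ℘[L] z ^ 3 - 18 * L.g₂ * ℘[L] z - 12 * L.g₃ := by
  have h3 : ∀ w, w ∉ L.lattice → iteratedDeriv 3 ℘[L] w = 12 * ℘[L] w * ℘'[L] w := by
    intro w hw
    rw [iteratedDeriv_succ]
    have he : iteratedDeriv 2 ℘[L] =ᶠ[𝓝 w] fun y => 6 * ℘[L] y ^ 2 - L.g₂ / 2 :=
      (eventually_notMem_of_notMem L hw).mono fun y hy => iteratedDeriv_two_weierstrassP L hy
    rw [he.deriv_eq]
    refine HasDerivAt.deriv ?_
    refine HasDerivAt.congr_deriv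
      ((((hasDerivAt_weierstrassP L hw).fun_pow 2).const_mul 6).sub_const _) ?_
    push_cast
    ring
  rw [iteratedDeriv_succ]
  have he : iteratedDeriv 3 ℘[L] =ᶠ[𝓝 z] fun y => 12 * ℘[L] y * ℘'[L] y :=
    (eventually_notMem_of_notMem L hz).mono fun y hy => h3 y hy
  rw [he.deriv_eq]
  refine HasDerivAt.deriv ?_
  have hd := (L.analyticOnNhd_derivWeierstrassP z hz).differentiableAt.hasDerivAt
  rw [deriv_derivWeierstrassP_eq L hz] at hd
  refine HasDerivAt.congr_deriv (((hasDerivAt_weierstrassP L hz).const_mul 12).fun_mul hd) ?_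
  linear_combination (12 : ℂ) * L.derivWeierstrassP_sq z hz

theorem sumInvPow_four {z : ℂ} (hz : z ∉ L.lattice) :
    L.sumInvPow z 4 = ℘[L] z ^ 2 - L.g₂ / 12 := by
  have h := iteratedDeriv_weierstrassP_eq L hz two_ne_zero
  rw [iteratedDeriv_two_weierstrassP L hz] at h
  norm_num [Nat.factorial] at h
  linear_combination (-1 / 6 : ℂ) * h

theorem sumInvPow_six {z : ℂ} (hz : z ∉ L.lattice) :
    L.sumInvPow z 6 = ℘[L] z ^ 3 - 3 / 20 * L.g₂ * ℘[L] z - L.g₃ / 10 := by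
  have h := iteratedDeriv_weierstrassP_eq L hz (n := 4) (by norm_num)
  rw [iteratedDeriv_four_weierstrassP L hz] at h
  norm_num [Nat.factorial] at h
  linear_combination (-1 / 120 : ℂ) * h

/-- `L'` is generated by `L` and `z`, and `z` has order `p` modulo `L`. -/
structure IsCyclicExt (p : ℕ) (L L' : PeriodPair) (z : ℂ) : Prop where
  mem_iff : ∀ x : ℂ, x ∈ L'.lattice ↔ ∃ k : ℕ, k < p ∧ x - (k : ℂ) * z ∈ L.lattice
  inj : ∀ k k' : ℕ, k < p → k' < p → ((k : ℂ) - k') * z ∈ L.lattice → k = k'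

variable {L} {L' : PeriodPair} {p : ℕ} {z : ℂ}

theorem IsCyclicExt.notMem (h : IsCyclicExt p L L' z) {k : ℕ} (hk : k ∈ Finset.Icc 1 (p - 1)) :
    (k : ℂ) * z ∉ L.lattice := by
  rw [Finset.mem_Icc] at hk
  intro hm
  have := h.inj k 0 (by omega) (by omega) (by simpa using hm)
  omega

theorem IsCyclicExt.G_eq (h : IsCyclicExt p L L' z) {r : ℕ} (hr : 2 < r) :
    L'.G r = ∑ k : Fin p, L.sumInvPow (-((k : ℕ) * z)) r := by
  let e : Fin p × L.lattice → L'.lattice := fun kl =>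
    ⟨(kl.2 : ℂ) + (kl.1 : ℕ) * z, (h.mem_iff _).mpr ⟨kl.1, kl.1.2, by simp⟩⟩
  have he : Function.Bijective e := by
    refine ⟨fun a b hab => ?_, fun x => ?_⟩
    · have hab' : (a.2 : ℂ) + (a.1 : ℕ) * z = (b.2 : ℂ) + (b.1 : ℕ) * z := congrArg Subtype.val hab
      have h1 : a.1 = b.1 := Fin.ext (h.inj a.1 b.1 a.1.2 b.1.2 (by
        rw [show ((a.1 : ℕ) - (b.1 : ℕ) : ℂ) * z = (b.2 : ℂ) - a.2 by linear_combination hab']
        exact sub_mem b.2.2 a.2.2))
      refine Prod.ext h1 (Subtype.ext ?_)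
      rw [h1] at hab'
      linear_combination hab'
    · obtain ⟨k, hk, hx⟩ := (h.mem_iff x).mp x.2
      exact ⟨⟨⟨k, hk⟩, ⟨_, hx⟩⟩, Subtype.ext (sub_add_cancel _ _)⟩
  have hs := (Equiv.ofBijective e he).hasSum_iff.mpr (L'.hasSum_sumInvPow 0 hr)
  rw [PeriodPair.sumInvPow_zero] at hs
  refine (hasSum_fintype _).unique (hs.prod_fiberwise fun k => ?_) |>.symm
  have hk := L.hasSum_sumInvPow (-((k : ℕ) * z)) hr
  convert hk using 1
  funext l
  simp [e]

theorem IsCyclicExt.g₂_eq (h : IsCyclicExt p L L' z) (hp : 0 < p) :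
    L'.g₂ = L.g₂ + 10 * ∑ k ∈ Finset.Icc 1 (p - 1), (6 * ℘[L] ((k : ℕ) * z) ^ 2 - L.g₂ / 2) := by
  obtain ⟨m, rfl⟩ : ∃ m, p = m + 1 := ⟨p - 1, by omega⟩
  rw [show L'.g₂ = 60 * L'.G 4 from rfl, h.G_eq (by norm_num),
    Fin.sum_univ_eq_sum_range (fun k => L.sumInvPow (-((k : ℕ) * z)) 4), Finset.sum_range_succ',
    Nat.cast_zero, zero_mul, neg_zero, L.sumInvPow_zero, mul_add, Nat.add_sub_cancel,
    Finset.mul_sum, Finset.mul_sum, add_comm, show L.g₂ = 60 * L.G 4 from rfl]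
  congr 1
  refine (Finset.sum_nbij' (fun k => k + 1) (fun k => k - 1) ?_ ?_ ?_ ?_ ?_)
  · intro k hk; simp at hk ⊢; omega
  · intro k hk; simp at hk ⊢; omega
  · intro k _; simp
  · intro k hk; simp at hk ⊢; omega
  · intro k hk
    have hn := h.notMem (k := k + 1) (by simp at hk ⊢; omega)
    rw [sumInvPow_four L (fun hm => hn (by simpa using neg_mem hm)), L.weierstrassP_neg,
      show L.g₂ = 60 * L.G 4 from rfl]
    ring

theorem IsCyclicExt.g₃_eq (h : IsCyclicExt p L L' z) (hp : 0 < p) :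
    L'.g₃ = L.g₃ + 7 / 6 * ∑ k ∈ Finset.Icc 1 (p - 1),
      (120 * ℘[L] ((k : ℕ) * z) ^ 3 - 18 * L.g₂ * ℘[L] ((k : ℕ) * z) - 12 * L.g₃) := by
  obtain ⟨m, rfl⟩ : ∃ m, p = m + 1 := ⟨p - 1, by omega⟩
  rw [show L'.g₃ = 140 * L'.G 6 from rfl, h.G_eq (by norm_num),
    Fin.sum_univ_eq_sum_range (fun k => L.sumInvPow (-((k : ℕ) * z)) 6), Finset.sum_range_succ',
    Nat.cast_zero, zero_mul, neg_zero, L.sumInvPow_zero, mul_add, Nat.add_sub_cancel,
    Finset.mul_sum, Finset.mul_sum, add_comm, show L.g₃ = 140 * L.G 6 from rfl]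
  congr 1
  refine (Finset.sum_nbij' (fun k => k + 1) (fun k => k - 1) ?_ ?_ ?_ ?_ ?_)
  · intro k hk; simp at hk ⊢; omega
  · intro k hk; simp at hk ⊢; omega
  · intro k _; simp
  · intro k hk; simp at hk ⊢; omega
  · intro k hk
    have hn := h.notMem (k := k + 1) (by simp at hk ⊢; omega)
    rw [sumInvPow_six L (fun hm => hn (by simpa using neg_mem hm)), L.weierstrassP_neg,
      show L.g₃ = 140 * L.G 6 from rfl]
    ring

end FLTAgent.Mazur
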