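import Mathlib.AlgebraicGeometry.EllipticCurve.Affine.Point
import Mathlib.Analysis.SpecialFunctions.Elliptic.Weierstrass
import Mathlib.Analysis.Complex.Cardinality
import Mathlib.Analysis.Analytic.Order
import Mathlib.LinearAlgebra.Complex.FiniteDimensional
import Mathlib.Tactic

/-!
Complex uniformisation: `z ↦ (℘ z, ℘' z / 2)` is a group homomorphism from `ℂ` onto its image in
`y² = x³ - (g₂/4) x - g₃/4` with kernel the lattice.
-/

set_option autoImplicit false

noncomputable section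

open Filter Topology WeierstrassCurve WeierstrassCurve.Affine
open scoped PeriodPair

namespace FLTAgent.Mazur

variable (L : PeriodPair)

/-- The cubic attached to a lattice. -/
def latticeCurve : Affine ℂ := ⟨0, 0, 0, -L.g₂ / 4, -L.g₃ / 4⟩

theorem equation_lattice {z : ℂ} (hz : z ∉ L.lattice) :
    (latticeCurve L).Equation (℘[L] z) (℘'[L] z / 2) := by
  rw [equation_iff]
  simp only [latticeCurve, zero_mul, add_zero]
  linear_combination (L.derivWeierstrassP_sq z hz) / 4

theorem eventually_ne_const (z₀ : ℂ) (hz₀ : z₀ ∉ L.lattice) (u : ℂ) :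
    ∀ᶠ z in 𝓝[≠] z₀, ℘[L] z ≠ u := by
  refine ((L.analyticOnNhd_weierstrassP z₀ hz₀).eventually_eq_or_eventually_ne
    analyticAt_const).resolve_left fun h => ?_
  have hmero : Meromorphic fun z => ℘[L] z - u := L.meromorphic_weierstrassP.fun_sub (.const u)
  have h0 : meromorphicOrderAt (fun z => ℘[L] z - u) z₀ = ⊤ := by
    rw [meromorphicOrderAt_eq_top_iff]
    exact (h.filter_mono nhdsWithin_le_nhds).mono fun z hz => sub_eq_zero.mpr hz
  have h1 : meromorphicOrderAt (fun z => ℘[L] z - u) 0 = ⊤ := by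
    by_contra hne
    exact (MeromorphicOn.meromorphicOrderAt_ne_top_of_isPreconnected (U := Set.univ)
      (fun x _ => hmero x) isPreconnected_univ (Set.mem_univ 0) (Set.mem_univ z₀) hne) h0
  rw [meromorphicOrderAt_eq_top_iff] at h1
  have heq : L.weierstrassP =ᶠ[𝓝[≠] (0 : ℂ)] fun _ => u := h1.mono fun z hz => sub_eq_zero.mp hz
  have h2 := L.order_weierstrassP 0 (zero_mem _)
  rw [meromorphicOrderAt_congr heq] at h2
  have h3 := (analyticAt_const (𝕜 := ℂ) (v := u) (x := (0 : ℂ))).meromorphicOrderAt_nonneg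
  rw [h2] at h3
  exact absurd h3 (by decide)

theorem eventually_notMem (z₀ : ℂ) : ∀ᶠ z in 𝓝[≠] z₀, z ∉ L.lattice := by
  filter_upwards [nhdsWithin_le_nhds (L.compl_lattice_sdiff_singleton_mem_nhds z₀),
    self_mem_nhdsWithin] with z hz hne hmem
  exact hz ⟨hmem, hne⟩

theorem isPreconnected_compl_lattice : IsPreconnected ((L.lattice : Set ℂ)ᶜ) := by
  refine (Set.Countable.isConnected_compl_of_one_lt_rank (by simp) ?_).2
  exact countable_of_Lindelof_of_discrete (X := L.lattice)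

theorem hasDerivAt_weierstrassP {z : ℂ} (hz : z ∉ L.lattice) :
    HasDerivAt ℘[L] (℘'[L] z) z := by
  have := (L.analyticOnNhd_weierstrassP z hz).differentiableAt.hasDerivAt
  rwa [L.deriv_weierstrassP] at this

theorem deriv_derivWeierstrassP_eq {z : ℂ} (hz : z ∉ L.lattice) :
    deriv ℘'[L] z = 6 * ℘[L] z ^ 2 - L.g₂ / 2 := by
  -- at a point where `℘'` does not vanish
  have hne : ∀ z, z ∉ L.lattice → ℘'[L] z ≠ 0 → deriv ℘'[L] z = 6 * ℘[L] z ^ 2 - L.g₂ / 2 := by
    intro z hz h0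
    have e : (fun w => ℘'[L] w ^ 2) =ᶠ[𝓝 z]
        fun w => 4 * ℘[L] w ^ 3 - L.g₂ * ℘[L] w - L.g₃ := by
      filter_upwards [L.isClosed_lattice.isOpen_compl.mem_nhds hz] with w hw
      exact L.derivWeierstrassP_sq w hw
    have d1 : HasDerivAt (fun w => ℘'[L] w ^ 2) (2 * ℘'[L] z * deriv ℘'[L] z) z := by
      have := ((L.analyticOnNhd_derivWeierstrassP z hz).differentiableAt.hasDerivAt).fun_pow 2
      simpa using this
    have d2 : HasDerivAt (fun w => 4 * ℘[L] w ^ 3 - L.g₂ * ℘[L] w - L.g₃)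
        ((12 * ℘[L] z ^ 2 - L.g₂) * ℘'[L] z) z := by
      have hP := hasDerivAt_weierstrassP L hz
      refine HasDerivAt.congr_deriv
        ((((hP.fun_pow 3).const_mul 4).fun_sub (hP.const_mul L.g₂)).sub_const L.g₃) ?_
      push_cast
      ring
    have := d1.unique (d2.congr_of_eventuallyEq e)
    exact mul_left_cancel₀ (mul_ne_zero two_ne_zero h0) (by linear_combination this)
  have hA : AnalyticOnNhd ℂ (deriv ℘'[L]) (L.lattice : Set ℂ)ᶜ :=
    L.analyticOnNhd_derivWeierstrassP.deriv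
  have hB : AnalyticOnNhd ℂ (fun z => 6 * ℘[L] z ^ 2 - L.g₂ / 2) (L.lattice : Set ℂ)ᶜ := by
    intro w hw
    have := L.analyticOnNhd_weierstrassP w hw
    fun_prop
  have hfreq : ∀ᶠ w in 𝓝[≠] z, ℘'[L] w ≠ 0 := by
    refine ((L.analyticOnNhd_derivWeierstrassP z hz).eventually_eq_or_eventually_ne
      analyticAt_const).resolve_left fun h => ?_
    have hd : deriv ℘[L] =ᶠ[𝓝 z] fun _ => 0 := by rw [L.deriv_weierstrassP]; exact h
    obtain ⟨U, hU, hUo, hzU⟩ := eventually_nhds_iff.mp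
      (hd.and (L.isClosed_lattice.isOpen_compl.mem_nhds hz))
    obtain ⟨ε, hε, hεU⟩ := Metric.isOpen_iff.mp hUo z hzU
    have hconst : ∀ w ∈ Metric.ball z ε, ℘[L] w = ℘[L] z := fun w hw =>
      IsOpen.is_const_of_deriv_eq_zero Metric.isOpen_ball (convex_ball z ε).isPreconnected
        (fun x hx => ((L.analyticOnNhd_weierstrassP x (hU x (hεU hx)).2).differentiableAt
          ).differentiableWithinAt)
        (fun x hx => (hU x (hεU hx)).1) hw (Metric.mem_ball_self hε)
    obtain ⟨w, hw1, hw2⟩ := ((eventually_ne_const L z hz (℘[L] z)).and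
      (nhdsWithin_le_nhds (Metric.ball_mem_nhds z hε))).exists
    exact hw1 (hconst w hw2)
  refine hA.eqOn_of_preconnected_of_frequently_eq hB (isPreconnected_compl_lattice L) hz ?_ hz
  exact ((hfreq.and (eventually_notMem L z)).mono fun w hw => hne w hw.2 hw.1).frequently

/-- Slope of the chord. -/
def chord (w z : ℂ) : ℂ := (℘'[L] z / 2 - ℘'[L] w / 2) / (℘[L] z - ℘[L] w)

/-- Abscissa of the chord sum. -/
def chordX (w z : ℂ) : ℂ := chord L w z ^ 2 - ℘[L] z - ℘[L] w

/-- Ordinate of the chord sum. -/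
def chordY (w z : ℂ) : ℂ := -(chord L w z * (chordX L w z - ℘[L] z) + ℘'[L] z / 2)

/-- The chord sum satisfies the differential equations of `(℘, ℘'/2)`. -/
theorem hasDerivAt_chord {w z : ℂ} (hw : w ∉ L.lattice) (hz : z ∉ L.lattice)
    (hne : ℘[L] z ≠ ℘[L] w) :
    HasDerivAt (chordX L w) (2 * chordY L w z) z ∧
      HasDerivAt (chordY L w) (3 * chordX L w z ^ 2 - L.g₂ / 4) z := by
  have hd : ℘[L] z - ℘[L] w ≠ 0 := sub_ne_zero.mpr hne
  have hx := hasDerivAt_weierstrassP L hz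
  have hy : HasDerivAt (fun z => ℘'[L] z / 2) (3 * ℘[L] z ^ 2 - L.g₂ / 4) z := by
    have := ((L.analyticOnNhd_derivWeierstrassP z hz).differentiableAt.hasDerivAt).div_const 2
    rw [deriv_derivWeierstrassP_eq L hz] at this
    exact this.congr_deriv (by ring)
  have e₁ := equation_lattice L hz
  have e₂ := equation_lattice L hw
  rw [equation_iff] at e₁ e₂
  simp only [latticeCurve, zero_mul, add_zero] at e₁ e₂
  have hl : HasDerivAt (chord L w) (℘[L] z - chordX L w z) z := by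
    have := ((hy.sub_const (℘'[L] w / 2)).fun_div (hx.sub_const (℘[L] w)) hd)
    refine HasDerivAt.congr_deriv this ?_
    have hc : chord L w z * (℘[L] z - ℘[L] w) = ℘'[L] z / 2 - ℘'[L] w / 2 := by
      rw [chord, div_mul_cancel₀ _ hd]
    rw [div_eq_iff (pow_ne_zero 2 hd), chordX]
    linear_combination -(e₁ - e₂) +
      (chord L w z * (℘[L] z - ℘[L] w) + (℘'[L] z / 2 - ℘'[L] w / 2)) * hc
  have hX : HasDerivAt (chordX L w) (2 * chordY L w z) z := by
    have := (((hl.fun_pow 2).fun_sub hx).sub_const (℘[L] w))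
    refine HasDerivAt.congr_deriv this ?_
    simp only [chordY]
    push_cast
    ring
  refine ⟨hX, ?_⟩
  have := ((hl.fun_mul (hX.fun_sub hx)).fun_add hy).fun_neg
  refine HasDerivAt.congr_deriv this ?_
  simp only [chordY]
  have hS : chord L w z * (℘'[L] z / 2 + ℘'[L] w / 2) =
      ℘[L] z ^ 2 + ℘[L] z * ℘[L] w + ℘[L] w ^ 2 - L.g₂ / 4 := by
    rw [chord, div_mul_eq_mul_div, div_eq_iff hd]
    linear_combination e₁ - e₂
  have hXd : chordX L w z * (℘[L] z - ℘[L] w) =
      chord L w z * (℘'[L] z / 2 - ℘'[L] w / 2) - ℘[L] z ^ 2 + ℘[L] w ^ 2 := by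
    have hc : chord L w z * (℘[L] z - ℘[L] w) = ℘'[L] z / 2 - ℘'[L] w / 2 := by
      rw [chord, div_mul_cancel₀ _ hd]
    rw [chordX]
    linear_combination chord L w z * hc
  have hX2 : chord L w z ^ 2 = chordX L w z + ℘[L] z + ℘[L] w := by rw [chordX]; ring
  linear_combination (2 : ℂ) * hS - 2 * hXd + (2 * (chordX L w z - ℘[L] z)) * hX2

/-- The regular part of `℘` at the origin. -/
def regPart (z : ℂ) : ℂ := L.weierstrassPExcept 0 z

theorem analyticAt_regPart : AnalyticAt ℂ (regPart L) 0 := L.analyticAt_weierstrassPExcept 0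

theorem weierstrassP_eq_regPart (z : ℂ) : ℘[L] z = regPart L z + (z ^ 2)⁻¹ := by
  simp [show regPart L z = _ from L.weierstrassPExcept_def ⟨0, zero_mem _⟩ z]

theorem regPart_zero : regPart L 0 = 0 := by
  simp [show regPart L 0 = _ from L.weierstrassPExcept_def ⟨0, zero_mem _⟩ 0]

theorem deriv_regPart_zero : deriv (regPart L) 0 = 0 := by
  have := L.iteratedDeriv_weierstrassPExcept_self 0 (n := 1)
  rw [iteratedDeriv_one] at this
  unfold regPart
  rw [this]
  simp [L.G_eq_zero_of_odd 3 (by decide)]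

theorem eventually_deriv_eq :
    ∀ᶠ z in 𝓝[≠] (0 : ℂ), ℘'[L] z = deriv (regPart L) z - 2 * (z ^ 3)⁻¹ := by
  filter_upwards [nhdsWithin_le_nhds (analyticAt_regPart L).eventually_analyticAt,
    self_mem_nhdsWithin] with z hz hne
  rw [← L.deriv_weierstrassP]
  have hz0 : z ≠ 0 := hne
  have hf : L.weierstrassP = fun w => regPart L w + (w ^ 2)⁻¹ :=
    funext (weierstrassP_eq_regPart L)
  have hz2 : HasDerivAt (fun w : ℂ => (w ^ 2)⁻¹) (-(2 * z) / (z ^ 2) ^ 2) z := by
    simpa using (hasDerivAt_pow 2 z).fun_inv (pow_ne_zero 2 hz0)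
  rw [hf, (hz.differentiableAt.hasDerivAt.fun_add hz2).deriv, sub_eq_add_neg]
  congr 1
  field_simp

/-- The chord sum, extended analytically to the origin. -/
def chordExt (w z : ℂ) : ℂ :=
  (-2 * (deriv (regPart L) z / 2 - ℘'[L] w / 2) * z +
      (deriv (regPart L) z / 2 - ℘'[L] w / 2) ^ 2 * z ^ 4 - 2 * (regPart L z - ℘[L] w) -
      (regPart L z - ℘[L] w) ^ 2 * z ^ 2) / (1 + z ^ 2 * (regPart L z - ℘[L] w)) ^ 2 -
    regPart L z - ℘[L] w

theorem analyticAt_chordExt (w : ℂ) : AnalyticAt ℂ (chordExt L w) 0 := by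
  have := analyticAt_regPart L
  have := (analyticAt_regPart L).deriv
  unfold chordExt
  fun_prop (disch := simp)

theorem eventually_chordExt_eq (w : ℂ) : ∀ᶠ z in 𝓝[≠] (0 : ℂ), chordX L w z = chordExt L w z ∧
    ℘[L] z ≠ ℘[L] w ∧ z ∉ L.lattice := by
  have hb : ∀ᶠ z in 𝓝[≠] (0 : ℂ), 1 + z ^ 2 * (regPart L z - ℘[L] w) ≠ 0 := by
    refine nhdsWithin_le_nhds (ContinuousAt.eventually_ne ?_ (by simp))
    have := (analyticAt_regPart L).continuousAt
    fun_prop
  filter_upwards [hb, eventually_deriv_eq L, self_mem_nhdsWithin, eventually_notMem L 0]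
    with z h1 h2 h3 h4
  have hz0 : z ≠ 0 := h3
  have hd : ℘[L] z - ℘[L] w = (1 + z ^ 2 * (regPart L z - ℘[L] w)) / z ^ 2 := by
    rw [weierstrassP_eq_regPart L z]; field_simp; ring
  refine ⟨?_, sub_ne_zero.mp (hd ▸ div_ne_zero h1 (pow_ne_zero 2 hz0)), h4⟩
  rw [chordX, chord, hd, h2, chordExt, weierstrassP_eq_regPart L z]
  field_simp
  ring

theorem chordExt_zero (w : ℂ) : chordExt L w 0 = ℘[L] w := by
  simp only [chordExt, regPart_zero]; ring

theorem deriv_chordExt_zero (w : ℂ) : deriv (chordExt L w) 0 = ℘'[L] w := by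
  have hr := (analyticAt_regPart L).differentiableAt.hasDerivAt
  have hr' := (analyticAt_regPart L).deriv.differentiableAt.hasDerivAt
  have ha := (hr'.div_const 2).sub_const (℘'[L] w / 2)
  have hb := hr.sub_const (℘[L] w)
  have hid := hasDerivAt_id (0 : ℂ)
  have hnum := ((((ha.const_mul (-2)).fun_mul hid).fun_add
    ((ha.fun_pow 2).fun_mul (hid.fun_pow 4))).fun_sub (hb.const_mul 2)).fun_sub
    ((hb.fun_pow 2).fun_mul (hid.fun_pow 2))
  have hden := ((((hid.fun_pow 2).fun_mul hb).const_add 1).fun_pow 2)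
  have h := ((hnum.fun_div hden (by simp)).fun_sub hr).sub_const (℘[L] w)
  have : chordExt L w = fun y => _ := funext fun y => rfl
  rw [show deriv (chordExt L w) 0 = _ from h.deriv]
  simp [deriv_regPart_zero, regPart_zero]
  ring

theorem eq_of_ode {g : ℂ} {f₁ f₂ : ℂ → ℂ} (h₁ : AnalyticAt ℂ f₁ 0) (h₂ : AnalyticAt ℂ f₂ 0)
    (e₁ : ∀ᶠ z in 𝓝[≠] (0 : ℂ), deriv (deriv f₁) z = 6 * f₁ z ^ 2 - g)
    (e₂ : ∀ᶠ z in 𝓝[≠] (0 : ℂ), deriv (deriv f₂) z = 6 * f₂ z ^ 2 - g)
    (i₀ : f₁ 0 = f₂ 0) (i₁ : deriv f₁ 0 = deriv f₂ 0) : f₁ =ᶠ[𝓝 0] f₂ := by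
  by_contra hne
  set d : ℂ → ℂ := fun z => f₁ z - f₂ z with hd
  have hda : AnalyticAt ℂ d 0 := h₁.sub h₂
  obtain ⟨n, h, hh, hh0, hnh⟩ := hda.exists_eventuallyEq_pow_smul_nonzero_iff.mpr
    (fun hc => hne (hc.mono fun z hz => sub_eq_zero.mp hz))
  simp only [sub_zero, smul_eq_mul] at hnh
  have hh' : ∀ᶠ z in 𝓝 (0 : ℂ), AnalyticAt ℂ h z := hh.eventually_analyticAt
  have hd' : deriv d =ᶠ[𝓝 0] fun z => (n : ℂ) * z ^ (n - 1) * h z + z ^ n * deriv h z := by
    filter_upwards [hnh.eventually_nhds, hh'] with z hz hhz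
    rw [Filter.EventuallyEq.deriv_eq hz,
      ((hasDerivAt_pow n z).fun_mul hhz.differentiableAt.hasDerivAt).deriv]
  -- the first derivative vanishes at 0, so `n ≥ 2`
  have hn2 : 2 ≤ n := by
    rcases n with _ | _ | n
    · have := hnh.self_of_nhds
      simp [hd, i₀] at this
      exact absurd this.symm hh0
    · have := hd'.self_of_nhds
      have e : deriv d 0 = 0 := by
        rw [hd, deriv_fun_sub h₁.differentiableAt h₂.differentiableAt, i₁, sub_self]
      simp [e] at this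
      exact absurd this.symm hh0
    · omega
  obtain ⟨m, rfl⟩ : ∃ m, n = m + 2 := ⟨n - 2, by omega⟩
  have hdd : deriv (deriv d) =ᶠ[𝓝 0] fun z => z ^ m * (((m : ℂ) + 2) * ((m : ℂ) + 1) * h z +
      2 * ((m : ℂ) + 2) * z * deriv h z + z ^ 2 * deriv (deriv h) z) := by
    filter_upwards [hd'.eventually_nhds, hh'] with z hz hhz
    rw [Filter.EventuallyEq.deriv_eq hz]
    have hh1 := hhz.differentiableAt.hasDerivAt
    have hh2 := hhz.deriv.differentiableAt.hasDerivAt
    have := (((hasDerivAt_pow (m + 1) z).const_mul ((m : ℂ) + 2)).fun_mul hh1).fun_add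
      ((hasDerivAt_pow (m + 2) z).fun_mul hh2)
    simp only [show m + 2 - 1 = m + 1 by omega, Nat.cast_add, Nat.cast_ofNat, add_tsub_cancel_right,
      Nat.cast_one] at this ⊢
    rw [this.deriv]
    ring
  let lhs : ℂ → ℂ := fun z => ((m : ℂ) + 2) * ((m : ℂ) + 1) * h z +
      2 * ((m : ℂ) + 2) * z * deriv h z + z ^ 2 * deriv (deriv h) z
  let rhs : ℂ → ℂ := fun z => 6 * (f₁ z + f₂ z) * (z ^ 2 * h z)
  have key : ∀ᶠ z in 𝓝[≠] (0 : ℂ), lhs z = rhs z := by
    filter_upwards [nhdsWithin_le_nhds hdd, nhdsWithin_le_nhds hnh, e₁, e₂, self_mem_nhdsWithin,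
      nhdsWithin_le_nhds h₁.eventually_analyticAt.eventually_nhds,
      nhdsWithin_le_nhds h₂.eventually_analyticAt.eventually_nhds] with z a1 a2 a3 a4 a5 a6 a7
    have hsub : deriv d =ᶠ[𝓝 z] fun y => deriv f₁ y - deriv f₂ y := by
      filter_upwards [a6, a7] with y b6 b7
      rw [hd, deriv_fun_sub b6.differentiableAt b7.differentiableAt]
    rw [hsub.deriv_eq, deriv_fun_sub a6.self_of_nhds.deriv.differentiableAt
      a7.self_of_nhds.deriv.differentiableAt, a3, a4] at a1
    have hz0 : z ≠ 0 := a5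
    refine mul_left_cancel₀ (pow_ne_zero m hz0) ?_
    simp only [lhs, rhs, hd] at a2 ⊢
    linear_combination -a1 + 6 * (f₁ z + f₂ z) * a2
  have c1 : ContinuousAt lhs 0 := by
    have := hh.continuousAt
    have := hh.deriv.continuousAt
    have := hh.deriv.deriv.continuousAt
    fun_prop
  have c2 : ContinuousAt rhs 0 := by
    have := hh.continuousAt
    have := h₁.continuousAt
    have := h₂.continuousAt
    fun_prop
  have := tendsto_nhds_unique ((c1.tendsto.mono_left nhdsWithin_le_nhds).congr' key)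
    (c2.tendsto.mono_left nhdsWithin_le_nhds)
  simp only [lhs, rhs, mul_zero, zero_mul, zero_pow two_ne_zero, add_zero, mul_eq_zero] at this
  rcases this with (h' | h') | h'
  · exact absurd (show ((m + 2 : ℕ) : ℂ) = 0 by push_cast; exact h') (Nat.cast_ne_zero.mpr (by omega))
  · exact absurd (show ((m + 1 : ℕ) : ℂ) = 0 by push_cast; exact h') (Nat.cast_ne_zero.mpr (by omega))
  · exact hh0 h'

theorem eventually_deriv_weierstrassP_add {w : ℂ} (hw : w ∉ L.lattice) :
    ∀ᶠ z in 𝓝 (0 : ℂ), deriv (fun z => ℘[L] (z + w)) z = ℘'[L] (z + w) := by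
  have : ∀ᶠ z in 𝓝 (0 : ℂ), z + w ∉ L.lattice :=
    (continuous_id.add continuous_const).continuousAt.eventually_mem
      (L.isClosed_lattice.isOpen_compl.mem_nhds (show (0 : ℂ) + w ∉ L.lattice by simpa using hw))
  filter_upwards [this] with z hz
  exact ((hasDerivAt_weierstrassP L hz).comp_add_const z w).deriv

/-- The addition theorem in cleared form near the origin. -/
theorem eventually_chordX_eq {w : ℂ} (hw : w ∉ L.lattice) :
    ∀ᶠ z in 𝓝[≠] (0 : ℂ), ℘[L] (z + w) = chordX L w z ∧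
      ℘'[L] (z + w) = 2 * chordY L w z ∧ ℘[L] z ≠ ℘[L] w ∧ z ∉ L.lattice := by
  have h₁ : AnalyticAt ℂ (fun z => ℘[L] (z + w)) 0 := by
    have := L.analyticOnNhd_weierstrassP w hw
    exact AnalyticAt.fun_comp (by simpa using this) (by fun_prop)
  have hd := eventually_deriv_weierstrassP_add L hw
  have hX : ∀ᶠ z in 𝓝[≠] (0 : ℂ),
      HasDerivAt (chordExt L w) (2 * chordY L w z) z ∧
      deriv (deriv (chordExt L w)) z = 6 * chordExt L w z ^ 2 - L.g₂ / 2 := by
    have he := eventually_chordExt_eq L w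
    filter_upwards [eventually_eventually_nhdsWithin.mpr he, self_mem_nhdsWithin] with z hz hne
    have hne0 : z ≠ 0 := hne
    rw [nhdsWithin_eq_nhds.mpr (isOpen_compl_singleton.mem_nhds hne0)] at hz
    have hder : ∀ᶠ y in 𝓝 z, HasDerivAt (chordExt L w) (2 * chordY L w y) y := by
      filter_upwards [hz.eventually_nhds] with y hy
      exact (hasDerivAt_chord L hw hy.self_of_nhds.2.2 hy.self_of_nhds.2.1).1.congr_of_eventuallyEq
        (hy.mono fun t ht => ht.1.symm)
    refine ⟨hder.self_of_nhds, ?_⟩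
    have hd2 : deriv (chordExt L w) =ᶠ[𝓝 z] fun y => 2 * chordY L w y :=
      hder.mono fun y hy => hy.deriv
    rw [hd2.deriv_eq, (((hasDerivAt_chord L hw hz.self_of_nhds.2.2
      hz.self_of_nhds.2.1).2).const_mul 2).deriv, hz.self_of_nhds.1]
    ring
  have hE₁ : ∀ᶠ z in 𝓝[≠] (0 : ℂ), deriv (deriv fun z => ℘[L] (z + w)) z =
      6 * ℘[L] (z + w) ^ 2 - L.g₂ / 2 := by
    refine nhdsWithin_le_nhds ?_
    have hnm : ∀ᶠ z in 𝓝 (0 : ℂ), z + w ∉ L.lattice :=
      (continuous_id.add continuous_const).continuousAt.eventually_mem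
        (L.isClosed_lattice.isOpen_compl.mem_nhds (show (0 : ℂ) + w ∉ L.lattice by simpa using hw))
    filter_upwards [hd.eventually_nhds, hnm] with z hz hzw
    rw [Filter.EventuallyEq.deriv_eq hz, deriv_comp_add_const, deriv_derivWeierstrassP_eq L hzw]
  have heq := eq_of_ode h₁ (analyticAt_chordExt L w) hE₁ (hX.mono fun z hz => hz.2)
    (by simp [chordExt_zero]) (by
      rw [hd.self_of_nhds, deriv_chordExt_zero, zero_add])
  filter_upwards [nhdsWithin_le_nhds heq.eventually_nhds, eventually_chordExt_eq L w, hX,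
    nhdsWithin_le_nhds hd] with z a1 a2 a3 a4
  refine ⟨a1.self_of_nhds.trans a2.1.symm, ?_, a2.2⟩
  rw [← a4, Filter.EventuallyEq.deriv_eq a1, a3.1.deriv]

theorem exists_notMem_of_countable {s : Set ℂ} (hs : s.Countable) : ∃ w, w ∉ s :=
  not_forall.mp fun h => not_countable_complex (hs.mono fun w _ => h w)

theorem countable_lattice : (L.lattice : Set ℂ).Countable :=
  countable_of_Lindelof_of_discrete (X := L.lattice)

theorem countable_preimage_lattice (f : ℂ → ℂ) (hf : Function.Injective f) :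
    {z | f z ∈ L.lattice}.Countable :=
  (countable_lattice L).preimage hf

/-- The addition theorem. -/
theorem addition_cleared {w : ℂ} (hw : w ∉ L.lattice) {z : ℂ} (hz : z ∉ L.lattice)
    (hzw : z + w ∉ L.lattice) :
    (℘[L] (z + w) + ℘[L] z + ℘[L] w) * (℘[L] z - ℘[L] w) ^ 2 -
        (℘'[L] z / 2 - ℘'[L] w / 2) ^ 2 = 0 ∧
      ℘'[L] (z + w) / 2 * (℘[L] z - ℘[L] w) +
        (℘'[L] z / 2 - ℘'[L] w / 2) * (℘[L] (z + w) - ℘[L] z) +
        ℘'[L] z / 2 * (℘[L] z - ℘[L] w) = 0 := by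
  set V : Set ℂ := ((L.lattice : Set ℂ) ∪ {z | z + w ∈ L.lattice})ᶜ with hV
  have hVc : IsPreconnected V :=
    (((countable_lattice L).union (countable_preimage_lattice L (· + w) (add_left_injective w))
      ).isConnected_compl_of_one_lt_rank (by simp)).2
  have hVo : IsOpen V := by
    rw [hV, Set.compl_union]
    exact L.isClosed_lattice.isOpen_compl.inter
      ((L.isClosed_lattice.preimage (continuous_id.add continuous_const)).isOpen_compl)
  have hmem : ∀ y, y ∈ V ↔ y ∉ L.lattice ∧ y + w ∉ L.lattice := fun y => by simp [hV]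
  have hzV : z ∈ V := (hmem z).mpr ⟨hz, hzw⟩
  have hAn : ∀ y ∈ V, AnalyticAt ℂ ℘[L] y ∧ AnalyticAt ℂ ℘'[L] y ∧
      AnalyticAt ℂ (fun t => ℘[L] (t + w)) y ∧ AnalyticAt ℂ (fun t => ℘'[L] (t + w)) y := by
    intro y hy
    rw [hmem] at hy
    exact ⟨L.analyticOnNhd_weierstrassP y hy.1, L.analyticOnNhd_derivWeierstrassP y hy.1,
      AnalyticAt.fun_comp (L.analyticOnNhd_weierstrassP _ hy.2) (by fun_prop),
      AnalyticAt.fun_comp (L.analyticOnNhd_derivWeierstrassP _ hy.2) (by fun_prop)⟩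
  have hnear : ∀ᶠ y in 𝓝[≠] (0 : ℂ), y + w ∉ L.lattice := by
    refine nhdsWithin_le_nhds ((continuous_id.add continuous_const).continuousAt.eventually_mem
      (L.isClosed_lattice.isOpen_compl.mem_nhds (show (0 : ℂ) + w ∉ L.lattice by simpa using hw)))
  obtain ⟨U, hUo, hyU, hU⟩ : ∃ U, IsOpen U ∧ (∃ y, y ∈ U ∧ y ∈ V) ∧ ∀ y ∈ U, y ∈ V ∧
      ℘[L] (y + w) = chordX L w y ∧ ℘'[L] (y + w) = 2 * chordY L w y ∧ ℘[L] y ≠ ℘[L] w := by
    obtain ⟨U, hU0, hUo, h0⟩ := eventually_nhds_iff.mp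
      (eventually_nhdsWithin_iff.mp ((eventually_chordX_eq L hw).and hnear))
    refine ⟨U \ {0}, hUo.sdiff isClosed_singleton, ?_, fun y hy => ?_⟩
    · obtain ⟨y, hy1, hy2⟩ := Filter.nonempty_of_mem (f := 𝓝[≠] (0 : ℂ))
        (Filter.inter_mem self_mem_nhdsWithin (nhdsWithin_le_nhds (hUo.mem_nhds h0)))
      have := hU0 y hy2 hy1
      exact ⟨y, ⟨hy2, hy1⟩, (hmem y).mpr ⟨this.1.2.2.2, this.2⟩⟩
    · have := hU0 y hy.1 hy.2
      exact ⟨(hmem y).mpr ⟨this.1.2.2.2, this.2⟩, this.1.1, this.1.2.1, this.1.2.2.1⟩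
  obtain ⟨y, hy, hyV⟩ := hyU
  have hUn : U ∈ 𝓝 y := hUo.mem_nhds hy
  constructor
  · refine AnalyticOnNhd.eqOn_zero_of_preconnected_of_eventuallyEq_zero (𝕜 := ℂ) (f := fun z : ℂ =>
      (℘[L] (z + w) + ℘[L] z + ℘[L] w) * (℘[L] z - ℘[L] w) ^ 2 -
        (℘'[L] z / 2 - ℘'[L] w / 2) ^ 2) (fun t ht => ?_) hVc hyV ?_ hzV
    · obtain ⟨b1, b2, b3, b4⟩ := hAn t ht
      fun_prop
    · filter_upwards [hUn] with t ht
      obtain ⟨-, e1, -, e3⟩ := hU t ht
      have hd : ℘[L] t - ℘[L] w ≠ 0 := sub_ne_zero.mpr e3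
      simp only [Pi.zero_apply, e1, chordX, chord]
      field_simp
      ring
  · refine AnalyticOnNhd.eqOn_zero_of_preconnected_of_eventuallyEq_zero (𝕜 := ℂ) (f := fun z : ℂ =>
      ℘'[L] (z + w) / 2 * (℘[L] z - ℘[L] w) +
        (℘'[L] z / 2 - ℘'[L] w / 2) * (℘[L] (z + w) - ℘[L] z) +
        ℘'[L] z / 2 * (℘[L] z - ℘[L] w)) (fun t ht => ?_) hVc hyV ?_ hzV
    · obtain ⟨b1, b2, b3, b4⟩ := hAn t ht
      fun_prop
    · filter_upwards [hUn] with t ht
      obtain ⟨-, e1, e2, e3⟩ := hU t ht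
      have hd : ℘[L] t - ℘[L] w ≠ 0 := sub_ne_zero.mpr e3
      have hc : chord L w t * (℘[L] t - ℘[L] w) = ℘'[L] t / 2 - ℘'[L] w / 2 := by
        rw [chord, div_mul_cancel₀ _ hd]
      simp only [Pi.zero_apply, e1, e2, chordY]
      linear_combination -(chordX L w t - ℘[L] t) * hc

section Point

variable (hΔ : (latticeCurve L).Δ ≠ 0)

open Classical in
/-- The point attached to a complex number. -/
def latPoint (z : ℂ) : (latticeCurve L).Point :=
  if h : z ∈ L.lattice then 0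
  else .some _ _ ((equation_iff_nonsingular_of_Δ_ne_zero hΔ).mp (equation_lattice L h))

theorem latPoint_of_mem {z : ℂ} (h : z ∈ L.lattice) : latPoint L hΔ z = 0 := dif_pos h

theorem latPoint_of_notMem {z : ℂ} (h : z ∉ L.lattice) :
    latPoint L hΔ z = .some _ _ ((equation_iff_nonsingular_of_Δ_ne_zero hΔ).mp
      (equation_lattice L h)) := dif_neg h

theorem latPoint_add_mem {z l : ℂ} (hl : l ∈ L.lattice) :
    latPoint L hΔ (z + l) = latPoint L hΔ z := by
  by_cases hz : z ∈ L.lattice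
  · rw [latPoint_of_mem L hΔ hz, latPoint_of_mem L hΔ (add_mem hz hl)]
  · have hzl : z + l ∉ L.lattice := fun h => hz (by simpa using sub_mem h hl)
    rw [latPoint_of_notMem L hΔ hz, latPoint_of_notMem L hΔ hzl]
    congr 1
    · exact L.weierstrassP_add_coe z ⟨l, hl⟩
    · rw [L.derivWeierstrassP_add_coe z ⟨l, hl⟩]

theorem latPoint_neg (z : ℂ) : latPoint L hΔ (-z) = -latPoint L hΔ z := by
  by_cases hz : z ∈ L.lattice
  · rw [latPoint_of_mem L hΔ hz, latPoint_of_mem L hΔ (neg_mem hz), neg_zero]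
  · rw [latPoint_of_notMem L hΔ hz, latPoint_of_notMem L hΔ (fun h => hz (by simpa using neg_mem h)),
      Point.neg_some]
    congr 1
    · exact L.weierstrassP_neg z
    · simp [negY, latticeCurve, L.derivWeierstrassP_neg, neg_div]

theorem latPoint_add_generic {z w : ℂ} (hz : z ∉ L.lattice) (hw : w ∉ L.lattice)
    (hzw : z + w ∉ L.lattice) (hne : ℘[L] z ≠ ℘[L] w) :
    latPoint L hΔ z + latPoint L hΔ w = latPoint L hΔ (z + w) := by
  rw [latPoint_of_notMem L hΔ hz, latPoint_of_notMem L hΔ hw, latPoint_of_notMem L hΔ hzw,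
    Point.add_of_X_ne hne]
  obtain ⟨h1, h2⟩ := addition_cleared L hw hz hzw
  have hd : ℘[L] z - ℘[L] w ≠ 0 := sub_ne_zero.mpr hne
  have eX : (latticeCurve L).addX (℘[L] z) (℘[L] w)
      ((latticeCurve L).slope (℘[L] z) (℘[L] w) (℘'[L] z / 2) (℘'[L] w / 2)) = ℘[L] (z + w) := by
    rw [slope_of_X_ne hne]
    simp only [addX, latticeCurve]
    refine mul_right_cancel₀ (pow_ne_zero 2 hd) ?_
    field_simp at h1 ⊢
    linear_combination -h1
  congr 1
  rw [addY, negAddY, eX, slope_of_X_ne hne]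
  simp only [negY, latticeCurve, zero_mul, sub_zero]
  refine mul_right_cancel₀ hd ?_
  rw [neg_mul, add_mul, mul_right_comm, div_mul_cancel₀ _ hd]
  linear_combination -h2

theorem sub_mem_of_eq {a b : ℂ} (ha : a ∉ L.lattice) (hb : b ∉ L.lattice)
    (h : ℘[L] a = ℘[L] b) (h' : ℘'[L] a = ℘'[L] b) (hΔ : (latticeCurve L).Δ ≠ 0) :
    a - b ∈ L.lattice := by
  by_contra hab
  -- `℘ (a + w) = ℘ (b + w)` for `w` near `-a`
  have hbw : b + -a ∉ L.lattice := fun hm => hab (by simpa [sub_eq_add_neg] using neg_mem hm)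
  have hev : ∀ᶠ w in 𝓝[≠] (-a), ℘[L] (a + w) = ℘[L] (b + w) := by
    have h1 := eventually_notMem L (-a)
    have h2 : ∀ᶠ w in 𝓝[≠] (-a), b + w ∉ L.lattice := nhdsWithin_le_nhds
      ((continuous_const.add continuous_id).continuousAt.eventually_mem
        (L.isClosed_lattice.isOpen_compl.mem_nhds hbw))
    have h3 : ∀ᶠ w in 𝓝[≠] (-a), a + w ∉ L.lattice := by
      have : Filter.Tendsto (fun w => a + w) (𝓝[≠] (-a)) (𝓝[≠] (0 : ℂ)) := by
        refine tendsto_nhdsWithin_iff.mpr ⟨?_, eventually_mem_nhdsWithin.mono fun w hw h0 => hw ?_⟩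
        · have := (continuous_const_add a).tendsto (-a)
          rw [add_neg_cancel] at this
          exact this.mono_left nhdsWithin_le_nhds
        · exact eq_neg_of_add_eq_zero_right h0
      exact this.eventually (eventually_notMem L 0)
    have h4 := eventually_ne_const L (-a) (fun hm => ha (by simpa using neg_mem hm)) (℘[L] a)
    filter_upwards [h1, h2, h3, h4] with w w1 w2 w3 w4
    have e1 := latPoint_add_generic L hΔ ha w1 w3 (Ne.symm w4)
    have e2 := latPoint_add_generic L hΔ hb w1 w2 (h ▸ Ne.symm w4)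
    have e : latPoint L hΔ (a + w) = latPoint L hΔ (b + w) := by
      rw [← e1, ← e2, latPoint_of_notMem L hΔ ha, latPoint_of_notMem L hΔ hb]
      simp only [h, h']
    rw [latPoint_of_notMem L hΔ w3, latPoint_of_notMem L hΔ w2] at e
    injection e
  have hev' : L.weierstrassP =ᶠ[𝓝[≠] (0 : ℂ)] fun t => ℘[L] (t + (b - a)) := by
    have : Filter.Tendsto (fun t => t + -a) (𝓝[≠] (0 : ℂ)) (𝓝[≠] (-a)) := by
      refine tendsto_nhdsWithin_iff.mpr ⟨?_, eventually_mem_nhdsWithin.mono fun t ht h0 => ht ?_⟩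
      · have := (continuous_add_const (-a)).tendsto (0 : ℂ)
        rw [zero_add] at this
        exact this.mono_left nhdsWithin_le_nhds
      · simpa using h0
    filter_upwards [this.eventually hev] with t ht
    simpa [show b + (t + -a) = t + (b - a) by ring] using ht
  have h2 := L.order_weierstrassP 0 (zero_mem _)
  rw [meromorphicOrderAt_congr hev'] at h2
  have h3 : AnalyticAt ℂ (fun t => ℘[L] (t + (b - a))) 0 :=
    AnalyticAt.fun_comp (L.analyticOnNhd_weierstrassP _ (by simpa [sub_eq_add_neg] using hbw))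
      (by fun_prop)
  have h4 := h3.meromorphicOrderAt_nonneg
  rw [h2] at h4
  exact absurd h4 (by decide)

theorem weierstrassP_eq_iff {a b : ℂ} (ha : a ∉ L.lattice) (hb : b ∉ L.lattice)
    (hΔ : (latticeCurve L).Δ ≠ 0) :
    ℘[L] a = ℘[L] b ↔ a - b ∈ L.lattice ∨ a + b ∈ L.lattice := by
  constructor
  · intro h
    have hb' : -b ∉ L.lattice := fun hm => hb (by simpa using neg_mem hm)
    have : ℘'[L] a ^ 2 = ℘'[L] b ^ 2 := by
      rw [L.derivWeierstrassP_sq a ha, L.derivWeierstrassP_sq b hb, h]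
    rcases sq_eq_sq_iff_eq_or_eq_neg.mp this with h' | h'
    · exact Or.inl (sub_mem_of_eq L ha hb h h' hΔ)
    · right
      simpa using sub_mem_of_eq L ha hb' (by rw [L.weierstrassP_neg, h])
        (by rw [L.derivWeierstrassP_neg, h']) hΔ
  · rintro (h | h)
    · simpa using L.weierstrassP_add_coe b ⟨a - b, h⟩
    · rw [← L.weierstrassP_neg b, ← L.weierstrassP_add_coe (-b) ⟨a + b, h⟩]
      simp

/-- The uniformisation homomorphism. -/
theorem latPoint_add (a b : ℂ) :
    latPoint L hΔ (a + b) = latPoint L hΔ a + latPoint L hΔ b := by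
  by_cases ha : a ∈ L.lattice
  · rw [add_comm a b, latPoint_add_mem L hΔ ha, latPoint_of_mem L hΔ ha, zero_add]
  by_cases hb : b ∈ L.lattice
  · rw [latPoint_add_mem L hΔ hb, latPoint_of_mem L hΔ hb, add_zero]
  by_cases hab : a + b ∈ L.lattice
  · rw [latPoint_of_mem L hΔ hab,
      show latPoint L hΔ b = latPoint L hΔ (-a) by
        rw [← latPoint_add_mem L hΔ (z := -a) hab]; ring_nf,
      latPoint_neg, add_neg_cancel]
  obtain ⟨w, hw⟩ := exists_notMem_of_countable
    ((((((countable_lattice L).union (countable_preimage_lattice L (a + ·) (add_right_injective a)))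
      ).union (countable_preimage_lattice L (a - ·) sub_right_injective)).union
      (countable_preimage_lattice L (b + ·) (add_right_injective b))).union
      (countable_preimage_lattice L (b - ·) sub_right_injective) |>.union
      (countable_preimage_lattice L (fun w => a - b + 2 * w)
        ((add_right_injective (a - b)).comp (mul_right_injective₀ two_ne_zero))))
  simp only [Set.mem_union, Set.mem_ofPred_eq, SetLike.mem_coe, not_or] at hw
  obtain ⟨⟨⟨⟨⟨w0, w1⟩, w2⟩, w3⟩, w4⟩, w5⟩ := hw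
  have w0' : -w ∉ L.lattice := fun h => w0 (by simpa using neg_mem h)
  have w4' : b + -w ∉ L.lattice := by rwa [← sub_eq_add_neg]
  have n1 : ℘[L] a ≠ ℘[L] w := fun h =>
    ((weierstrassP_eq_iff L ha w0 hΔ).mp h).elim w2 w1
  have n2 : ℘[L] b ≠ ℘[L] (-w) := fun h => by
    rw [L.weierstrassP_neg] at h
    exact ((weierstrassP_eq_iff L hb w0 hΔ).mp h).elim w4 w3
  have n3 : ℘[L] (a + w) ≠ ℘[L] (b + -w) := fun h =>
    ((weierstrassP_eq_iff L w1 w4' hΔ).mp h).elim
      (fun h => w5 (by convert h using 1; ring)) (fun h => hab (by convert h using 1; ring))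
  have e1 := latPoint_add_generic L hΔ ha w0 w1 n1
  have e2 := latPoint_add_generic L hΔ hb w0' w4' n2
  have e3 := latPoint_add_generic L hΔ w1 w4' (by rwa [show a + w + (b + -w) = a + b by ring]) n3
  rw [show a + w + (b + -w) = a + b by ring, ← e1, ← e2, latPoint_neg] at e3
  rw [← e3]
  abel

/-- The uniformisation homomorphism, bundled. -/
def latHom : ℂ →+ (latticeCurve L).Point :=
  AddMonoidHom.mk' (latPoint L hΔ) fun a b => latPoint_add L hΔ a b

theorem latHom_eq_zero_iff {z : ℂ} : latHom L hΔ z = 0 ↔ z ∈ L.lattice := by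
  refine ⟨fun h => ?_, latPoint_of_mem L hΔ⟩
  by_contra hz
  rw [latHom, AddMonoidHom.mk'_apply, latPoint_of_notMem L hΔ hz] at h
  exact Point.some_ne_zero _ h

end Point

end FLTAgent.Mazur
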