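import Fermat.Agent.Mazur.ModuliLattice
import Fermat.Agent.Mazur.ModuliNode

/-!
The values `(j τ, j (p τ))` at an algebraic point of multiplicative reduction: the point is
determined modulo `Γ₀(p)` by its values.
-/

set_option autoImplicit false

noncomputable section

open UpperHalfPlane CongruenceSubgroup Polynomial ModularCurve
open scoped MatrixGroups

namespace FLTAgent.Mazur

open ModularCosets FLTAgent.Modular

local notation "Qb" => AlgebraicClosure ℚ

variable {p : ℕ}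

theorem modVal_cosetOf [NeZero p] (γ : SL(2, ℤ)) (z : ℍ) :
    modVal p (cosetOf (N := p) γ) z = jH (triSmul p 0 1 (γ • z)) := by
  have h := congrFun (funEval_cosetOf (N := p) γ (MvPolynomial.X (topDiv p))) z
  simp only [funEval_apply, MvPolynomial.eval_X] at h
  exact h

theorem coeff_aeval_jq_natDegree (P : ℂ[X]) :
    (aeval (jqModC ℂ) P).coeff (-(P.natDegree : ℤ)) = P.leadingCoeff := by
  rw [aeval_eq_sum_range, HahnSeries.coeff_sum, Finset.sum_eq_single P.natDegree]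
  · rw [Algebra.smul_def, coeff_algebraMap_mul, coeff_jqModC_pow_self, mul_one]
    rfl
  · intro i hi hne
    rw [Algebra.smul_def, coeff_algebraMap_mul, coeff_jqModC_pow_of_lt ℂ, mul_zero]
    have := Finset.mem_range.mp hi
    omega
  · intro hd
    exact absurd (Finset.mem_range.mpr (Nat.lt_succ_self _)) hd

theorem coeff_jqModC_intCast (k : ℤ) : ∃ n : ℤ, (jqModC ℂ).coeff k = (n : ℂ) :=
  ⟨(jqModC ℤ).coeff k, by
    rw [show jqModC ℂ = coeffMap (Int.castRingHom ℂ) (jqModC ℤ) from (coeffMap_jqModC _).symm,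
      coeffMap_coeff, eq_intCast]⟩

/-- The series of `j (p γ τ)` at a multiple of `p`. -/
theorem jSer_coeff [Fact p.Prime] (c : CosetIdx p) (k : ℤ) :
    (c.a = 1 → (jSer p c.rep (topDiv p)).coeff ((p : ℤ) * k) = (jqModC ℂ).coeff ((p : ℤ) * k)) ∧
    (c.a = p → ((p : ℤ) ∣ k →
        (jSer p c.rep (topDiv p)).coeff ((p : ℤ) * k) = (jqModC ℂ).coeff (k / p)) ∧
      (¬(p : ℤ) ∣ k → (jSer p c.rep (topDiv p)).coeff ((p : ℤ) * k) = 0)) := by
  have hp : p.Prime := Fact.out
  have e : jSer p c.rep (topDiv p) = cuspExp (zetaU p) p c.a c.b c.D (jqModC ℂ) :=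
    jSer_eq p c.rep (topDiv p) ⟨c.repLeft, c.a, c.b, c.D, c.a_mul_D, c.b_lt, c.diag_mul_rep⟩
  have hζ : zetaU p ^ p = 1 := (zetaU_primitive p).pow_eq_one
  refine ⟨fun ha => ?_, fun ha => ?_⟩
  · have hD : c.D = p := by rw [c.D_def, ha, Nat.div_one]
    rw [e, cuspExp_apply, ha, hD, Nat.div_self hp.pos, Nat.mul_one, qScale_one, twist_coeff,
      Nat.cast_one, mul_one, ← zpow_mul, show (c.b : ℤ) * ((p : ℤ) * k) = (p : ℤ) * (c.b * k) by
        ring, zpow_mul, zpow_natCast, hζ, one_zpow, Units.val_one, one_mul]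
  · have hD : c.D = 1 := by rw [c.D_def, ha, Nat.div_self hp.pos]
    have hb : (c.b : ℤ) = 0 := by have := c.b_lt; omega
    have hm : p * (p / 1) ≠ 0 := by rw [Nat.div_one]; exact Nat.mul_ne_zero hp.ne_zero hp.ne_zero
    rw [e, cuspExp_apply, ha, hD, hb, zero_mul, zpow_zero, twist_one]
    refine ⟨fun ⟨i, hi⟩ => ?_, fun hk => ?_⟩
    · subst hi
      rw [Int.mul_ediv_cancel_left _ (by exact_mod_cast hp.ne_zero),
        show (p : ℤ) * ((p : ℤ) * i) = ((p * (p / 1) : ℕ) : ℤ) * i by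
          rw [Nat.div_one]; push_cast; ring, qScale_coeff_mul hm]
    · refine qScale_coeff_of_not_dvd hm _ fun ⟨i, hi⟩ => hk ⟨i, ?_⟩
      rw [Nat.div_one] at hi
      push_cast at hi
      exact mul_left_cancel₀ (show (p : ℤ) ≠ 0 by exact_mod_cast hp.ne_zero) (by linarith)

/-- The sum of the `p + 1` values is a monic integral polynomial of degree `p` in `j`. -/
theorem exists_sum_poly [Fact p.Prime] :
    ∃ P : ℤ[X], P.Monic ∧ P.natDegree = p ∧
      ∀ z : ℍ, (P.map (Int.castRingHom ℂ)).eval (jFun z) = ∑ c : CosetIdx p, modVal p c z := by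
  classical
  have hp : p.Prime := Fact.out
  set f : ℍ → ℂ := ∑ c : CosetIdx p, jFn p c.rep (topDiv p) with hf
  have hval : ∀ z, f z = ∑ c : CosetIdx p, modVal p c z := fun z => by
    rw [hf, Finset.sum_apply]; rfl
  set Y : LaurentSeries ℂ := ∑ c : CosetIdx p, jSer p c.rep (topDiv p) with hY
  have hmem : (f, Y) ∈ holPairs (p : ℝ) (nat_pos_real p) := by
    have h := (holPairs (p : ℝ) (nat_pos_real p)).sum_mem
      (t := Finset.univ) (f := fun c : CosetIdx p => (jFn p c.rep (topDiv p), jSer p c.rep (topDiv p)))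
      fun c _ => jPair_mem p c.rep (topDiv p)
    have e : (f, Y) = ∑ c : CosetIdx p, (jFn p c.rep (topDiv p), jSer p c.rep (topDiv p)) :=
      Prod.ext (by rw [Prod.fst_sum]) (by rw [Prod.snd_sum])
    rwa [e]
  have hinv : ∀ (γ : SL(2, ℤ)) (z : ℍ), f (γ • z) = f z := by
    intro γ z
    rw [hval, hval]
    refine Fintype.sum_equiv (cosetPerm γ) _ _ fun c => ?_
    show jH (triSmul p 0 1 (c.rep • γ • z)) = modVal p (cosetOf (N := p) (c.rep * γ)) z
    rw [modVal_cosetOf, mul_smul]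
  obtain ⟨y₀, hy₀, hmem₁⟩ := mem_holPairs_one_of_periodic (hN := nat_pos_real p) hmem
    fun z => hinv _ z
  obtain ⟨Q, hQ, hQf⟩ := exists_aeval_jq hmem₁ hinv
  have hcoef : ∀ k, y₀.coeff k = ∑ c : CosetIdx p, (jSer p c.rep (topDiv p)).coeff ((p : ℤ) * k) :=
    fun k => by
      rw [← qScale_coeff_mul (R := ℂ) hp.ne_zero y₀ k, hy₀, hY, HahnSeries.coeff_sum]
  have hint : ∀ k, (aeval (jqModC ℂ) Q).coeff k ∈ (Int.castRingHom ℂ).range := by
    intro k
    rw [hQ, hcoef]
    refine Subring.sum_mem _ fun c _ => ?_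
    rcases coset_cases hp c with ⟨ha, -, -⟩ | ⟨ha, -, -⟩
    · obtain ⟨n, hn⟩ := coeff_jqModC_intCast ((p : ℤ) * k)
      exact ⟨n, by rw [(jSer_coeff c k).1 ha, hn]; rfl⟩
    · by_cases hk : (p : ℤ) ∣ k
      · obtain ⟨n, hn⟩ := coeff_jqModC_intCast (k / p)
        exact ⟨n, by rw [((jSer_coeff c k).2 ha).1 hk, hn]; rfl⟩
      · exact ⟨0, by rw [((jSer_coeff c k).2 ha).2 hk, map_zero]⟩
  have hlow : ∀ k : ℤ, k < -(p : ℤ) → y₀.coeff k = 0 := by
    intro k hk
    rw [hcoef]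
    refine Finset.sum_eq_zero fun c _ => ?_
    have := hp.two_le
    rcases coset_cases hp c with ⟨ha, -, -⟩ | ⟨ha, -, -⟩
    · rw [(jSer_coeff c k).1 ha, coeff_jqModC_of_lt ℂ (by nlinarith)]
    · by_cases hd : (p : ℤ) ∣ k
      · obtain ⟨i, rfl⟩ := hd
        rw [((jSer_coeff c _).2 ha).1 (dvd_mul_right _ _),
          Int.mul_ediv_cancel_left _ (by exact_mod_cast hp.ne_zero),
          coeff_jqModC_of_lt ℂ (by nlinarith)]
      · rw [((jSer_coeff c k).2 ha).2 hd]
  have htop : y₀.coeff (-(p : ℤ)) = 1 := by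
    have hmem' : (p, 0) ∈ cosetReps p := mem_cosetReps.mpr ⟨dvd_rfl, by
      rw [Nat.div_self hp.pos]; exact one_pos, by simp [Nat.div_self hp.pos]⟩
    set c₁ : CosetIdx p := ⟨(p, 0), hmem'⟩
    have ha₁ : c₁.a = p := rfl
    rw [hcoef, Finset.sum_eq_single c₁]
    · rw [((jSer_coeff c₁ _).2 ha₁).1 (dvd_neg.mpr dvd_rfl),
        show -(p : ℤ) / p = -1 by
          rw [Int.neg_ediv_of_dvd dvd_rfl, Int.ediv_self (by exact_mod_cast hp.ne_zero)],
        coeff_jqModC_neg_one]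
    · intro c _ hne
      have := hp.two_le
      rcases coset_cases hp c with ⟨ha, -, -⟩ | ⟨ha, -, hb⟩
      · rw [(jSer_coeff c _).1 ha, coeff_jqModC_of_lt ℂ (by nlinarith)]
      · exact absurd (CosetIdx.ext' (ha.trans ha₁.symm) hb) hne
    · simp
  have hQ0 : Q ≠ 0 := by
    intro h
    rw [h, map_zero] at hQ
    rw [← hQ] at htop
    simp at htop
  have hle : Q.natDegree ≤ p := by
    by_contra hlt
    have h1 := hlow (-(Q.natDegree : ℤ)) (by omega)
    rw [← hQ, coeff_aeval_jq_natDegree] at h1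
    exact leadingCoeff_ne_zero.mpr hQ0 h1
  have hdeg : Q.natDegree = p := by
    refine le_antisymm hle (le_of_not_gt fun hlt => ?_)
    rw [← hQ, aeval_eq_sum_range, HahnSeries.coeff_sum, Finset.sum_eq_zero] at htop
    · exact zero_ne_one htop
    · intro i hi
      rw [Algebra.smul_def, coeff_algebraMap_mul, coeff_jqModC_pow_of_lt ℂ, mul_zero]
      have := Finset.mem_range.mp hi
      omega
  have hmon : Q.Monic := by
    rw [Monic, ← coeff_aeval_jq_natDegree, hdeg, hQ, htop]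
  obtain ⟨P, hP, hPd, hPm⟩ := lifts_and_natDegree_eq_and_monic (f := Int.castRingHom ℂ)
    ((lifts_iff_coeff_lifts Q).mpr fun n => by
      exact coeff_mem_of_aeval_jqModC (Int.castRingHom ℂ).range Q hint n) hmon
  refine ⟨P, hPm, hPd.trans hdeg, fun z => ?_⟩
  rw [hP, ← hval]
  exact hQf z

theorem valuation_eval_monic {A : ValuationSubring Qb} {a : Qb} (ha : 1 < A.valuation a)
    (P : ℤ[X]) (hP : P.Monic) :
    A.valuation (aeval a P) = A.valuation a ^ P.natDegree := by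
  have h0 : (0 : A.ValueGroup) < A.valuation a := zero_lt_one.trans ha
  rw [aeval_eq_sum_range, Finset.sum_range_succ, hP.coeff_natDegree, one_smul,
    Valuation.map_add_eq_of_lt_right, map_pow]
  refine Valuation.map_sum_lt' _ (by rw [map_pow]; exact pow_pos h0 _) fun i hi => ?_
  rw [zsmul_eq_mul, map_mul, map_pow, map_pow]
  have h1 : A.valuation ((P.coeff i : ℤ) : Qb) ≤ 1 := by
    exact_mod_cast A.valuation_le_one ((P.coeff i : ℤ) : A)
  exact lt_of_le_of_lt (mul_le_of_le_one_left' h1)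
    (pow_lt_pow_right₀ ha (Finset.mem_range.mp hi))

/-- At a place where `j` has negative valuation, the `p + 1` values split as `1 + p`. -/
theorem exists_level_values [Fact p.Prime] (hp2 : p ≠ 2) (ι : Qb →+* ℂ)
    {A : ValuationSubring Qb} (hvp : A.valuation (p : Qb) = 1) {a : Qb}
    (ha : 1 < A.valuation a) {τ : ℍ} (hτ : jFun τ = ι a) :
    ∃ (b : CosetIdx p → Qb) (c₀ : CosetIdx p), (∀ c, ι (b c) = modVal p c τ) ∧
      A.valuation (b c₀) = A.valuation a ^ p ∧
      ∀ c, c ≠ c₀ → A.valuation (b c) ^ p = A.valuation a := by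
  classical
  have hp : p.Prime := Fact.out
  have h0 : (0 : A.ValueGroup) < A.valuation a := zero_lt_one.trans ha
  have ha0 : a ≠ 0 := fun h => by simp [h] at h0
  -- a node curve with invariant `a`
  obtain ⟨s, hs, hsv⟩ : ∃ s : Qb, s ^ 2 + a * s + 432 * a = 0 ∧ 1 < A.valuation s := by
    obtain ⟨s, hs⟩ := IsAlgClosed.exists_root (X ^ 2 + C a * X + C (432 * a))
      (by rw [degree_add_C (by rw [degree_add_eq_left_of_degree_lt] <;>
            simp [degree_C_mul_X ha0]),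
          degree_add_eq_left_of_degree_lt] <;> simp [degree_C_mul_X ha0])
    simp [IsRoot] at hs
    by_cases hsv : 1 < A.valuation s
    · exact ⟨s, hs, hsv⟩
    · refine ⟨-a - s, by linear_combination hs, ?_⟩
      rw [Valuation.map_sub_eq_of_lt_left _ (by
        rw [Valuation.map_neg]; exact (not_lt.mp hsv).trans_lt ha), Valuation.map_neg]
      exact ha
  have hs0 : s ≠ 0 := fun h => by simp [h] at hsv
  have hrv : A.valuation s⁻¹ < 1 := by rw [map_inv₀]; exact inv_lt_one_of_one_lt₀ hsv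
  set c : A := ⟨s⁻¹, A.mem_of_valuation_le_one _ hrv.le⟩ with hcdef
  have hc : IsLocalRing.residue A c = 0 := EllLocal.residue_eq_zero_of_valuation_lt A hrv
  have hc0 : (c : Qb) ≠ 0 := inv_ne_zero hs0
  have hj : (EllLocal.nodeGen c).c₄ ^ 3 / (EllLocal.nodeGen c).Δ = a := by
    have hΔ := nodeGen_Δ_ne_zero hc hc0
    rw [div_eq_iff hΔ, nodeGen_c₄, nodeGen_Δ, show (c : Qb) = s⁻¹ from rfl]
    field_simp
    linear_combination hs
  obtain ⟨P, hPp, hgen, hinj, hval⟩ := exists_level_points hp2 ι (EllLocal.nodeGen c)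
    (nodeGen_Δ_ne_zero hc hc0) τ (by rw [hj, hτ])
  obtain ⟨Q, hQm, hQd, hQ⟩ := exists_sum_poly (p := p)
  have hsum : ∑ i, velJ (EllLocal.nodeGen c) p (P i) = aeval a Q := by
    refine ι.injective ?_
    rw [map_sum, Finset.sum_congr rfl fun i _ => hval i, ← hQ, hτ, eval_map, aeval_def,
      hom_eval₂]
    congr 1
    exact RingHom.ext_int _ _
  have hCa : A.valuation a = (A.valuation (c : Qb))⁻¹ := by rw [← hj, valuation_node_j hc]
  obtain ⟨i₀, -, hi₀, hrest⟩ := node_classification hc hc0 hp hp2 hvp P hPp hgen hinj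
    (by rw [hsum, valuation_eval_monic ha Q hQm, hQd, hCa])
  exact ⟨fun i => velJ (EllLocal.nodeGen c) p (P i), i₀, hval, by rw [hCa]; exact hi₀,
    fun i hi => by rw [hCa]; exact (hrest i hi).2⟩

/-- The Fricke involution on `ℍ`. -/
def fricke (p : ℕ) [NeZero p] (z : ℍ) : ℍ := ModularGroup.S • triSmul p 0 1 z

theorem coe_fricke [NeZero p] (z : ℍ) : (fricke p z : ℂ) = -((p : ℂ) * z)⁻¹ := by
  rw [fricke, UpperHalfPlane.modular_S_smul]
  simp [coe_triSmul]

theorem jFun_fricke [NeZero p] (z : ℍ) : jFun (fricke p z) = jH (triSmul p 0 1 z) :=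
  jFun_smul _ _

theorem jH_mul_fricke [NeZero p] (z : ℍ) : jH (triSmul p 0 1 (fricke p z)) = jFun z := by
  have hp : (p : ℂ) ≠ 0 := by exact_mod_cast NeZero.ne p
  have : triSmul p 0 1 (fricke p z) = ModularGroup.S • z := by
    refine UpperHalfPlane.ext ?_
    rw [coe_triSmul, coe_fricke, UpperHalfPlane.modular_S_smul]
    have : (z : ℂ) ≠ 0 := z.ne_zero
    simp only [Int.cast_zero, add_zero, Nat.cast_one, div_one, mul_inv]
    field_simp
  rw [this]
  exact jFun_smul _ _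

/-- Two points whose Fricke images are `Γ₀(p)`-equivalent are equivalent. -/
theorem exists_of_fricke [NeZero p] {z z' : ℍ} {γ : SL(2, ℤ)} (hγ : γ ∈ Gamma0 p)
    (h : γ • fricke p z = fricke p z') : ∃ δ : SL(2, ℤ), δ ∈ Gamma0 p ∧ δ • z = z' := by
  have hdet : γ 0 0 * γ 1 1 - γ 0 1 * γ 1 0 = 1 := by
    have := γ.2
    rwa [Matrix.det_fin_two] at this
  obtain ⟨t, ht⟩ : (p : ℤ) ∣ γ 1 0 :=
    (ZMod.intCast_zmod_eq_zero_iff_dvd _ _).mp (Gamma0_mem.mp hγ)
  refine ⟨⟨!![γ 1 1, -t; -(p : ℤ) * γ 0 1, γ 0 0], by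
    rw [Matrix.det_fin_two_of]; rw [ht] at hdet; linear_combination hdet⟩, ?_, ?_⟩
  · rw [Gamma0_mem]
    simp
  have hp : (p : ℂ) ≠ 0 := by exact_mod_cast NeZero.ne p
  have hz : (z : ℂ) ≠ 0 := z.ne_zero
  have hz' : (z' : ℂ) ≠ 0 := z'.ne_zero
  have h' := congrArg (fun w : ℍ => (w : ℂ)) h
  simp only [ModularPlaces.coe_smul_eq_mob, ModularPlaces.mob, coe_fricke] at h'
  have hden := ModularPlaces.den_ne_zero γ (fricke p z).im_pos
  rw [ModularPlaces.den, coe_fricke] at hden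
  rw [div_eq_iff hden, ht] at h'
  push_cast at h'
  apply UpperHalfPlane.ext
  rw [ModularPlaces.coe_smul_eq_mob, ModularPlaces.mob]
  have hne := ModularPlaces.den_ne_zero (⟨!![γ 1 1, -t; -(p : ℤ) * γ 0 1, γ 0 0], by
    rw [Matrix.det_fin_two_of]; rw [ht] at hdet; linear_combination hdet⟩ : SL(2, ℤ)) z.im_pos
  rw [ModularPlaces.den] at hne
  simp only [Matrix.of_apply, Matrix.cons_val', Matrix.cons_val_zero, Matrix.cons_val_one,
    Matrix.cons_val_fin_one, Matrix.empty_val'] at hne ⊢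
  rw [div_eq_iff hne]
  push_cast
  field_simp at h'
  linear_combination h'

/-- A point is determined modulo `Γ₀(p)` by its two values, at multiplicative reduction. -/
theorem exists_gamma0_of_values [Fact p.Prime] (hp2 : p ≠ 2) (ι : Qb →+* ℂ)
    {A : ValuationSubring Qb} (hvp : A.valuation (p : Qb) = 1) {a b : Qb}
    (ha : 1 < A.valuation a) {τ τ' : ℍ} (hτ : jFun τ = ι a)
    (hτb : jH (triSmul p 0 1 τ) = ι b) (hτ' : jFun τ' = ι a)
    (hτ'b : jH (triSmul p 0 1 τ') = ι b) : ∃ γ : SL(2, ℤ), γ ∈ Gamma0 p ∧ γ • τ = τ' := by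
  have hp : p.Prime := Fact.out
  have key : ∀ (σ σ' : ℍ) (a b : Qb), 1 < A.valuation a → A.valuation b = A.valuation a ^ p →
      jFun σ = ι a → jH (triSmul p 0 1 σ) = ι b → jFun σ' = ι a → jH (triSmul p 0 1 σ') = ι b →
      ∃ γ : SL(2, ℤ), γ ∈ Gamma0 p ∧ γ • σ = σ' := by
    intro σ σ' a b ha hb h1 h2 h3 h4
    obtain ⟨v, c₀, hv, hc₀, hrest⟩ := exists_level_values hp2 ι hvp ha h1
    have huniq : ∀ γ : SL(2, ℤ), jH (triSmul p 0 1 (γ • σ)) = ι b →
        cosetOf (N := p) γ = c₀ := by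
      intro γ hγ
      by_contra hne
      have hvb : v (cosetOf (N := p) γ) = b := ι.injective (by rw [hv, modVal_cosetOf, hγ])
      have h := hrest _ hne
      rw [hvb, hb, ← pow_mul] at h
      conv_rhs at h => rw [← pow_one (A.valuation a)]
      have h5 : p * p = 1 := (pow_right_strictMono₀ ha).injective h
      have := hp.two_le
      nlinarith
    obtain ⟨γ, hγ⟩ := ModularPlaces.jE_injective_mod (z := σ) (z' := σ')
      (by rw [← ModularPlaces.jFun_eq_jE, h1, h3])
    refine ⟨γ, ?_, hγ⟩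
    have e1 := huniq 1 (by rwa [one_smul])
    have e2 := huniq γ (by rwa [hγ])
    have s1 := cosetOf_spec (N := p) (1 : SL(2, ℤ))
    have s2 := cosetOf_spec (N := p) γ
    rw [e1] at s1
    rw [e2] at s2
    have := (Gamma0 p).mul_mem s2 ((Gamma0 p).inv_mem s1)
    simpa using this
  obtain ⟨v, c₀, hv, hc₀, hrest⟩ := exists_level_values hp2 ι hvp ha hτ
  have hb : v (cosetOf (N := p) 1) = b :=
    ι.injective (by rw [hv, modVal_cosetOf, one_smul, hτb])
  by_cases hc : cosetOf (N := p) 1 = c₀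
  · exact key τ τ' a b ha (by rw [← hb, hc, hc₀]) hτ hτb hτ' hτ'b
  · have h := hrest _ hc
    rw [hb] at h
    have hb1 : 1 < A.valuation b := by
      by_contra hle
      rw [not_lt] at hle
      exact ha.not_ge (h ▸ pow_le_one₀ zero_le hle)
    obtain ⟨γ, hγ, hγτ⟩ := key (fricke p τ) (fricke p τ') b a hb1 h.symm
      (by rw [jFun_fricke, hτb]) (by rw [jH_mul_fricke, hτ])
      (by rw [jFun_fricke, hτ'b]) (by rw [jH_mul_fricke, hτ'])
    exact exists_of_fricke hγ hγτ

end FLTAgent.Mazur
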